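import Mathlib

/-!
# S18, block A (purity), leaf A3a: unramified in characteristic zero ⇒ trivial trace dual

`A ⊂ B` Dedekind domains of characteristic zero, `B` finite over `A`.  If no maximal ideal `q`
of `B` satisfies `(q ∩ A) B ⊆ q ^ 2` (i.e. `e(q) = 1` everywhere), then the different ideal of
`B / A` is `⊤`, hence every `x ∈ Frac B` with `Tr (x B) ⊆ A` lies in `B`.

`exists_pow_mul_isIntegral` is hypothesis (H2) of the abstract purity core (A1) in element form:
`P` a domain, `l ∈ P`, `P0 = P[1/l]` Dedekind of characteristic zero, `F / Frac P` finite, and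
the integral closure of `P0` in `F` unramified over `P0`.
-/

set_option autoImplicit false
set_option linter.overlappingInstances false
set_option linter.style.haveILetI false
set_option linter.unusedSectionVars false

open Ideal

namespace Fermat.Agent.S18.Purity.CharZeroDual

attribute [local instance] Ideal.Quotient.field
attribute [local instance] FractionRing.liftAlgebra FractionRing.isScalarTower_liftAlgebra

section Core

variable {A B : Type*} [CommRing A] [CommRing B] [IsDedekindDomain A] [IsDedekindDomain B]
  [Algebra A B] [Module.IsTorsionFree A B] [Module.Finite A B] [Algebra ℚ A]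

/-- In characteristic zero, a maximal ideal `q` of `B` with `(q ∩ A) B ⊄ q ^ 2` is unramified. -/
theorem isUnramifiedAt_of_not_le_sq (q : Ideal B) [q.IsMaximal] (hq0 : q ≠ ⊥)
    (h : ¬ (q.under A).map (algebraMap A B) ≤ q ^ 2) : Algebra.IsUnramifiedAt A q := by
  let := Localization.AtPrime.algebraOfLiesOver (q.under A) q
  rw [Algebra.isUnramifiedAt_iff_map_eq (p := q.under A)]
  constructor
  · suffices Algebra.IsSeparable (A ⧸ q.under A) (B ⧸ q) by infer_instance
    haveI : CharZero (A ⧸ q.under A) := algebraRat.charZero _
    exact Algebra.IsAlgebraic.isSeparable_of_perfectField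
  · rw [← Ideal.IsDedekindDomain.ramificationIdx'_eq_one_iff hq0 Ideal.map_comap_le]
    by_contra hne
    exact h ((Ideal.ramificationIdx'_ne_one_iff Ideal.map_comap_le).mp hne)

theorem isSeparable_fractionRing : Algebra.IsSeparable (FractionRing A) (FractionRing B) := by
  haveI : CharZero A := algebraRat.charZero _
  haveI : CharZero (FractionRing A) :=
    charZero_of_injective_algebraMap (IsFractionRing.injective A (FractionRing A))
  haveI : Algebra.IsAlgebraic (FractionRing A) (FractionRing B) := inferInstance
  exact Algebra.IsAlgebraic.isSeparable_of_perfectField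

/-- Everywhere unramified in characteristic zero: the different ideal is trivial. -/
theorem differentIdeal_eq_top
    (h : ∀ q : Ideal B, q.IsMaximal → q ≠ ⊥ → ¬ (q.under A).map (algebraMap A B) ≤ q ^ 2) :
    differentIdeal A B = ⊤ := by
  haveI : Algebra.IsSeparable (FractionRing A) (FractionRing B) := isSeparable_fractionRing
  by_contra hne
  obtain ⟨q, hqmax, hle⟩ := Ideal.exists_le_maximal _ hne
  have hq0 : q ≠ ⊥ := by
    rintro rfl
    exact differentIdeal_ne_bot (A := A) (B := B) (le_bot_iff.mp hle)
  have hdvd : q ∣ differentIdeal A B := Ideal.dvd_iff_le.mpr hle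
  have hunr : Algebra.IsUnramifiedAt A q := isUnramifiedAt_of_not_le_sq q hq0 (h q hqmax hq0)
  exact (not_dvd_differentIdeal_iff.mpr hunr) hdvd

variable {K L : Type*} [Field K] [Field L] [Algebra A K] [IsFractionRing A K] [Algebra B L]
  [IsFractionRing B L] [Algebra K L] [Algebra A L] [IsScalarTower A K L] [IsScalarTower A B L]
  [FiniteDimensional K L]

/-- Everywhere unramified in characteristic zero: the trace dual of `B` is `B`. -/
theorem mem_range_of_trace_mem
    (h : ∀ q : Ideal B, q.IsMaximal → q ≠ ⊥ → ¬ (q.under A).map (algebraMap A B) ≤ q ^ 2) (x : L)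
    (hx : ∀ y : B, Algebra.trace K L (x * algebraMap B L y) ∈ (algebraMap A K).range) :
    x ∈ (algebraMap B L).range := by
  haveI : CharZero A := algebraRat.charZero _
  haveI : CharZero K := charZero_of_injective_algebraMap (IsFractionRing.injective A K)
  haveI : Algebra.IsSeparable K L := Algebra.IsAlgebraic.isSeparable_of_perfectField
  haveI : IsIntegralClosure B A L := IsIntegralClosure.of_isIntegrallyClosed B A L
  have hd := coeIdeal_differentIdeal A K L B
  rw [differentIdeal_eq_top h] at hd
  have h1 : FractionalIdeal.dual A K (1 : FractionalIdeal (nonZeroDivisors B) L) = 1 := by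
    have : ((⊤ : Ideal B) : FractionalIdeal (nonZeroDivisors B) L) = 1 := by
      simp
    rw [this] at hd
    exact inv_eq_one.mp hd.symm
  have hmem : x ∈ FractionalIdeal.dual A K (1 : FractionalIdeal (nonZeroDivisors B) L) := by
    rw [FractionalIdeal.mem_dual (one_ne_zero (α := FractionalIdeal (nonZeroDivisors B) L))]
    intro a ha
    obtain ⟨y, rfl⟩ := (FractionalIdeal.mem_one_iff _).mp ha
    simpa [Algebra.traceForm_apply] using hx y
  rw [h1] at hmem
  obtain ⟨y, hy⟩ := (FractionalIdeal.mem_one_iff _).mp hmem
  exact ⟨y, hy⟩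

end Core

section H2

variable {P P0 K F : Type*} [CommRing P] (l : P) [CommRing P0] [IsDedekindDomain P0]
  [Algebra ℚ P0] [Algebra P P0] [IsLocalization.Away l P0]
  [Field K] [Field F] [Algebra P0 K] [IsFractionRing P0 K] [Algebra K F] [FiniteDimensional K F]
  [Algebra P0 F] [IsScalarTower P0 K F]
  [Algebra P K] [IsScalarTower P P0 K] [Algebra P F] [IsScalarTower P P0 F]

/-- **A3a = hypothesis (H2) of the purity core**, element form: if the integral closure of
`P0 = P[1/l]` in `F` is unramified over `P0` (characteristic zero), then every `x : F` whose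
traces against `P`-integral elements lie in `P[1/l]` is integral over `P` up to a power of `l`. -/
theorem exists_pow_mul_isIntegral
    (hram : ∀ q : Ideal (integralClosure P0 F), q.IsMaximal → q ≠ ⊥ →
      ¬ (q.under P0).map (algebraMap P0 (integralClosure P0 F)) ≤ q ^ 2)
    (x : F)
    (hx : ∀ y : F, IsIntegral P y → ∃ (m : ℕ) (p : P),
      algebraMap P K l ^ m * Algebra.trace K F (x * y) = algebraMap P K p) :
    ∃ m : ℕ, IsIntegral P (algebraMap P F l ^ m * x) := by
  haveI : CharZero P0 := algebraRat.charZero _
  haveI : CharZero K := charZero_of_injective_algebraMap (IsFractionRing.injective P0 K)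
  haveI : Algebra.IsSeparable K F := Algebra.IsAlgebraic.isSeparable_of_perfectField
  haveI : IsDedekindDomain (integralClosure P0 F) := integralClosure.isDedekindDomain P0 K F
  haveI : IsFractionRing (integralClosure P0 F) F :=
    integralClosure.isFractionRing_of_finite_extension K F
  haveI : Module.Finite P0 (integralClosure P0 F) := IsIntegralClosure.finite P0 K F _
  haveI : Module.IsTorsionFree P0 F := .trans_faithfulSMul P0 K F
  haveI : Module.IsTorsionFree P0 (integralClosure P0 F) := inferInstance
  haveI : IsScalarTower P K F := IsScalarTower.of_algebraMap_eq fun r => by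
    rw [IsScalarTower.algebraMap_apply P P0 F, IsScalarTower.algebraMap_apply P0 K F,
      ← IsScalarTower.algebraMap_apply P P0 K]
  have hl0 : algebraMap P K l ≠ 0 := by
    have hu : IsUnit (algebraMap P P0 l) := IsLocalization.Away.algebraMap_isUnit l
    rw [IsScalarTower.algebraMap_apply P P0 K]
    exact (hu.map (algebraMap P0 K)).ne_zero
  have hmem : x ∈ (algebraMap (integralClosure P0 F) F).range := by
    refine mem_range_of_trace_mem (A := P0) (B := integralClosure P0 F) (K := K) (L := F)
      hram x ?_
    intro y
    obtain ⟨⟨a, n, rfl⟩, ha⟩ :=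
      IsIntegral.exists_multiple_integral_of_isLocalization (Submonoid.powers l) (y : F) y.2
    rw [Submonoid.smul_def] at ha
    obtain ⟨m, p, hmp⟩ := hx _ ha
    have e1 : (l ^ n) • (y : F) = algebraMap K F (algebraMap P K l ^ n) * (y : F) := by
      rw [Algebra.smul_def, map_pow, map_pow, ← IsScalarTower.algebraMap_apply P K F]
    have e2 : Algebra.trace K F (x * ((l ^ n) • (y : F)))
        = algebraMap P K l ^ n * Algebra.trace K F (x * (y : F)) := by
      rw [e1, mul_left_comm, ← Algebra.smul_def, map_smul, smul_eq_mul]
    rw [e2, ← mul_assoc, ← pow_add] at hmp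
    -- `tr (x y) = p / l ^ (m + n)` lies in `P0`
    have hu : IsUnit (algebraMap P P0 (l ^ (m + n))) := by
      rw [map_pow]; exact (IsLocalization.Away.algebraMap_isUnit l).pow _
    obtain ⟨u, hu'⟩ := hu
    refine ⟨((u⁻¹ : P0ˣ) : P0) * algebraMap P P0 p, ?_⟩
    have hK : algebraMap P0 K (u : P0) = algebraMap P K l ^ (m + n) := by
      rw [hu', ← IsScalarTower.algebraMap_apply P P0 K, map_pow]
    have hKne : algebraMap P K l ^ (m + n) ≠ 0 := pow_ne_zero _ hl0
    have hinv : algebraMap P0 K ((u⁻¹ : P0ˣ) : P0) * algebraMap P K l ^ (m + n) = 1 := by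
      rw [← hK, ← map_mul, Units.inv_mul, map_one]
    show algebraMap P0 K (((u⁻¹ : P0ˣ) : P0) * algebraMap P P0 p)
      = Algebra.trace K F (x * algebraMap (integralClosure P0 F) F y)
    rw [map_mul, ← IsScalarTower.algebraMap_apply P P0 K, ← hmp, ← mul_assoc, hinv, one_mul]
    rfl
  obtain ⟨b, rfl⟩ := hmem
  obtain ⟨⟨a, n, rfl⟩, ha⟩ :=
    IsIntegral.exists_multiple_integral_of_isLocalization (Submonoid.powers l)
      ((b : integralClosure P0 F) : F) b.2
  rw [Submonoid.smul_def, Algebra.smul_def, map_pow] at ha
  exact ⟨n, ha⟩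

end H2

end Fermat.Agent.S18.Purity.CharZeroDual
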