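import Mathlib
import Fermat.Agent.S24.FFZeros
import Fermat.Agent.S24.FFDeriv
import Fermat.Agent.S24.FFPlaces_h18

/-!
# S18, block A (purity), leaf A3b: characteristic-zero unramifiedness from the place statement D5

`k0 ⊂ kb` fields of characteristic zero (`kb` algebraically closed, algebraic over `k0`),
`F0 / k0` and `Fb / kb` function fields with `F0 → Fb`, `P0` a `k0`-algebra inside `F0`
containing the coordinate `t` and in which the cusp polynomial `c(t)` is a unit.
If every place `v` of `Fb / kb` centred at a non-cuspidal value `t0` of `t` has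
`v.ord (t - t0) = 1` (block D5: no elliptic points), then no nonzero prime `q` of the integral
closure `B0` of `P0` in `F0` satisfies `(q ∩ P0) B0 ⊆ q ^ 2`, i.e. `B0 / P0` is unramified
(`e = 1`) at every nonzero prime.
-/

set_option autoImplicit false
set_option linter.unusedSectionVars false
set_option linter.style.haveILetI false

namespace Fermat.Agent.S18.Purity.CharZeroRam

open AlgebraicCurve IsDedekindDomain Polynomial IntermediateField Fermat.Agent.S24
open Fermat.Agent.S24.FFDeriv

section ValToPrime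

variable {B F : Type*} [CommRing B] [IsDedekindDomain B] [Field F] [Algebra B F]
  [IsFractionRing B F]

/-- A proper valuation subring of `Frac B` containing the Dedekind domain `B` is the valuation
ring of a nonzero prime of `B`. -/
theorem exists_heightOne_of_valuationSubring (O : ValuationSubring F)
    (hB : ∀ b : B, algebraMap B F b ∈ O) (hO : O ≠ ⊤) :
    ∃ P : HeightOneSpectrum B, (P.valuation F).valuationSubring = O := by
  let φ : B →+* O := (algebraMap B F).codRestrict O.toSubring hB
  have hφ : ∀ b : B, ((φ b : O) : F) = algebraMap B F b := fun _ => rfl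
  have hunit_inv : ∀ s : B, IsUnit (φ s) → (algebraMap B F s)⁻¹ ∈ O := by
    intro s hs
    obtain ⟨u, hu⟩ := hs
    have hinv : ((u⁻¹ : Oˣ) : O).1 = (algebraMap B F s)⁻¹ := by
      apply eq_inv_of_mul_eq_one_left
      have h := congrArg (fun z : O => (z : F)) (u.inv_mul)
      simp only [hu] at h
      exact h
    rw [← hinv]
    exact SetLike.coe_mem _
  let I : Ideal B := Ideal.comap φ (IsLocalRing.maximalIdeal O)
  have hI : I.IsPrime := Ideal.comap_isPrime _ _
  have hmem : ∀ b : B, b ∈ I ↔ ¬ IsUnit (φ b) := fun b => by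
    simp [I, IsLocalRing.mem_maximalIdeal]
  have hI0 : I ≠ ⊥ := by
    intro hbot
    apply hO
    refine SetLike.ext fun x => ⟨fun _ => ValuationSubring.mem_top x, fun _ => ?_⟩
    obtain ⟨a, b, hb, rfl⟩ := IsFractionRing.div_surjective (A := B) x
    have hb0 : b ≠ 0 := nonZeroDivisors.ne_zero hb
    have hbu : IsUnit (φ b) := by
      by_contra hnu
      have : b ∈ I := (hmem b).mpr hnu
      rw [hbot] at this
      exact hb0 ((Ideal.mem_bot).mp this)
    rw [div_eq_mul_inv]
    exact O.mul_mem _ _ (hB a) (hunit_inv b hbu)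
  refine ⟨⟨I, hI, hI0⟩, ?_⟩
  rw [← HeightOneSpectrum.valuationSubringAtPrime_eq_valuationSubring]
  refine ValuationSubring.eq_of_le_of_ne_top _ ?_ hO
  rintro x ⟨a, s, hs, rfl⟩
  have hsu : IsUnit (φ s) := by
    by_contra hnu
    exact hs ((hmem s).mpr hnu)
  show algebraMap B F a * (algebraMap B F s)⁻¹ ∈ O
  exact O.mul_mem _ _ (hB a) (hunit_inv s hsu)

end ValToPrime

section ValToPlace

variable (K : Type*) {F : Type*} [Field K] [Field F] [Algebra K F] (y : F)
  [CharZero K] [hy : Fact (Transcendental K y)] [FiniteDimensional K⟮y⟯ F]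

/-- polynomial expressions in `y` lie in every valuation ring containing `y` and `K`. -/
theorem aeval_mem_of_mem' (O : ValuationSubring F) (hK : ∀ a : K, algebraMap K F a ∈ O)
    (hyv : y ∈ O) (p : K[X]) : aeval y p ∈ O := by
  induction p using Polynomial.induction_on' with
  | add p q hp hq => rw [map_add]; exact O.add_mem _ _ hp hq
  | monomial n a =>
    rw [aeval_monomial]
    exact O.mul_mem _ _ (hK a) (pow_mem hyv n)

theorem Bof_le_of_mem' (O : ValuationSubring F) (hK : ∀ a : K, algebraMap K F a ∈ O)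
    (hyv : y ∈ O) (b : Bof K y) : algebraMap (Bof K y) F b ∈ O := by
  obtain ⟨p, hpm, hp0⟩ := b.2
  let φ : PolyOf K y →+* O :=
    (algebraMap (PolyOf K y) F).codRestrict O.toSubring
      (fun a => aeval_mem_of_mem' K y O hK hyv a)
  have hint : IsIntegral O (b : F) := by
    refine ⟨p.map φ, hpm.map φ, ?_⟩
    rw [Polynomial.eval₂_map]
    exact hp0
  obtain ⟨z, hz⟩ := IsIntegrallyClosed.isIntegral_iff.mp hint
  show (b : F) ∈ O
  rw [← hz]
  exact z.2

/-- In a function field of one variable over `K` (char. 0), every proper valuation subring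
containing `K` and the coordinate `y` is (the valuation ring of) a place. -/
theorem exists_place_of_valuationSubring (O : ValuationSubring F)
    (hK : ∀ a : K, algebraMap K F a ∈ O) (hyv : y ∈ O) (hO : O ≠ ⊤) :
    ∃ v : Place K F, v.toValuationSubring = O := by
  obtain ⟨P, hP⟩ := exists_heightOne_of_valuationSubring (B := Bof K y) O
    (Bof_le_of_mem' K y O hK hyv) hO
  exact ⟨placeOfPrime (K := K) (F := F) P, hP⟩

end ValToPlace

section OrdPoly

variable {K F : Type*} [Field K] [Field F] [Algebra K F] (v : Place K F)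

theorem aeval_mem (y : F) (hy : y ∈ v.toValuationSubring) (p : K[X]) :
    aeval y p ∈ v.toValuationSubring := by
  induction p using Polynomial.induction_on' with
  | add p q hp hq => rw [map_add]; exact v.toValuationSubring.add_mem _ _ hp hq
  | monomial n a =>
    rw [aeval_monomial]
    exact v.toValuationSubring.mul_mem _ _ (v.algebraMap_mem' a) (pow_mem hy n)

/-- If `h(t0) = 0` and `y ≡ t0` at `v`, then `h(y)` vanishes at `v`. -/
theorem geZ_aeval_of_root (y : F) (t0 : K) (hpos : 0 < v.ord (y - algebraMap K F t0))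
    (h : K[X]) (hroot : h.eval t0 = 0) : GeZ v (aeval y h) 1 := by
  have hy : y ∈ v.toValuationSubring := by
    have h1 : y - algebraMap K F t0 ∈ v.toValuationSubring := mem_of_ord_nonneg v hpos.le
    have := v.toValuationSubring.add_mem _ _ h1 (v.algebraMap_mem' t0)
    simpa using this
  have hfac : (X - C t0) * (h /ₘ (X - C t0)) = h :=
    Polynomial.mul_divByMonic_eq_iff_isRoot.mpr hroot
  rw [← hfac, map_mul]
  have h1 : GeZ v (aeval y (X - C t0)) 1 := by
    right
    simp only [map_sub, aeval_X, aeval_C]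
    omega
  have h2 : GeZ v (aeval y (h /ₘ (X - C t0))) 0 := geZ_of_mem (aeval_mem v y hy _)
  simpa using h1.mul h2

/-- If `h(t0) ≠ 0` and `y ≡ t0` at `v`, then `h(y)` is a unit at `v`. -/
theorem ord_aeval_of_not_root (y : F) (t0 : K) (hpos : 0 < v.ord (y - algebraMap K F t0))
    (h : K[X]) (hroot : h.eval t0 ≠ 0) : aeval y h ≠ 0 ∧ v.ord (aeval y h) = 0 := by
  have hsplit : h = C (h.eval t0) + (h - C (h.eval t0)) := by ring
  have hr : (h - C (h.eval t0)).eval t0 = 0 := by simp
  have h2 := geZ_aeval_of_root v y t0 hpos _ hr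
  have hx : algebraMap K F (h.eval t0) ≠ 0 := by
    simpa using hroot
  have h3 := ord_add_of_geZ (v := v) hx h2 (by rw [ord_algebraMap]; norm_num)
  rw [ord_algebraMap] at h3
  have : aeval y h = algebraMap K F (h.eval t0) + aeval y (h - C (h.eval t0)) := by
    conv_lhs => rw [hsplit]
    rw [map_add, aeval_C]
  rw [this]
  exact h3

/-- If `t0` is a simple root of `g` and `y ≡ t0` at `v`, then `ord g(y) = ord (y - t0)`. -/
theorem ord_aeval_of_simple_root (y : F) (t0 : K) (hpos : 0 < v.ord (y - algebraMap K F t0))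
    (g : K[X]) (hroot : g.eval t0 = 0) (hder : g.derivative.eval t0 ≠ 0) :
    aeval y g ≠ 0 ∧ v.ord (aeval y g) = v.ord (y - algebraMap K F t0) := by
  have hfac : (X - C t0) * (g /ₘ (X - C t0)) = g :=
    Polynomial.mul_divByMonic_eq_iff_isRoot.mpr hroot
  set g1 := g /ₘ (X - C t0) with hg1
  have hd : g.derivative.eval t0 = g1.eval t0 := by
    rw [← hfac]
    simp
  have h1 := ord_aeval_of_not_root v y t0 hpos g1 (hd ▸ hder)
  have hne : y - algebraMap K F t0 ≠ 0 := by
    intro h0
    rw [h0, Place.ord_zero] at hpos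
    exact lt_irrefl _ hpos
  have hval : aeval y g = (y - algebraMap K F t0) * aeval y g1 := by
    rw [← hfac, map_mul]
    simp
  rw [hval]
  refine ⟨mul_ne_zero hne h1.1, ?_⟩
  rw [v.ord_mul hne h1.1, h1.2, add_zero]

end OrdPoly

section Dominate

variable {B0 Fb : Type*} [CommRing B0] [IsDomain B0] [Field Fb] (g : B0 →+* Fb)
  (hg : Function.Injective g) (q : Ideal B0) [q.IsPrime]

include hg in
/-- Chevalley: a valuation subring of `Fb` containing the image of `B0` whose maximal ideal
contracts to the prime `q`. -/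
theorem exists_valuationSubring_dominating :
    ∃ O : ValuationSubring Fb, ∃ hO : ∀ b : B0, g b ∈ O,
      ∀ b : B0, b ∈ q ↔ ¬ IsUnit (⟨g b, hO b⟩ : O) := by
  have hunits : ∀ y : q.primeCompl, IsUnit (g y) := by
    intro y
    have hy0 : (y : B0) ≠ 0 := by
      intro h0
      exact y.2 (h0 ▸ q.zero_mem)
    exact (isUnit_iff_ne_zero).mpr (fun h => hy0 (hg (by rw [h, map_zero])))
  let R := Localization.AtPrime q
  let f : R →+* Fb := IsLocalization.lift (M := q.primeCompl) hunits
  obtain ⟨O, hO, hloc⟩ := IsLocalRing.exists_factor_valuationRing f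
  have hf : ∀ b : B0, f (algebraMap B0 R b) = g b := fun b => IsLocalization.lift_eq hunits b
  have hO' : ∀ b : B0, g b ∈ O := fun b => by
    rw [← hf b]; exact hO _
  refine ⟨O, hO', fun b => ?_⟩
  have h1 : IsUnit ((f.codRestrict O.toSubring hO) (algebraMap B0 R b)) ↔
      IsUnit (algebraMap B0 R b) := isUnit_map_iff _ _
  have h2 : (f.codRestrict O.toSubring hO) (algebraMap B0 R b) = (⟨g b, hO' b⟩ : O) :=
    Subtype.ext (hf b)
  rw [← h2, h1, IsLocalization.AtPrime.isUnit_to_map_iff R q b]
  simp [Ideal.primeCompl]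

end Dominate

section Main

variable {k0 kb F0 Fb P0 : Type*} [Field k0] [CharZero k0] [Field kb] [IsAlgClosed kb]
  [Algebra k0 kb] [Algebra.IsAlgebraic k0 kb]
  [Field F0] [Field Fb] [Algebra k0 F0] [Algebra kb Fb] [Algebra F0 Fb] [Algebra k0 Fb]
  [IsScalarTower k0 F0 Fb] [IsScalarTower k0 kb Fb]
  [CommRing P0] [Algebra k0 P0] [Algebra P0 F0] [IsScalarTower k0 P0 F0]

/-- **A3b, pointwise form.** Unramifiedness (`e = 1`) of the integral closure of `P0` in `F0` at
every nonzero prime `q` not containing the cusp polynomial `c(t)`, from the place-theoretic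
statement D5 over the algebraic closure. -/
theorem not_map_le_sq_of_not_mem (tP : P0) (c : k0[X])
    (htr : Transcendental kb (algebraMap F0 Fb (algebraMap P0 F0 tP)))
    (hfin : FiniteDimensional kb⟮algebraMap F0 Fb (algebraMap P0 F0 tP)⟯ Fb)
    (D5 : ∀ (v : Place kb Fb) (t0 : kb), aeval t0 c ≠ 0 →
      0 < v.ord (algebraMap F0 Fb (algebraMap P0 F0 tP) - algebraMap kb Fb t0) →
      v.ord (algebraMap F0 Fb (algebraMap P0 F0 tP) - algebraMap kb Fb t0) = 1)
    (q : Ideal (integralClosure P0 F0)) [q.IsPrime] (hq0 : q ≠ ⊥)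
    (hcq : algebraMap P0 (integralClosure P0 F0) (aeval tP c) ∉ q) :
    ¬ (q.under P0).map (algebraMap P0 (integralClosure P0 F0)) ≤ q ^ 2 := by
  haveI : CharZero kb := charZero_of_injective_algebraMap (algebraMap k0 kb).injective
  haveI : Fact (Transcendental kb (algebraMap F0 Fb (algebraMap P0 F0 tP))) := ⟨htr⟩
  set tb : Fb := algebraMap F0 Fb (algebraMap P0 F0 tP) with htb
  -- the embedding of `B0` into `Fb`
  let g : integralClosure P0 F0 →+* Fb :=
    (algebraMap F0 Fb).comp (algebraMap (integralClosure P0 F0) F0)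
  have hginj : Function.Injective g :=
    (algebraMap F0 Fb).injective.comp Subtype.val_injective
  have hgP : ∀ p : P0, g (algebraMap P0 (integralClosure P0 F0) p)
      = algebraMap F0 Fb (algebraMap P0 F0 p) := fun p => rfl
  obtain ⟨O, hO, hq⟩ := exists_valuationSubring_dominating g hginj q
  -- constants
  have hk0 : ∀ r : k0, algebraMap k0 Fb r ∈ O := by
    intro r
    have : algebraMap k0 Fb r = g (algebraMap P0 (integralClosure P0 F0) (algebraMap k0 P0 r)) := by
      rw [hgP, ← IsScalarTower.algebraMap_apply k0 P0 F0, ← IsScalarTower.algebraMap_apply k0 F0 Fb]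
    rw [this]
    exact hO _
  have hK : ∀ a : kb, algebraMap kb Fb a ∈ O := by
    intro a
    refine FFP18.mem_of_isIntegral_of_le (R := k0) O hk0 ?_
    have ha : IsIntegral k0 a := Algebra.IsIntegral.isIntegral a
    exact ha.map (IsScalarTower.toAlgHom k0 kb Fb)
  have htO : tb ∈ O := by
    have : tb = g (algebraMap P0 (integralClosure P0 F0) tP) := rfl
    rw [this]; exact hO _
  have hOtop : O ≠ ⊤ := by
    obtain ⟨b, hbq, hb0⟩ := Submodule.exists_mem_ne_zero_of_ne_bot hq0
    intro htop
    apply (hq b).mp hbq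
    have hgb0 : g b ≠ 0 := fun h => hb0 (hginj (by rw [h, map_zero]))
    have hinv : (g b)⁻¹ ∈ O := by rw [htop]; exact ValuationSubring.mem_top _
    refine isUnit_iff_exists_inv.mpr ⟨⟨(g b)⁻¹, hinv⟩, Subtype.ext ?_⟩
    simp [hgb0]
  obtain ⟨v, rfl⟩ := exists_place_of_valuationSubring kb tb O hK htO hOtop
  -- elements of `q` vanish at `v`
  have hqv : ∀ b : integralClosure P0 F0, b ∈ q → GeZ v (g b) 1 := by
    intro b hb
    by_cases hb0 : g b = 0
    · exact Or.inl hb0
    right
    have h1 : 0 < v.ord (g b) := by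
      rw [ord_pos_iff_mem_maximalIdeal v hb0]
      refine ⟨hO b, ?_⟩
      rw [IsLocalRing.mem_maximalIdeal, mem_nonunits_iff]
      exact (hq b).mp hb
    omega
  have hvq : ∀ b : integralClosure P0 F0, 0 < v.ord (g b) → b ∈ q := by
    intro b hb
    have hb0 : g b ≠ 0 := by
      intro h0
      rw [h0, Place.ord_zero] at hb
      exact lt_irrefl _ hb
    obtain ⟨hmem, hmax⟩ := (ord_pos_iff_mem_maximalIdeal v hb0).mp hb
    rw [IsLocalRing.mem_maximalIdeal, mem_nonunits_iff] at hmax
    exact (hq b).mpr hmax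
  -- the `t`-value of `v`
  obtain ⟨t0, ht0⟩ := exists_const_of_mem kb tb v htO tb htO
  have hpos : 0 < v.ord (tb - algebraMap kb Fb t0) := by
    rcases ht0 with h | h
    · exfalso
      exact htr (h ▸ isAlgebraic_algebraMap t0)
    · exact h
  -- it is not a cusp value
  have hct0 : aeval t0 c ≠ 0 := by
    intro h0
    have hroot : (c.map (algebraMap k0 kb)).eval t0 = 0 := by
      rw [Polynomial.eval_map_algebraMap]; exact h0
    have h1 := geZ_aeval_of_root v tb t0 hpos _ hroot
    rw [Polynomial.aeval_map_algebraMap] at h1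
    -- `c(t)` is a unit at `v`
    have e1 : aeval tb c = g (algebraMap P0 (integralClosure P0 F0) (aeval tP c)) := by
      rw [hgP, htb, ← Polynomial.aeval_algebraMap_apply, ← Polynomial.aeval_algebraMap_apply]
    have hunit : IsUnit (⟨g (algebraMap P0 (integralClosure P0 F0) (aeval tP c)), hO _⟩ :
        v.toValuationSubring) := by
      by_contra hnu
      exact hcq ((hq _).mpr hnu)
    have h0ord := v.ord_coe_unit hunit.unit
    rw [IsUnit.unit_spec] at h0ord
    have hne1 : g (algebraMap P0 (integralClosure P0 F0) (aeval tP c)) ≠ 0 := by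
      intro h0
      have : (⟨g (algebraMap P0 (integralClosure P0 F0) (aeval tP c)), hO _⟩ :
          v.toValuationSubring) = 0 := Subtype.ext h0
      rw [this] at hunit
      exact not_isUnit_zero hunit
    rw [e1] at h1
    have h4 := h1.le_ord hne1
    simp only at h0ord
    omega
  have hord1 := D5 v t0 hct0 hpos
  -- the minimal polynomial of the `t`-value
  have halg : IsIntegral k0 t0 := Algebra.IsIntegral.isIntegral t0
  set g0 : k0[X] := minpoly k0 t0 with hg0
  have hsep : g0.Separable := (minpoly.irreducible halg).separable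
  have hroot : (g0.map (algebraMap k0 kb)).eval t0 = 0 := by
    rw [Polynomial.eval_map_algebraMap]; exact minpoly.aeval k0 t0
  have hder : (g0.map (algebraMap k0 kb)).derivative.eval t0 ≠ 0 := by
    rw [Polynomial.derivative_map, Polynomial.eval_map_algebraMap]
    exact hsep.aeval_derivative_ne_zero (minpoly.aeval k0 t0)
  obtain ⟨hz0, hzord⟩ := ord_aeval_of_simple_root v tb t0 hpos _ hroot hder
  rw [Polynomial.aeval_map_algebraMap, hord1] at hzord
  rw [Polynomial.aeval_map_algebraMap] at hz0
  set z : P0 := aeval tP g0 with hz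
  have ez : aeval tb g0 = g (algebraMap P0 (integralClosure P0 F0) z) := by
    rw [hgP, hz, htb, ← Polynomial.aeval_algebraMap_apply, ← Polynomial.aeval_algebraMap_apply]
  rw [ez] at hzord hz0
  have hzq : algebraMap P0 (integralClosure P0 F0) z ∈ q := hvq _ (by omega)
  intro hle
  have hzmap : algebraMap P0 (integralClosure P0 F0) z ∈ q ^ 2 :=
    hle (Ideal.mem_map_of_mem _ (Ideal.mem_comap.mpr hzq))
  have hsq : ∀ b : integralClosure P0 F0, b ∈ q ^ 2 → GeZ v (g b) 2 := by
    intro b hb
    rw [pow_two] at hb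
    refine Submodule.mul_induction_on hb ?_ ?_
    · intro a ha b hb
      rw [map_mul]
      exact (hqv a ha).mul (hqv b hb)
    · intro a b ha hb
      rw [map_add]
      exact ha.add hb
  have := (hsq _ hzmap).le_ord hz0
  omega

/-- **A3b.** Unramifiedness (`e = 1`) of the integral closure of `P0` in `F0` at every nonzero
prime, when `c(t)` is a unit of `P0`. -/
theorem not_map_le_sq (tP : P0) (c : k0[X]) (hc : IsUnit (aeval tP c))
    (htr : Transcendental kb (algebraMap F0 Fb (algebraMap P0 F0 tP)))
    (hfin : FiniteDimensional kb⟮algebraMap F0 Fb (algebraMap P0 F0 tP)⟯ Fb)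
    (D5 : ∀ (v : Place kb Fb) (t0 : kb), aeval t0 c ≠ 0 →
      0 < v.ord (algebraMap F0 Fb (algebraMap P0 F0 tP) - algebraMap kb Fb t0) →
      v.ord (algebraMap F0 Fb (algebraMap P0 F0 tP) - algebraMap kb Fb t0) = 1)
    (q : Ideal (integralClosure P0 F0)) [hqp : q.IsPrime] (hq0 : q ≠ ⊥) :
    ¬ (q.under P0).map (algebraMap P0 (integralClosure P0 F0)) ≤ q ^ 2 := by
  refine not_map_le_sq_of_not_mem tP c htr hfin D5 q hq0 ?_
  intro hmem
  exact hqp.ne_top (Ideal.eq_top_of_isUnit_mem _ hmem (hc.map _))

end Main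

end Fermat.Agent.S18.Purity.CharZeroRam
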