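import Mathlib
import Fermat.Agent.S18.Purity.CharZeroDual
import Fermat.Agent.S18.Purity.CharZeroRam

/-!
# S18, block A (purity), leaf A3 in polynomial form

Hypothesis `h0` of `Purity.CoreS.purity_coreS` for `P = R[X] → F` (`X ↦ t`) and the submonoid of
denominators `S = {π ^ m c ^ k}`: the integral closure of `L[t]` (`L = R[1/π]`) in `F` has
different ideal containing a power of the cusp polynomial `c(t)`, because it is unramified at
every prime not containing `c(t)` (`CharZeroRam.not_map_le_sq_of_not_mem`, from the place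
statement D5 over the algebraic closure).
-/

set_option autoImplicit false
set_option linter.overlappingInstances false
set_option linter.style.haveILetI false
set_option linter.unusedSectionVars false

open AlgebraicCurve Polynomial IntermediateField IsDedekindDomain Fermat.Agent.S24

namespace Fermat.Agent.S18.Purity.CharZeroPoly

attribute [local instance] FractionRing.liftAlgebra FractionRing.isScalarTower_liftAlgebra

section Different

variable {L F kb Fb : Type*} [Field L] [CharZero L] [Field F] [Algebra L F] (t : F)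
  [hy : Fact (Transcendental L t)] [FiniteDimensional L⟮t⟯ F]
  [Field kb] [IsAlgClosed kb] [Algebra L kb] [Algebra.IsAlgebraic L kb]
  [Field Fb] [Algebra kb Fb] [Algebra F Fb] [Algebra L Fb]
  [IsScalarTower L F Fb] [IsScalarTower L kb Fb]

/-- (B2) the different of `Bof L t` over `L[t]` contains a power of `c(t)`. -/
theorem exists_pow_mem_differentIdeal (c : L[X])
    (htr : Transcendental kb (algebraMap F Fb t))
    (hfin : FiniteDimensional kb⟮algebraMap F Fb t⟯ Fb)
    (D5 : ∀ (v : Place kb Fb) (t0 : kb), aeval t0 c ≠ 0 →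
      0 < v.ord (algebraMap F Fb t - algebraMap kb Fb t0) →
      v.ord (algebraMap F Fb t - algebraMap kb Fb t0) = 1) :
    ∃ k : ℕ, (algebraMap (PolyOf L t) (Bof L t) (PolyOf.ofPoly L t c)) ^ k
      ∈ differentIdeal (PolyOf L t) (Bof L t) := by
  letI : Algebra ℚ (PolyOf L t) :=
    ((algebraMap L (PolyOf L t)).comp (algebraMap ℚ L)).toAlgebra
  haveI : Algebra.IsSeparable (FractionRing (PolyOf L t)) (FractionRing (Bof L t)) :=
    CharZeroDual.isSeparable_fractionRing
  rw [← Ideal.mem_radical_iff, Ideal.radical_eq_sInf, Ideal.mem_sInf]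
  rintro J ⟨hle, hJ⟩
  by_contra hcJ
  have hJ0 : J ≠ ⊥ := by
    rintro rfl
    exact differentIdeal_ne_bot (A := PolyOf L t) (B := Bof L t) (le_bot_iff.mp hle)
  haveI : J.IsMaximal := Ideal.IsPrime.isMaximal hJ hJ0
  have hdvd : J ∣ differentIdeal (PolyOf L t) (Bof L t) := Ideal.dvd_iff_le.mpr hle
  have htP : algebraMap (PolyOf L t) F (PolyOf.coord L t) = t := PolyOf.algebraMap_coord L t
  have hcc : aeval (PolyOf.coord L t) c = PolyOf.ofPoly L t c := by
    show aeval (X : L[X]) c = c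
    simp
  have hram : ¬ (J.under (PolyOf L t)).map (algebraMap (PolyOf L t) (Bof L t)) ≤ J ^ 2 := by
    refine CharZeroRam.not_map_le_sq_of_not_mem (k0 := L) (kb := kb) (F0 := F) (Fb := Fb)
      (P0 := PolyOf L t) (PolyOf.coord L t) c ?_ ?_ ?_ J hJ0 ?_
    · rw [htP]; exact htr
    · rw [htP]; exact hfin
    · rw [htP]; exact D5
    · rw [hcc]; exact hcJ
  have hunr : Algebra.IsUnramifiedAt (PolyOf L t) J :=
    CharZeroDual.isUnramifiedAt_of_not_le_sq J hJ0 hram
  exact (not_dvd_differentIdeal_iff.mpr hunr) hdvd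

end Different

section Dual

variable {A B K F : Type*} [CommRing A] [IsDedekindDomain A] [CommRing B] [IsDedekindDomain B]
  [Algebra A B] [Module.IsTorsionFree A B] [Module.Finite A B]
  [Field K] [Field F] [Algebra A K] [IsFractionRing A K] [Algebra B F] [IsFractionRing B F]
  [Algebra K F] [Algebra A F] [IsScalarTower A K F] [IsScalarTower A B F]
  [FiniteDimensional K F] [Algebra.IsSeparable K F]

/-- (B3) uniform denominator: if `c ^ k(y) • Tr (x y) ∈ A` for every `y : B`, then one `k` works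
for all `y`. -/
theorem exists_uniform_pow (c : A) (x : F)
    (hx : ∀ y : B, ∃ (k : ℕ) (a : A),
      algebraMap A K (c ^ k) * Algebra.trace K F (x * algebraMap B F y) = algebraMap A K a) :
    ∃ k : ℕ, ∀ y : B, ∃ a : A,
      algebraMap A K (c ^ k) * Algebra.trace K F (x * algebraMap B F y) = algebraMap A K a := by
  classical
  obtain ⟨n, s, hs⟩ := Module.Finite.exists_fin (R := A) (M := B)
  choose ks as hks using fun i => hx (s i)
  refine ⟨Finset.univ.sup ks, fun y => ?_⟩
  set k0 := Finset.univ.sup ks with hk0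
  -- the `A`-linear map `y ↦ c ^ k0 • Tr (x y)`
  let ψ : B →ₗ[A] K :=
    { toFun := fun y => algebraMap A K (c ^ k0) * Algebra.trace K F (x * algebraMap B F y)
      map_add' := fun y z => by simp [mul_add]
      map_smul' := fun a y => by
        simp only [RingHom.id_apply, Algebra.smul_def, map_mul]
        rw [← IsScalarTower.algebraMap_apply A B F, IsScalarTower.algebraMap_apply A K F,
          mul_left_comm x, ← Algebra.smul_def (algebraMap A K a), map_smul, smul_eq_mul]
        ring }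
  have hmem : y ∈ Submodule.span A (Set.range s) := by rw [hs]; trivial
  have : ψ y ∈ LinearMap.range (Algebra.linearMap A K) := by
    refine Submodule.span_induction (p := fun y _ => ψ y ∈ LinearMap.range (Algebra.linearMap A K))
      ?_ ?_ ?_ ?_ hmem
    · rintro _ ⟨i, rfl⟩
      have hle : ks i ≤ k0 := Finset.le_sup (Finset.mem_univ i)
      refine ⟨c ^ (k0 - ks i) * as i, ?_⟩
      show algebraMap A K (c ^ (k0 - ks i) * as i)
        = algebraMap A K (c ^ k0) * Algebra.trace K F (x * algebraMap B F (s i))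
      rw [map_mul, ← hks i, ← mul_assoc, ← map_mul, ← pow_add, Nat.sub_add_cancel hle]
    · simp
    · intro y z _ _ hy hz
      rw [map_add]; exact Submodule.add_mem _ hy hz
    · intro a y _ hy
      rw [map_smul]; exact Submodule.smul_mem _ a hy
  obtain ⟨a, ha⟩ := this
  exact ⟨a, ha.symm⟩

/-- (B4) if the different contains `c ^ k1` and `c ^ k0 • Tr (x B) ⊆ A`, then
`c ^ (k1 + k0) x ∈ B`. -/
theorem exists_mem_of_pow_mem_differentIdeal [IsIntegralClosure B A F] (c : A) (k1 k0 : ℕ)
    (hk1 : algebraMap A B c ^ k1 ∈ differentIdeal A B) (x : F)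
    (hx : ∀ y : B, ∃ a : A,
      algebraMap A K (c ^ k0) * Algebra.trace K F (x * algebraMap B F y) = algebraMap A K a) :
    ∃ b : B, algebraMap B F b = algebraMap A F (c ^ (k1 + k0)) * x := by
  have hd := coeIdeal_differentIdeal A K F B
  set z : F := algebraMap A F (c ^ k0) * x with hz
  have hzmem : z ∈ FractionalIdeal.dual A K (1 : FractionalIdeal (nonZeroDivisors B) F) := by
    rw [FractionalIdeal.mem_dual (one_ne_zero (α := FractionalIdeal (nonZeroDivisors B) F))]
    intro a ha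
    obtain ⟨y, rfl⟩ := (FractionalIdeal.mem_one_iff _).mp ha
    obtain ⟨a', ha'⟩ := hx y
    refine ⟨a', ?_⟩
    have htr : Algebra.trace K F (algebraMap A F (c ^ k0) * x * algebraMap B F y)
        = algebraMap A K (c ^ k0) * Algebra.trace K F (x * algebraMap B F y) := by
      rw [mul_assoc, IsScalarTower.algebraMap_apply A K F,
        ← Algebra.smul_def (algebraMap A K (c ^ k0)) (x * algebraMap B F y), map_smul, smul_eq_mul]
    rw [Algebra.traceForm_apply, hz, htr, ha']
  have hne : FractionalIdeal.dual A K (1 : FractionalIdeal (nonZeroDivisors B) F) ≠ 0 :=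
    FractionalIdeal.dual_ne_zero A K one_ne_zero
  have hcmem : algebraMap B F (algebraMap A B c ^ k1)
      ∈ ((differentIdeal A B : Ideal B) : FractionalIdeal (nonZeroDivisors B) F) :=
    (FractionalIdeal.mem_coeIdeal _).mpr ⟨_, hk1, rfl⟩
  rw [hd] at hcmem
  have hprod := FractionalIdeal.mul_mem_mul hcmem hzmem
  rw [inv_mul_cancel₀ hne] at hprod
  obtain ⟨b, hb⟩ := (FractionalIdeal.mem_one_iff _).mp hprod
  refine ⟨b, ?_⟩
  rw [hb, hz, pow_add, map_mul, map_pow, map_pow, ← IsScalarTower.algebraMap_apply A B F, map_pow,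
    mul_assoc]

end Dual

section Transfer

variable {R L F : Type*} [CommRing R] (π : R) [Field L] [Algebra R L]
  [IsLocalization.Away π L] [Field F] [Algebra L F] (t : F)

/-- the evaluation `R[X] → F`, `p ↦ p(t)` (through `L[X]`). -/
noncomputable def polyHom : R[X] →+* F :=
  ((aeval t : L[X] →ₐ[L] F) : L[X] →+* F).comp (mapRingHom (algebraMap R L))

omit [IsLocalization.Away π L] in
theorem polyHom_apply (p : R[X]) :
    polyHom (R := R) (L := L) t p = aeval t (p.map (algebraMap R L)) := rfl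

/-- integral over `L[t]` ⇒ integral over `R[t]` up to a power of `π`. -/
theorem exists_pow_mul_isIntegralElem (y : F)
    (hy : ((aeval t : L[X] →ₐ[L] F) : L[X] →+* F).IsIntegralElem y) :
    ∃ n : ℕ, (polyHom (R := R) (L := L) t).IsIntegralElem
      (polyHom (R := R) (L := L) t (C π ^ n) * y) := by
  letI : Algebra R[X] L[X] := Polynomial.algebra R L
  haveI : IsLocalization ((Submonoid.powers π).map (C : R →+* R[X])) L[X] :=
    Polynomial.isLocalization (Submonoid.powers π) L
  letI : Algebra L[X] F := ((aeval t : L[X] →ₐ[L] F) : L[X] →+* F).toAlgebra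
  letI : Algebra R[X] F := (polyHom (R := R) (L := L) t).toAlgebra
  haveI : IsScalarTower R[X] L[X] F := IsScalarTower.of_algebraMap_eq (fun p => rfl)
  have hy' : IsIntegral L[X] y := hy
  obtain ⟨⟨m, hm⟩, hint⟩ := IsIntegral.exists_multiple_integral_of_isLocalization
    ((Submonoid.powers π).map (C : R →+* R[X])) y hy'
  obtain ⟨_, ⟨n, rfl⟩, rfl⟩ := hm
  refine ⟨n, ?_⟩
  have : IsIntegral R[X] ((C (π ^ n) : R[X]) • y) := hint
  rw [Algebra.smul_def] at this
  rw [← C_pow]
  exact this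

end Transfer

section Main

variable {R L F kb Fb : Type*} [CommRing R] (π : R) [Field L] [CharZero L] [Algebra R L]
  [IsLocalization.Away π L] [Field F] [Algebra L F] (t : F)
  [hy : Fact (Transcendental L t)] [FiniteDimensional L⟮t⟯ F]
  [Field kb] [IsAlgClosed kb] [Algebra L kb] [Algebra.IsAlgebraic L kb]
  [Field Fb] [Algebra kb Fb] [Algebra F Fb] [Algebra L Fb]
  [IsScalarTower L F Fb] [IsScalarTower L kb Fb]

/-- **A3, polynomial form = hypothesis `h0` of `purity_coreS` for `P = R[X] → F`, `X ↦ t`,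
`S = {π ^ m c ^ k}`.**  If every place of `Fb / kb` centred at a value `t0` of `t` with
`c(t0) ≠ 0` has `ord (t - t0) = 1` (D5), then every `x : F` whose traces against `R[t]`-integral
elements lie in `R[t][1/π, 1/c]` is `R[t]`-integral up to an element `π ^ m c ^ k`. -/
theorem h2_poly (c : R[X])
    (htr : Transcendental kb (algebraMap F Fb t))
    (hfin : FiniteDimensional kb⟮algebraMap F Fb t⟯ Fb)
    (D5 : ∀ (v : Place kb Fb) (t0 : kb), aeval t0 (c.map (algebraMap R L)) ≠ 0 →
      0 < v.ord (algebraMap F Fb t - algebraMap kb Fb t0) →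
      v.ord (algebraMap F Fb t - algebraMap kb Fb t0) = 1)
    (x : F)
    (hx : ∀ y : F, (polyHom (R := R) (L := L) t).IsIntegralElem y → ∃ (m k : ℕ) (p : R[X]),
      polyHom (R := R) (L := L) t (C π ^ m * c ^ k) *
        algebraMap L⟮t⟯ F (Algebra.trace L⟮t⟯ F (x * y)) = polyHom (R := R) (L := L) t p) :
    ∃ m k : ℕ, (polyHom (R := R) (L := L) t).IsIntegralElem
      (polyHom (R := R) (L := L) t (C π ^ m * c ^ k) * x) := by
  set cL : L[X] := c.map (algebraMap R L) with hcL
  set cA : PolyOf L t := PolyOf.ofPoly L t cL with hcA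
  obtain ⟨k1, hk1⟩ := exists_pow_mem_differentIdeal (kb := kb) (Fb := Fb) t cL htr hfin D5
  -- `π` is invertible in `L`
  have hπu : IsUnit (algebraMap R L π) := IsLocalization.Away.algebraMap_isUnit π
  have hπ0 : algebraMap R L π ≠ 0 := hπu.ne_zero
  -- dictionary `polyHom` ↔ `PolyOf`
  have hφA : ∀ p : R[X], polyHom (R := R) (L := L) t p
      = algebraMap (PolyOf L t) F (PolyOf.ofPoly L t (p.map (algebraMap R L))) := fun p => rfl
  have hAK : ∀ a : PolyOf L t, algebraMap (PolyOf L t) F a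
      = algebraMap L⟮t⟯ F (algebraMap (PolyOf L t) L⟮t⟯ a) :=
    fun a => IsScalarTower.algebraMap_apply (PolyOf L t) L⟮t⟯ F a
  -- step 2: traces against `Bof L t`
  have h2 : ∀ y : Bof L t, ∃ (k : ℕ) (a : PolyOf L t),
      algebraMap (PolyOf L t) L⟮t⟯ (cA ^ k) *
        Algebra.trace L⟮t⟯ F (x * algebraMap (Bof L t) F y) = algebraMap (PolyOf L t) L⟮t⟯ a := by
    intro y
    obtain ⟨n, hn⟩ := exists_pow_mul_isIntegralElem (R := R) (L := L) π t (y : F) y.2
    obtain ⟨m, k, p, hmkp⟩ := hx _ hn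
    refine ⟨k, PolyOf.ofPoly L t (C ((algebraMap R L π)⁻¹ ^ (m + n)) * p.map (algebraMap R L)), ?_⟩
    -- rewrite everything inside `L⟮t⟯`
    set piA : PolyOf L t := PolyOf.ofPoly L t (C (algebraMap R L π)) with hpiA
    have e1 : polyHom (R := R) (L := L) t (C π ^ n)
        = algebraMap L⟮t⟯ F (algebraMap (PolyOf L t) L⟮t⟯ (piA ^ n)) := by
      rw [hφA, hAK]
      congr 2
      show (PolyOf.ofPoly L t ((C π ^ n : R[X]).map (algebraMap R L))) = piA ^ n
      rw [Polynomial.map_pow, Polynomial.map_C]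
      rfl
    have e2 : polyHom (R := R) (L := L) t (C π ^ m * c ^ k)
        = algebraMap L⟮t⟯ F (algebraMap (PolyOf L t) L⟮t⟯ (piA ^ m * cA ^ k)) := by
      rw [hφA, hAK]
      congr 2
      show (PolyOf.ofPoly L t ((C π ^ m * c ^ k : R[X]).map (algebraMap R L))) = piA ^ m * cA ^ k
      rw [Polynomial.map_mul, Polynomial.map_pow, Polynomial.map_pow, Polynomial.map_C]
      rfl
    have e3 : polyHom (R := R) (L := L) t p
        = algebraMap L⟮t⟯ F (algebraMap (PolyOf L t) L⟮t⟯
            (PolyOf.ofPoly L t (p.map (algebraMap R L)))) := by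
      rw [hφA, hAK]
    have e4 : Algebra.trace L⟮t⟯ F (x * (polyHom (R := R) (L := L) t (C π ^ n) * (y : F)))
        = algebraMap (PolyOf L t) L⟮t⟯ (piA ^ n) * Algebra.trace L⟮t⟯ F (x * (y : F)) := by
      rw [e1, mul_left_comm, ← Algebra.smul_def, map_smul, smul_eq_mul]
    rw [e2, e3, e4, ← map_mul] at hmkp
    have hK := (algebraMap L⟮t⟯ F).injective hmkp
    -- cancel the powers of `π`
    have hpiI : algebraMap (PolyOf L t) L⟮t⟯
        (PolyOf.ofPoly L t (C ((algebraMap R L π)⁻¹ ^ (m + n)))) *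
        algebraMap (PolyOf L t) L⟮t⟯ (piA ^ (m + n)) = 1 := by
      rw [← map_mul]
      have : PolyOf.ofPoly L t (C ((algebraMap R L π)⁻¹ ^ (m + n))) * piA ^ (m + n) = 1 := by
        show (C ((algebraMap R L π)⁻¹ ^ (m + n)) : L[X]) * (C (algebraMap R L π)) ^ (m + n) = 1
        rw [← C_pow, ← C_mul, ← mul_pow, inv_mul_cancel₀ hπ0, one_pow, C_1]
      rw [this, map_one]
    show algebraMap (PolyOf L t) L⟮t⟯ (cA ^ k) * Algebra.trace L⟮t⟯ F (x * (y : F)) = _
    have hsplit : PolyOf.ofPoly L t (C ((algebraMap R L π)⁻¹ ^ (m + n)) * p.map (algebraMap R L))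
        = PolyOf.ofPoly L t (C ((algebraMap R L π)⁻¹ ^ (m + n))) *
          PolyOf.ofPoly L t (p.map (algebraMap R L)) := rfl
    rw [hsplit, map_mul (algebraMap (PolyOf L t) L⟮t⟯), ← hK]
    have hpiI' : algebraMap (PolyOf L t) L⟮t⟯
        (PolyOf.ofPoly L t (C ((algebraMap R L π)⁻¹ ^ (m + n)))) *
        (algebraMap (PolyOf L t) L⟮t⟯ (piA ^ m) * algebraMap (PolyOf L t) L⟮t⟯ (piA ^ n)) = 1 := by
      rw [← map_mul (algebraMap (PolyOf L t) L⟮t⟯) (piA ^ m), ← pow_add]
      exact hpiI
    calc algebraMap (PolyOf L t) L⟮t⟯ (cA ^ k) * Algebra.trace L⟮t⟯ F (x * (y : F))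
        = (algebraMap (PolyOf L t) L⟮t⟯
            (PolyOf.ofPoly L t (C ((algebraMap R L π)⁻¹ ^ (m + n)))) *
          (algebraMap (PolyOf L t) L⟮t⟯ (piA ^ m) * algebraMap (PolyOf L t) L⟮t⟯ (piA ^ n))) *
          (algebraMap (PolyOf L t) L⟮t⟯ (cA ^ k) * Algebra.trace L⟮t⟯ F (x * (y : F))) := by
          rw [hpiI', one_mul]
      _ = _ := by
          rw [map_mul (algebraMap (PolyOf L t) L⟮t⟯) (piA ^ m)]
          ring
  obtain ⟨k0, hk0⟩ := exists_uniform_pow (A := PolyOf L t) (B := Bof L t) (K := L⟮t⟯) (F := F)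
    cA x h2
  obtain ⟨b, hb⟩ := exists_mem_of_pow_mem_differentIdeal (A := PolyOf L t) (B := Bof L t)
    (K := L⟮t⟯) (F := F) cA k1 k0 hk1 x hk0
  obtain ⟨n, hn⟩ := exists_pow_mul_isIntegralElem (R := R) (L := L) π t (b : F) b.2
  refine ⟨n, k1 + k0, ?_⟩
  have e5 : polyHom (R := R) (L := L) t (C π ^ n * c ^ (k1 + k0)) * x
      = polyHom (R := R) (L := L) t (C π ^ n) * (b : F) := by
    have hb' : (b : F) = algebraMap (PolyOf L t) F (cA ^ (k1 + k0)) * x := hb
    rw [hb', map_mul, mul_assoc]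
    congr 2
    rw [hφA]
    congr 1
    show (PolyOf.ofPoly L t ((c ^ (k1 + k0) : R[X]).map (algebraMap R L))) = cA ^ (k1 + k0)
    rw [Polynomial.map_pow]
    rfl
  rw [e5]
  exact hn

/-- the submonoid of denominators `{π ^ m c ^ k}` of `R[X]`. -/
def denoms {R : Type*} [CommRing R] (π : R) (c : R[X]) : Submonoid R[X] where
  carrier := {s | ∃ m k : ℕ, s = C π ^ m * c ^ k}
  one_mem' := ⟨0, 0, by simp⟩
  mul_mem' := by
    rintro _ _ ⟨m, k, rfl⟩ ⟨m', k', rfl⟩
    exact ⟨m + m', k + k', by ring⟩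

theorem mem_denoms {R : Type*} [CommRing R] (π : R) (c : R[X]) (s : R[X]) :
    s ∈ denoms π c ↔ ∃ m k : ℕ, s = C π ^ m * c ^ k := Iff.rfl

/-- **A3 = `h0` of `Purity.CoreS.purity_coreS`, verbatim shape**, for `P = R[X]`, `K = L⟮t⟯`,
`S = denoms π c`, any algebra structures with `algebraMap R[X] F p = p(t)` and any model `B` of
the integral closure of `R[X]` in `F`. -/
theorem h0_coreS [Algebra R[X] F]
    (hφ : ∀ p : R[X], algebraMap R[X] F p = polyHom (R := R) (L := L) t p)
    [Algebra R[X] L⟮t⟯] [IsScalarTower R[X] L⟮t⟯ F]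
    {B : Type*} [CommRing B] [Algebra R[X] B] [Algebra B F] [IsScalarTower R[X] B F]
    [IsIntegralClosure B R[X] F] (c : R[X])
    (htr : Transcendental kb (algebraMap F Fb t))
    (hfin : FiniteDimensional kb⟮algebraMap F Fb t⟯ Fb)
    (D5 : ∀ (v : Place kb Fb) (t0 : kb), aeval t0 (c.map (algebraMap R L)) ≠ 0 →
      0 < v.ord (algebraMap F Fb t - algebraMap kb Fb t0) →
      v.ord (algebraMap F Fb t - algebraMap kb Fb t0) = 1)
    (x : F)
    (hx : ∀ y : B, ∃ s ∈ denoms π c, ∃ p : R[X],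
      algebraMap R[X] L⟮t⟯ s * Algebra.trace L⟮t⟯ F (x * algebraMap B F y)
        = algebraMap R[X] L⟮t⟯ p) :
    ∃ s ∈ denoms π c, ∃ y : B, algebraMap R[X] L⟮t⟯ s • x = algebraMap B F y := by
  have hφ' : algebraMap R[X] F = polyHom (R := R) (L := L) t := RingHom.ext hφ
  have hint : ∀ z : F, (polyHom (R := R) (L := L) t).IsIntegralElem z ↔ IsIntegral R[X] z := by
    intro z
    unfold IsIntegral
    rw [hφ']
  obtain ⟨m, k, hmk⟩ := h2_poly (kb := kb) (Fb := Fb) π t c htr hfin D5 x (fun y hy => by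
    obtain ⟨b, rfl⟩ := (IsIntegralClosure.isIntegral_iff (A := B)).mp ((hint y).mp hy)
    obtain ⟨s, ⟨m, k, rfl⟩, p, hp⟩ := hx b
    refine ⟨m, k, p, ?_⟩
    have := congrArg (algebraMap L⟮t⟯ F) hp
    rw [map_mul, ← IsScalarTower.algebraMap_apply R[X] L⟮t⟯ F,
      ← IsScalarTower.algebraMap_apply R[X] L⟮t⟯ F, hφ, hφ] at this
    exact this)
  obtain ⟨b, hb⟩ := (IsIntegralClosure.isIntegral_iff (A := B)).mp ((hint _).mp hmk)
  refine ⟨C π ^ m * c ^ k, ⟨m, k, rfl⟩, b, ?_⟩
  rw [hb, Algebra.smul_def, ← IsScalarTower.algebraMap_apply R[X] L⟮t⟯ F, hφ]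

end Main

section DVR

/-- For a discrete valuation ring `R` with uniformiser `π`, `Frac R = R[1/π]`. -/
theorem isLocalization_away_of_irreducible {R L : Type*} [CommRing R] [IsDomain R]
    [IsDiscreteValuationRing R] [Field L] [Algebra R L] [IsFractionRing R L] (π : R)
    (hπ : Irreducible π) : IsLocalization.Away π L := by
  have hinj : Function.Injective (algebraMap R L) := IsFractionRing.injective R L
  refine ⟨?_, ?_, ?_⟩
  · rintro ⟨_, n, rfl⟩
    refine isUnit_iff_ne_zero.mpr ?_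
    rw [map_pow]
    exact pow_ne_zero _ (fun h => hπ.ne_zero (hinj (by rw [h, map_zero])))
  · intro z
    obtain ⟨a, b, hb, rfl⟩ := IsFractionRing.div_surjective (A := R) z
    have hb0 : b ≠ 0 := nonZeroDivisors.ne_zero hb
    obtain ⟨n, u, hu⟩ := IsDiscreteValuationRing.eq_unit_mul_pow_irreducible hb0 hπ
    refine ⟨(a * ((u⁻¹ : Rˣ) : R), ⟨π ^ n, n, rfl⟩), ?_⟩
    have hbL : algebraMap R L b ≠ 0 := fun h => hb0 (hinj (by rw [h, map_zero]))
    show algebraMap R L a / algebraMap R L b * algebraMap R L (π ^ n) = algebraMap R L (a * ((u⁻¹ : Rˣ) : R))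
    rw [div_mul_eq_mul_div, div_eq_iff hbL, ← map_mul, ← map_mul, hu]
    congr 1
    have : ((u⁻¹ : Rˣ) : R) * (u : R) = 1 := Units.inv_mul u
    calc a * π ^ n = a * (((u⁻¹ : Rˣ) : R) * (u : R)) * π ^ n := by rw [this, mul_one]
      _ = _ := by ring
  · intro x y hxy
    exact ⟨1, by rw [hinj hxy]⟩

end DVR

end Fermat.Agent.S18.Purity.CharZeroPoly
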