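import Mathlib
import Fermat.Agent.S18.Purity.CharZeroPoly

/-!
# S18, block A (purity), leaf A3-inst: hypothesis (H2) of `Purity/Chart.lean` (A4), element form

`h2_elementwise` is `CharZeroPoly.h2_poly` restated with `IsIntegral (Algebra.adjoin R {t})`
and the single denominator `(π c(t)) ^ m`, for a discrete valuation ring `R` with uniformiser `π`
and fraction field `L` (statement fixed by the block-A architect, board #1066).
-/

set_option autoImplicit false
set_option linter.overlappingInstances false
set_option linter.style.haveILetI false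
set_option linter.unusedSectionVars false
set_option linter.unusedVariables false

open AlgebraicCurve Polynomial IntermediateField

namespace Fermat.Agent.S18.Purity.CharZeroInst

open Fermat.Agent.S18.Purity.CharZeroPoly

section Integral

variable {R L F : Type*} [CommRing R] [Field L] [Algebra R L] [Field F] [Algebra L F]
  [Algebra R F] [IsScalarTower R L F] (t : F)

theorem polyHom_eq_aeval (p : R[X]) : polyHom (R := R) (L := L) t p = aeval t p := by
  rw [polyHom_apply, Polynomial.aeval_map_algebraMap]

/-- integrality over the subalgebra `R[t]` of `F` is integrality along `R[X] → F`, `X ↦ t`. -/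
theorem isIntegral_adjoin_iff_polyHom (y : F) :
    IsIntegral (Algebra.adjoin R {t}) y ↔ (polyHom (R := R) (L := L) t).IsIntegralElem y := by
  have hmem : ∀ p : R[X], polyHom (R := R) (L := L) t p ∈ Algebra.adjoin R {t} := by
    intro p
    rw [polyHom_eq_aeval, Algebra.adjoin_singleton_eq_range_aeval]
    exact ⟨p, rfl⟩
  let g : R[X] →+* Algebra.adjoin R {t} :=
    (polyHom (R := R) (L := L) t).codRestrict (Algebra.adjoin R {t}).toSubring hmem
  have hg : Function.Surjective g := by
    rintro ⟨z, hz⟩
    rw [Algebra.adjoin_singleton_eq_range_aeval] at hz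
    obtain ⟨p, rfl⟩ := hz
    exact ⟨p, Subtype.ext (polyHom_eq_aeval (L := L) t p)⟩
  letI : Algebra R[X] (Algebra.adjoin R {t}) := g.toAlgebra
  letI : Algebra R[X] F := (polyHom (R := R) (L := L) t).toAlgebra
  haveI : IsScalarTower R[X] (Algebra.adjoin R {t}) F :=
    IsScalarTower.of_algebraMap_eq (fun p => rfl)
  haveI : Algebra.IsIntegral R[X] (Algebra.adjoin R {t}) :=
    Algebra.isIntegral_of_surjective hg
  constructor
  · intro hy
    exact isIntegral_trans (R := R[X]) (A := Algebra.adjoin R {t}) y hy
  · intro hy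
    have hy' : IsIntegral R[X] y := hy
    exact hy'.tower_top

end Integral

section Main

/-- **A3-inst = hypothesis (H2) of A4 (`Purity/Chart.lean`), instance-free element form.** -/
theorem h2_elementwise {R L F : Type*} [CommRing R] [IsDomain R] [IsDiscreteValuationRing R]
    (π : R) (hπ : Irreducible π) [Field L] [CharZero L] [Algebra R L] [IsFractionRing R L]
    [Field F] [Algebra L F] [Algebra R F] [IsScalarTower R L F]
    (t : F) (ht : Transcendental L t) [FiniteDimensional L⟮t⟯ F] (c : R[X]) (hc0 : c ≠ 0)
    {kb Fb : Type*} [Field kb] [IsAlgClosed kb] [Algebra L kb] [Algebra.IsAlgebraic L kb]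
    [Field Fb] [Algebra kb Fb] [Algebra F Fb] [Algebra L Fb] [IsScalarTower L F Fb]
    [IsScalarTower L kb Fb]
    (htr : Transcendental kb (algebraMap F Fb t))
    (hfin : FiniteDimensional kb⟮algebraMap F Fb t⟯ Fb)
    (D5 : ∀ (v : Place kb Fb) (t0 : kb), aeval t0 (c.map (algebraMap R L)) ≠ 0 →
      0 < v.ord (algebraMap F Fb t - algebraMap kb Fb t0) →
      v.ord (algebraMap F Fb t - algebraMap kb Fb t0) = 1)
    (x : F)
    (hx : ∀ y : F, IsIntegral (Algebra.adjoin R {t}) y → ∃ (m : ℕ) (p : R[X]),
      (algebraMap R F π * aeval t c) ^ m *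
        algebraMap L⟮t⟯ F (Algebra.trace L⟮t⟯ F (x * y)) = aeval t p) :
    ∃ m : ℕ, IsIntegral (Algebra.adjoin R {t}) ((algebraMap R F π * aeval t c) ^ m * x) := by
  haveI : IsLocalization.Away π L := isLocalization_away_of_irreducible π hπ
  haveI : Fact (Transcendental L t) := ⟨ht⟩
  have hpc : ∀ m k : ℕ, polyHom (R := R) (L := L) t (C π ^ m * c ^ k)
      = algebraMap R F π ^ m * aeval t c ^ k := by
    intro m k
    rw [polyHom_eq_aeval, map_mul, map_pow, map_pow, aeval_C]
  obtain ⟨m, k, hmk⟩ := h2_poly (kb := kb) (Fb := Fb) π t c htr hfin D5 x (fun y hy => by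
    obtain ⟨m, p, hmp⟩ := hx y ((isIntegral_adjoin_iff_polyHom (L := L) t y).mpr hy)
    refine ⟨m, m, p, ?_⟩
    rw [hpc, ← mul_pow, polyHom_eq_aeval]
    exact hmp)
  rw [← isIntegral_adjoin_iff_polyHom, hpc] at hmk
  refine ⟨max m k, ?_⟩
  have hπint : IsIntegral (Algebra.adjoin R {t}) (algebraMap R F π) :=
    isIntegral_algebraMap (R := Algebra.adjoin R {t})
      (x := (⟨algebraMap R F π, Subalgebra.algebraMap_mem _ π⟩ : Algebra.adjoin R {t}))
  have hcint : IsIntegral (Algebra.adjoin R {t}) (aeval t c) := by
    have hmem : aeval t c ∈ Algebra.adjoin R {t} := by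
      rw [Algebra.adjoin_singleton_eq_range_aeval]; exact ⟨c, rfl⟩
    exact isIntegral_algebraMap (R := Algebra.adjoin R {t})
      (x := (⟨aeval t c, hmem⟩ : Algebra.adjoin R {t}))
  have hsplit : (algebraMap R F π * aeval t c) ^ max m k * x
      = (algebraMap R F π ^ (max m k - m) * aeval t c ^ (max m k - k)) *
        (algebraMap R F π ^ m * aeval t c ^ k * x) := by
    have h1 : algebraMap R F π ^ max m k
        = algebraMap R F π ^ (max m k - m) * algebraMap R F π ^ m := by
      rw [← pow_add, Nat.sub_add_cancel (le_max_left m k)]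
    have h2 : aeval t c ^ max m k = aeval t c ^ (max m k - k) * aeval t c ^ k := by
      rw [← pow_add, Nat.sub_add_cancel (le_max_right m k)]
    rw [mul_pow, h1, h2]
    ring
  rw [hsplit]
  exact ((hπint.pow _).mul (hcint.pow _)).mul hmk

end Main

end Fermat.Agent.S18.Purity.CharZeroInst
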