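import Fermat.Agent.S18.Purity.Core

/-!
# S18, block A (purity): the abstract core with a submonoid of denominators

Same as `Purity/Core.lean`, but the char-0 self-duality hypothesis is allowed denominators from an
arbitrary submonoid `S ≤ P` (in the application `S = {ℓ^m c^k}`, `c` the cusp polynomial, so that
`P` can be taken to be a plain polynomial ring `R[X]` and `B` the chart ring `B^t` itself).  The
conclusion is that the discriminant of the special fibre divides a power of `c̄`: the special fibre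
is etale away from `c̄ = 0`.
-/

set_option autoImplicit false

namespace Fermat.Agent.S18.Purity.CoreS

open Module Fermat.Agent.S18.Purity.Core

section Generic

variable {P B : Type*} [CommRing P] [CommRing B] [Algebra P B]
  (K F : Type*) [Field K] [Field F] [Algebra P K] [Algebra B F]
  [Algebra K F] [Algebra P F] [IsScalarTower P K F] [IsScalarTower P B F]

/-- the char-0 self-duality (with denominators in `S`) gives, for each `i`, a row `q` with
`q * g = s f^3 e_i`, `s ∈ S`. -/
theorem dual_stepS {n : ℕ} (hφ : Function.Injective (algebraMap P K))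
    (b : Fin n → B) (bK : Basis (Fin n) K F)
    (hbK : ∀ i, bK i = algebraMap B F (b i)) (hd : Algebra.discr K bK ≠ 0)
    (S : Submonoid P) (f : P) (hf : ∀ x : B, f • x ∈ Submodule.span P (Set.range b))
    (g : Fin n → Fin n → P)
    (hg : ∀ j k, algebraMap P K f * Algebra.trace K F (bK j * bK k) = algebraMap P K (g j k))
    (h0 : ∀ x : F, (∀ y : B, ∃ s ∈ S, ∃ p : P,
        algebraMap P K s * Algebra.trace K F (x * algebraMap B F y) = algebraMap P K p) →
      ∃ s ∈ S, ∃ y : B, algebraMap P K s • x = algebraMap B F y) (i : Fin n) :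
    ∃ s ∈ S, ∃ q : Fin n → P, ∀ k, ∑ j, q j * g j k = if k = i then s * f ^ 3 else 0 := by
  classical
  have hfin : Module.Finite K F := Module.Finite.of_basis bK
  have hnd : (Algebra.traceForm K F).Nondegenerate := by
    rw [LinearMap.BilinForm.nondegenerate_iff_det_ne_zero bK, ← Algebra.traceMatrix_of_basis,
      ← Algebra.discr_def]
    exact hd
  let d := (Algebra.traceForm K F).dualBasis hnd bK
  have hdual : ∀ j, Algebra.trace K F (d i * bK j) = if j = i then 1 else 0 := fun j => by
    have := LinearMap.BilinForm.apply_dualBasis_left hnd bK i j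
    rwa [Algebra.traceForm_apply] at this
  obtain ⟨s, hs, z, hz⟩ := h0 (algebraMap P K f • d i) (by
    intro y
    obtain ⟨c, hc⟩ := (Submodule.mem_span_range_iff_exists_fun P).mp (hf y)
    refine ⟨1, S.one_mem, c i, ?_⟩
    have h1 := sum_smul_eq K F b bK hbK f y c hc
    rw [map_one, one_mul, smul_mul_assoc, ← mul_smul_comm, ← h1, Finset.mul_sum, map_sum]
    simp_rw [mul_smul_comm, map_smul, hdual, smul_eq_mul, mul_ite, mul_one, mul_zero]
    rw [Finset.sum_ite_eq' Finset.univ i]
    simp)
  obtain ⟨q, hq⟩ := (Submodule.mem_span_range_iff_exists_fun P).mp (hf z)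
  refine ⟨s, hs, q, fun k => hφ ?_⟩
  have h1 := sum_smul_eq K F b bK hbK f z q hq
  -- pair with `bK k`
  have h2 : Algebra.trace K F ((∑ j, algebraMap P K (q j) • bK j) * bK k) =
      ∑ j, algebraMap P K (q j) * Algebra.trace K F (bK j * bK k) := by
    rw [Finset.sum_mul, map_sum]
    refine Finset.sum_congr rfl fun j _ => ?_
    rw [smul_mul_assoc, map_smul, smul_eq_mul]
  have h3 : Algebra.trace K F ((algebraMap P K f • algebraMap B F z) * bK k) =
      algebraMap P K f * (algebraMap P K s * (algebraMap P K f *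
        (if k = i then 1 else 0))) := by
    rw [← hz, smul_mul_assoc, map_smul, smul_eq_mul, smul_mul_assoc, map_smul, smul_eq_mul,
      smul_mul_assoc, map_smul, smul_eq_mul, hdual]
  rw [h1, h3] at h2
  -- multiply by `f`
  have h4 : algebraMap P K (∑ j, q j * g j k) =
      algebraMap P K f * ∑ j, algebraMap P K (q j) * Algebra.trace K F (bK j * bK k) := by
    rw [map_sum, Finset.mul_sum]
    refine Finset.sum_congr rfl fun j _ => ?_
    rw [map_mul, ← hg]
    ring
  rw [h4, ← h2]
  split_ifs
  · simp only [mul_one, map_mul, map_pow]; ring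
  · simp

end Generic

/-- **Purity, abstract core with denominators.**  The special fibre `Bb` is free over the PID `Pb`
on a basis `bb` whose discriminant divides (the reduction of) an element of `S`. -/
theorem purity_coreS
    {P B Pb Bb : Type*} [CommRing P] [IsDomain P] [CommRing B] [IsDomain B] [Algebra P B]
    [Module.Finite P B]
    [CommRing Pb] [IsDomain Pb] [IsPrincipalIdealRing Pb] [CommRing Bb] [IsDomain Bb]
    [Algebra Pb Bb]
    (πP : P →+* Pb) (πB : B →+* Bb)
    (hinj : Function.Injective (algebraMap P B))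
    (hinjb : Function.Injective (algebraMap Pb Bb))
    (ℓ : P)
    (hπP : Function.Surjective πP) (hπB : Function.Surjective πB)
    (hkerP : RingHom.ker πP = Ideal.span {ℓ})
    (hkerB : RingHom.ker πB = Ideal.span {algebraMap P B ℓ})
    (hcomm : ∀ p : P, πB (algebraMap P B p) = algebraMap Pb Bb (πP p))
    (n : ℕ)
    (K F : Type*) [Field K] [Field F] [Algebra P K] [IsFractionRing P K] [Algebra B F]
    [IsFractionRing B F] [Algebra K F] [Algebra P F] [IsScalarTower P K F] [IsScalarTower P B F]
    (hn : Module.finrank K F = n)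
    (Kb Fb : Type*) [Field Kb] [Field Fb] [Algebra Pb Kb] [IsFractionRing Pb Kb]
    [Algebra Bb Fb] [IsFractionRing Bb Fb] [Algebra Kb Fb] [Algebra Pb Fb]
    [IsScalarTower Pb Kb Fb] [IsScalarTower Pb Bb Fb]
    (hnb : Module.finrank Kb Fb = n) [Algebra.IsSeparable Kb Fb]
    (S : Submonoid P)
    (h0 : ∀ x : F, (∀ y : B, ∃ s ∈ S, ∃ p : P,
        algebraMap P K s * Algebra.trace K F (x * algebraMap B F y) = algebraMap P K p) →
      ∃ s ∈ S, ∃ y : B, algebraMap P K s • x = algebraMap B F y) :
    ∃ (f : P) (b : Fin n → B) (bb : Basis (Fin n) Pb Bb) (bK : Basis (Fin n) K F) (D e s : P),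
      s ∈ S ∧ πP f = 1 ∧ (∀ x : B, f • x ∈ Submodule.span P (Set.range b)) ∧
      (∀ i, πB (b i) = bb i) ∧ (∀ i, bK i = algebraMap B F (b i)) ∧
      algebraMap P K f ^ n * Algebra.discr K bK = algebraMap P K D ∧
      D * e = s * f ^ (3 * n) ∧
      πP D = Algebra.discr Pb bb ∧
      Algebra.discr Pb bb ≠ 0 := by
  classical
  have : Module.Finite Pb Bb := finite_special πP πB hπB hcomm
  obtain ⟨bb, hbb⟩ := exists_basis_special hinjb n Kb Fb hnb
  choose liftB hliftB using hπB
  let b : Fin n → B := fun i => liftB (bb i)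
  have hb : ∀ i, πB (b i) = bb i := fun i => hliftB _
  obtain ⟨f, hf1', hf⟩ := exists_f πP πB ℓ hπP hkerB hcomm bb b hb
  have hf1 : πP f = 1 := by
    rw [← hkerP, RingHom.mem_ker, map_sub, map_one, sub_eq_zero] at hf1'
    exact hf1'
  have hf0 : f ≠ 0 := by
    rintro rfl
    rw [map_zero] at hf1
    exact zero_ne_one hf1
  have hspan := span_eq_top K F hinj b f hf0 hf
  have hnpos : NeZero n := by
    refine ⟨?_⟩
    rintro rfl
    have : (1 : Bb) = 0 := by
      have := bb.sum_repr 1
      simpa using this.symm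
    exact one_ne_zero this
  have : FiniteDimensional K F :=
    Module.finite_of_finrank_pos (by rw [hn]; exact Nat.pos_of_neZero n)
  let bK : Basis (Fin n) K F :=
    basisOfTopLeSpanOfCardEqFinrank (fun i => algebraMap B F (b i)) hspan.ge
      (by rw [Fintype.card_fin, hn])
  have hbK : ∀ i, bK i = algebraMap B F (b i) := fun i => by
    simp [bK]
  have htl := trace_lift πP πB K F hcomm bb b hb bK hbK f hf1 hf
  choose t ht1 ht2 using htl
  obtain ⟨hg1, hg2⟩ := gram πP πB K F bb b hb bK hbK f t ht1 ht2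
  set G : Matrix (Fin n) (Fin n) P := Matrix.of fun i j => t (b i * b j) with hG
  have hφ : Function.Injective (algebraMap P K) := IsFractionRing.injective P K
  have hD0 : G.det ≠ 0 := by
    intro h
    rw [h, map_zero] at hg2
    exact hbb hg2.symm
  have hdK : Algebra.discr K bK ≠ 0 := by
    intro h
    rw [h, mul_zero] at hg1
    exact hD0 (hφ (by rw [← hg1, map_zero]))
  have hrows := dual_stepS K F hφ b bK hbK hdK S f hf (fun j k => t (b j * b k))
    (fun j k => by rw [hbK, hbK, ← map_mul, ht1]) h0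
  choose s hs q hq using hrows
  have hdet := det_mul_eq_of_rows (Matrix.of fun i j => q i j) G
    (fun i => s i * f ^ 3) (fun i k => by
      simp only [Matrix.of_apply, hG]
      exact hq i k)
  rw [Finset.prod_mul_distrib, Finset.prod_const, Finset.card_univ,
    Fintype.card_fin, ← pow_mul] at hdet
  exact ⟨f, b, bb, bK, G.det, _, ∏ i, s i, Submonoid.prod_mem S fun i _ => hs i, hf1, hf, hb, hbK,
    hg1, hdet, hg2, hbb⟩

/-- the submonoid `{ℓ^m c^k}`. -/
def denoms {P : Type*} [CommRing P] (ℓ c : P) : Submonoid P where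
  carrier := {s | ∃ m k : ℕ, s = ℓ ^ m * c ^ k}
  one_mem' := ⟨0, 0, by simp⟩
  mul_mem' := by
    rintro _ _ ⟨m, k, rfl⟩ ⟨m', k', rfl⟩
    exact ⟨m + m', k + k', by ring⟩

theorem mem_denoms {P : Type*} [CommRing P] {ℓ c s : P} :
    s ∈ denoms ℓ c ↔ ∃ m k : ℕ, s = ℓ ^ m * c ^ k := Iff.rfl

/-- **Purity, abstract core, etale away from `c`.**  If the generic fibre is trace-self-dual up to
denominators `ℓ^m c^k`, the special fibre `Bb` is free over the PID `Pb` on a basis `bb` whose
discriminant divides a power of `c̄ = πP c`. -/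
theorem purity_core_away
    {P B Pb Bb : Type*} [CommRing P] [IsDomain P] [CommRing B] [IsDomain B] [Algebra P B]
    [Module.Finite P B]
    [CommRing Pb] [IsDomain Pb] [IsPrincipalIdealRing Pb] [CommRing Bb] [IsDomain Bb]
    [Algebra Pb Bb]
    (πP : P →+* Pb) (πB : B →+* Bb)
    (hinj : Function.Injective (algebraMap P B))
    (hinjb : Function.Injective (algebraMap Pb Bb))
    (ℓ : P) (hℓ0 : ℓ ≠ 0) (c : P)
    (hπP : Function.Surjective πP) (hπB : Function.Surjective πB)
    (hkerP : RingHom.ker πP = Ideal.span {ℓ})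
    (hkerB : RingHom.ker πB = Ideal.span {algebraMap P B ℓ})
    (hcomm : ∀ p : P, πB (algebraMap P B p) = algebraMap Pb Bb (πP p))
    (n : ℕ)
    (K F : Type*) [Field K] [Field F] [Algebra P K] [IsFractionRing P K] [Algebra B F]
    [IsFractionRing B F] [Algebra K F] [Algebra P F] [IsScalarTower P K F] [IsScalarTower P B F]
    (hn : Module.finrank K F = n)
    (Kb Fb : Type*) [Field Kb] [Field Fb] [Algebra Pb Kb] [IsFractionRing Pb Kb]
    [Algebra Bb Fb] [IsFractionRing Bb Fb] [Algebra Kb Fb] [Algebra Pb Fb]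
    [IsScalarTower Pb Kb Fb] [IsScalarTower Pb Bb Fb]
    (hnb : Module.finrank Kb Fb = n) [Algebra.IsSeparable Kb Fb]
    (h0 : ∀ x : F, (∀ y : B, ∃ (m k : ℕ) (p : P),
        algebraMap P K (ℓ ^ m * c ^ k) * Algebra.trace K F (x * algebraMap B F y) =
          algebraMap P K p) →
      ∃ (m k : ℕ) (y : B), algebraMap P K (ℓ ^ m * c ^ k) • x = algebraMap B F y) :
    ∃ (f : P) (b : Fin n → B) (bb : Basis (Fin n) Pb Bb) (bK : Basis (Fin n) K F) (D e' : P)
      (k : ℕ),
      πP f = 1 ∧ (∀ x : B, f • x ∈ Submodule.span P (Set.range b)) ∧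
      (∀ i, πB (b i) = bb i) ∧ (∀ i, bK i = algebraMap B F (b i)) ∧
      algebraMap P K f ^ n * Algebra.discr K bK = algebraMap P K D ∧
      D * e' = c ^ k * f ^ (3 * n) ∧
      πP D = Algebra.discr Pb bb ∧
      Algebra.discr Pb bb ∣ πP c ^ k := by
  obtain ⟨f, b, bb, bK, D, e, s, hs, hf1, hf, hb, hbK, hg1, hdet, hg2, hbb⟩ :=
    purity_coreS πP πB hinj hinjb ℓ hπP hπB hkerP hkerB hcomm n K F hn Kb Fb hnb (denoms ℓ c)
      (fun x hx => by
        obtain ⟨m, k, y, hy⟩ := h0 x (fun y => by
          obtain ⟨s, ⟨m, k, rfl⟩, p, hp⟩ := hx y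
          exact ⟨m, k, p, hp⟩)
        exact ⟨_, ⟨m, k, rfl⟩, y, hy⟩)
  obtain ⟨m, k, rfl⟩ := hs
  have hprime : Prime ℓ := by
    rw [← Ideal.span_singleton_prime hℓ0, ← hkerP]
    exact RingHom.ker_isPrime πP
  have hnd : ¬ ℓ ∣ D := by
    intro h
    have : D ∈ RingHom.ker πP := by
      rw [hkerP]
      exact Ideal.mem_span_singleton.mpr h
    rw [RingHom.mem_ker, hg2] at this
    exact hbb this
  obtain ⟨e', he'⟩ := exists_mul_eq_of_prime hprime hnd m e (c ^ k * f ^ (3 * n))
    (by rw [hdet]; ring)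
  refine ⟨f, b, bb, bK, D, e', k, hf1, hf, hb, hbK, hg1, he', hg2, ?_⟩
  have h5 := congrArg πP he'
  rw [map_mul, map_mul, map_pow, map_pow, hf1, one_pow, mul_one, hg2] at h5
  exact ⟨πP e', h5.symm⟩

end Fermat.Agent.S18.Purity.CoreS
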