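import Mathlib

/-!
# S18, block A (purity): abstract unit-discriminant lemmas (Mathlib only)

* `discr_smul_mem_span`, `mem_span_of_isIntegral`, `integralClosure_eq_span`:
  a basis of integral elements with unit discriminant spans the integral closure.
-/

set_option autoImplicit false

namespace Fermat.Agent.S18.Purity.UnitDisc

open Algebra Matrix

section U1

variable {R K L : Type*} [CommRing R] [IsDomain R] [IsIntegrallyClosed R]
  [Field K] [Field L] [Algebra R K] [IsFractionRing R K] [Algebra K L] [Algebra R L]
  [IsScalarTower R K L]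
variable {ι : Type*} [Fintype ι] [DecidableEq ι]

omit [IsDomain R] in
/-- General-basis version of `Algebra.discr_mul_isIntegral_mem_adjoin`. -/
theorem discr_smul_mem_span (b : Module.Basis ι K L) (hb : ∀ i, IsIntegral R (b i))
    (hdisc : discr K b ≠ 0) {z : L} (hz : IsIntegral R z) :
    discr K b • z ∈ Submodule.span R (Set.range b) := by
  have : FiniteDimensional K L := Module.Finite.of_basis b
  have hinv : IsUnit (traceMatrix K b).det := by
    rw [← discr_def]; exact isUnit_iff_ne_zero.2 hdisc
  have H : (traceMatrix K b).det • (traceMatrix K b) *ᵥ (b.equivFun z) =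
      (traceMatrix K b).det • fun i => trace K L (z * b i) := by
    congr; exact traceMatrix_of_basis_mulVec _ _
  have cramer := mulVec_cramer (traceMatrix K b) fun i => trace K L (z * b i)
  suffices ∀ i, ((traceMatrix K b).det • b.equivFun z) i ∈ (⊥ : Subalgebra R K) by
    rw [← b.sum_repr z, Finset.smul_sum]
    refine Submodule.sum_mem _ fun i _ => ?_
    replace this := this i
    rw [← discr_def, Pi.smul_apply, Algebra.mem_bot] at this
    obtain ⟨r, hr⟩ := this
    rw [Module.Basis.equivFun_apply] at hr
    rw [← smul_assoc, ← hr, algebraMap_smul]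
    exact Submodule.smul_mem _ _ (Submodule.subset_span (Set.mem_range_self i))
  intro i
  rw [← H, ← mulVec_smul] at cramer
  replace cramer := congr_arg (mulVec (traceMatrix K b)⁻¹) cramer
  rw [mulVec_mulVec, nonsing_inv_mul _ hinv, mulVec_mulVec, nonsing_inv_mul _ hinv, one_mulVec,
    one_mulVec] at cramer
  rw [← congr_fun cramer i, cramer_apply, det_apply]
  refine
    Subalgebra.sum_mem _ fun σ _ => Subalgebra.zsmul_mem _ (Subalgebra.prod_mem _ fun j _ => ?_) _
  by_cases hji : j = i
  · simp only [updateCol_apply, hji]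
    exact Algebra.mem_bot.2
      (IsIntegrallyClosed.isIntegral_iff.1 <| isIntegral_trace (hz.mul <| hb _))
  · simp only [updateCol_apply, hji]
    exact Algebra.mem_bot.2
      (IsIntegrallyClosed.isIntegral_iff.1 <| isIntegral_trace <| (hb _).mul (hb _))

omit [IsDomain R] in
/-- A basis of integral elements whose discriminant is a unit of `R` spans every integral
element. -/
theorem mem_span_of_isIntegral (b : Module.Basis ι K L) (hb : ∀ i, IsIntegral R (b i))
    {u : R} (hu : IsUnit u) (hdu : discr K b = algebraMap R K u) {z : L} (hz : IsIntegral R z) :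
    z ∈ Submodule.span R (Set.range b) := by
  obtain ⟨v, hv⟩ := hu.exists_left_inv
  have hne : discr K b ≠ 0 := by
    intro h0
    have : algebraMap R K (v * u) = 0 := by rw [map_mul, ← hdu, h0, mul_zero]
    rw [hv, map_one] at this
    exact one_ne_zero this
  have h := discr_smul_mem_span b hb hne hz
  have h2 := Submodule.smul_mem _ v h
  rwa [hdu, algebraMap_smul, smul_smul, hv, one_smul] at h2

omit [IsDomain R] [IsIntegrallyClosed R] [IsFractionRing R K] [Fintype ι] [DecidableEq ι] in
theorem span_le_integralClosure (b : ι → L) (hb : ∀ i, IsIntegral R (b i)) :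
    Submodule.span R (Set.range b) ≤ Subalgebra.toSubmodule (integralClosure R L) := by
  rw [Submodule.span_le]
  rintro _ ⟨i, rfl⟩
  exact hb i

omit [IsDomain R] in
/-- **(U1)** a basis of integral elements with unit discriminant spans the integral closure. -/
theorem integralClosure_eq_span (b : Module.Basis ι K L) (hb : ∀ i, IsIntegral R (b i))
    {u : R} (hu : IsUnit u) (hdu : discr K b = algebraMap R K u) :
    Subalgebra.toSubmodule (integralClosure R L) = Submodule.span R (Set.range b) :=
  le_antisymm (fun _ hz => mem_span_of_isIntegral b hb hu hdu hz) (span_le_integralClosure b hb)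

end U1

section U1'

variable {P B : Type*} [CommRing P] [IsDomain P] [IsIntegrallyClosed P] [CommRing B] [IsDomain B]
  [Algebra P B]
variable {ι : Type*} [Fintype ι] [DecidableEq ι]

omit [IsIntegrallyClosed P] [Fintype ι] [DecidableEq ι] in
theorem algebraMap_injective_of_basis (b : Module.Basis ι P B) :
    Function.Injective (algebraMap P B) := by
  have hfree : Module.Free P B := Module.Free.of_basis b
  rw [injective_iff_map_eq_zero]
  intro r hr
  have h1 : r • (1 : B) = 0 := by rw [Algebra.smul_def, mul_one, hr]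
  rcases smul_eq_zero.1 h1 with h | h
  · exact h
  · exact absurd h one_ne_zero

open scoped nonZeroDivisors in
/-- **(U1')** a domain which is free over an integrally closed domain with a basis of unit
discriminant is integrally closed (normal). -/
theorem isIntegrallyClosed_of_isUnit_discr (b : Module.Basis ι P B)
    (hd : IsUnit (Algebra.discr P b)) : IsIntegrallyClosed B := by
  have hfin : Module.Finite P B := Module.Finite.of_basis b
  have hinj : Function.Injective (algebraMap P B) := algebraMap_injective_of_basis b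
  have hfaith : FaithfulSMul P B := (faithfulSMul_iff_algebraMap_injective P B).2 hinj
  have hfaithF : FaithfulSMul P (FractionRing B) :=
    (faithfulSMul_iff_algebraMap_injective P (FractionRing B)).2 <| by
      rw [IsScalarTower.algebraMap_eq P B (FractionRing B)]
      exact (IsFractionRing.injective B (FractionRing B)).comp hinj
  let _ : Algebra (FractionRing P) (FractionRing B) := FractionRing.liftAlgebra P (FractionRing B)
  have : IsScalarTower P (FractionRing P) (FractionRing B) :=
    FractionRing.isScalarTower_liftAlgebra P (FractionRing B)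
  have hint : Algebra.IsIntegral P B := Algebra.IsIntegral.of_finite P B
  have hloc : IsLocalization (Algebra.algebraMapSubmonoid B P⁰) (FractionRing B) := inferInstance
  let bF : Module.Basis ι (FractionRing P) (FractionRing B) :=
    b.localizationLocalization (FractionRing P) P⁰ (FractionRing B)
  have hdisc : discr (FractionRing P) bF = algebraMap P (FractionRing P) (discr P b) :=
    Algebra.discr_localizationLocalization P P⁰ (FractionRing B) b
  have hbF : ∀ i, IsIntegral P (bF i) := fun i => by
    rw [Module.Basis.localizationLocalization_apply]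
    exact (hint.isIntegral (b i)).algebraMap
  refine (isIntegrallyClosed_iff (FractionRing B)).2 fun {x} hx => ?_
  have hxP : IsIntegral P x := isIntegral_trans x hx
  have hmem := mem_span_of_isIntegral bF hbF hd hdisc hxP
  have hle : Submodule.span P (Set.range bF) ≤
      LinearMap.range (IsScalarTower.toAlgHom P B (FractionRing B)).toLinearMap := by
    rw [Submodule.span_le]
    rintro _ ⟨i, rfl⟩
    exact ⟨b i, by simp [bF, Module.Basis.localizationLocalization_apply]⟩
  obtain ⟨y, hy⟩ := hle hmem
  exact ⟨y, hy⟩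

end U1'

section U2

variable {P P' B B' : Type*} [CommRing P] [CommRing P'] [CommRing B] [CommRing B']
  [Algebra P B] [Algebra P' B']
variable {ι : Type*} [Fintype ι] [DecidableEq ι]
variable (φ : P →+* P') (ψ : B →+* B')

omit [DecidableEq ι] in
/-- Coordinates are compatible with a semilinear ring map sending basis to basis. -/
theorem repr_map_of_semilinear (hψ : ∀ p : P, ψ (algebraMap P B p) = algebraMap P' B' (φ p))
    (b : Module.Basis ι P B) (b' : Module.Basis ι P' B') (hb : ∀ i, ψ (b i) = b' i) (x : B)
    (k : ι) : b'.repr (ψ x) k = φ (b.repr x k) := by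
  have hx : ψ x = ∑ i, φ (b.repr x i) • b' i := by
    conv_lhs => rw [← b.sum_repr x]
    rw [map_sum]
    refine Finset.sum_congr rfl fun i _ => ?_
    rw [Algebra.smul_def, map_mul, hψ, hb, ← Algebra.smul_def]
  classical
  rw [hx, map_sum, Finsupp.coe_finsetSum, Finset.sum_apply]
  simp [Finsupp.single_apply]

/-- The trace is compatible with a semilinear ring map sending basis to basis. -/
theorem trace_map_of_semilinear (hψ : ∀ p : P, ψ (algebraMap P B p) = algebraMap P' B' (φ p))
    (b : Module.Basis ι P B) (b' : Module.Basis ι P' B') (hb : ∀ i, ψ (b i) = b' i) (x : B) :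
    Algebra.trace P' B' (ψ x) = φ (Algebra.trace P B x) := by
  rw [Algebra.trace_eq_matrix_trace b, Algebra.trace_eq_matrix_trace b', Matrix.trace,
    Matrix.trace, map_sum]
  refine Finset.sum_congr rfl fun i _ => ?_
  simp only [Matrix.diag_apply, Algebra.leftMulMatrix_eq_repr_mul]
  rw [← hb i, ← map_mul, repr_map_of_semilinear φ ψ hψ b b' hb]

/-- **(U2)** the Gram matrix of the trace form is compatible with a semilinear ring map sending
basis to basis (base change, quotient, localisation, ...). -/
theorem traceMatrix_map_of_semilinear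
    (hψ : ∀ p : P, ψ (algebraMap P B p) = algebraMap P' B' (φ p))
    (b : Module.Basis ι P B) (b' : Module.Basis ι P' B') (hb : ∀ i, ψ (b i) = b' i) :
    Algebra.traceMatrix P' b' = (Algebra.traceMatrix P b).map φ := by
  ext i j
  rw [Matrix.map_apply, Algebra.traceMatrix_apply, Algebra.traceMatrix_apply,
    Algebra.traceForm_apply, Algebra.traceForm_apply, ← hb i, ← hb j, ← map_mul,
    trace_map_of_semilinear φ ψ hψ b b' hb]

/-- **(U2)** the discriminant is compatible with a semilinear ring map sending basis to basis. -/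
theorem discr_map_of_semilinear
    (hψ : ∀ p : P, ψ (algebraMap P B p) = algebraMap P' B' (φ p))
    (b : Module.Basis ι P B) (b' : Module.Basis ι P' B') (hb : ∀ i, ψ (b i) = b' i) :
    Algebra.discr P' b' = φ (Algebra.discr P b) := by
  rw [Algebra.discr_def, Algebra.discr_def, traceMatrix_map_of_semilinear φ ψ hψ b b' hb,
    RingHom.map_det]
  rfl

/-- Unit discriminants survive every semilinear base change. -/
theorem isUnit_discr_of_semilinear
    (hψ : ∀ p : P, ψ (algebraMap P B p) = algebraMap P' B' (φ p))
    (b : Module.Basis ι P B) (b' : Module.Basis ι P' B') (hb : ∀ i, ψ (b i) = b' i)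
    (hd : IsUnit (Algebra.discr P b)) : IsUnit (Algebra.discr P' b') := by
  rw [discr_map_of_semilinear φ ψ hψ b b' hb]
  exact hd.map φ

end U2

section U3

variable {ι : Type*} [Fintype ι] [DecidableEq ι]

/-- **(U3a)** a finite-dimensional commutative algebra over a field having a basis of nonzero
discriminant is reduced. -/
theorem isReduced_of_discr_ne_zero {k C : Type*} [Field k] [CommRing C] [Algebra k C]
    (c : Module.Basis ι k C) (h : Algebra.discr k c ≠ 0) : IsReduced C := by
  refine ⟨fun x hx => ?_⟩
  have h0 : ∀ i, Algebra.trace k C (x * c i) = 0 := fun i =>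
    (Algebra.isNilpotent_trace_of_isNilpotent
      ((Commute.all x (c i)).isNilpotent_mul_right hx)).eq_zero
  have h1 := Algebra.traceMatrix_of_basis_mulVec c x
  have hv : c.equivFun x = 0 := by
    refine Matrix.eq_zero_of_mulVec_eq_zero (M := Algebra.traceMatrix k c) ?_ ?_
    · rwa [← Algebra.discr_def]
    · rw [h1]; funext i; exact h0 i
  exact (LinearEquiv.map_eq_zero_iff c.equivFun).1 hv

variable {P B : Type*} [CommRing P] [CommRing B] [Algebra P B]

/-- The induced basis of `B ⧸ 𝔪B` over `P ⧸ 𝔪`. -/
noncomputable def quotientBasis (𝔪 : Ideal P) (b : Module.Basis ι P B) :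
    Module.Basis ι (P ⧸ 𝔪) (B ⧸ 𝔪.map (algebraMap P B)) :=
  (Algebra.TensorProduct.basis (P ⧸ 𝔪) b).map
    (Algebra.TensorProduct.quotIdealMapEquivQuotTensor B 𝔪).symm.toLinearEquiv

omit [Fintype ι] [DecidableEq ι] in
theorem quotientBasis_apply (𝔪 : Ideal P) (b : Module.Basis ι P B) (i : ι) :
    quotientBasis 𝔪 b i = Ideal.Quotient.mk (𝔪.map (algebraMap P B)) (b i) := by
  rw [quotientBasis, Module.Basis.map_apply, Algebra.TensorProduct.basis_apply]
  apply (Algebra.TensorProduct.quotIdealMapEquivQuotTensor B 𝔪).injective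
  rw [AlgEquiv.toLinearEquiv_apply, AlgEquiv.apply_symm_apply]
  exact (Algebra.TensorProduct.quotIdealMapEquivQuotTensor_mk B 𝔪 (b i)).symm

theorem discr_quotientBasis (𝔪 : Ideal P) (b : Module.Basis ι P B) :
    Algebra.discr (P ⧸ 𝔪) (quotientBasis 𝔪 b) = Ideal.Quotient.mk 𝔪 (Algebra.discr P b) :=
  discr_map_of_semilinear (Ideal.Quotient.mk 𝔪) (Ideal.Quotient.mk (𝔪.map (algebraMap P B)))
    (fun _ => rfl) b (quotientBasis 𝔪 b) (fun i => (quotientBasis_apply 𝔪 b i).symm)

/-- **(U3c)** the fibre of a free algebra with unit discriminant over a maximal ideal is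
reduced. -/
theorem isReduced_quotient_of_isUnit_discr (𝔪 : Ideal P) [h𝔪 : 𝔪.IsMaximal]
    (b : Module.Basis ι P B) (hd : IsUnit (Algebra.discr P b)) :
    IsReduced (B ⧸ 𝔪.map (algebraMap P B)) := by
  let _ : Field (P ⧸ 𝔪) := Ideal.Quotient.field 𝔪
  refine isReduced_of_discr_ne_zero (quotientBasis 𝔪 b) ?_
  rw [discr_quotientBasis]
  exact (hd.map (Ideal.Quotient.mk 𝔪)).ne_zero

end U3

section U4

variable {ι : Type*} [Fintype ι] [DecidableEq ι]
variable {P B : Type*} [CommRing P] [IsDedekindDomain P] [CommRing B] [IsDomain B] [Algebra P B]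

/-- **(U4a)** a domain which is free over a Dedekind domain with a basis of unit discriminant is
a Dedekind domain. -/
theorem isDedekindDomain_of_isUnit_discr (b : Module.Basis ι P B)
    (hd : IsUnit (Algebra.discr P b)) : IsDedekindDomain B := by
  have hfin : Module.Finite P B := Module.Finite.of_basis b
  have hint : Algebra.IsIntegral P B := Algebra.IsIntegral.of_finite P B
  have h1 : IsNoetherianRing B := IsNoetherianRing.of_finite P B
  have h2 : Ring.DimensionLEOne B := Ring.DimensionLEOne.of_isIntegral P B
  have h3 : IsIntegrallyClosed B := isIntegrallyClosed_of_isUnit_discr b hd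
  exact { }

omit [IsDomain B] [Fintype ι] [DecidableEq ι] in
/-- In a Dedekind domain, an ideal with reduced quotient is not contained in the square of a
nonzero prime. -/
theorem not_le_sq_of_isReduced_quotient {B : Type*} [CommRing B] [IsDedekindDomain B]
    (I : Ideal B) (hI : I ≠ ⊥) [IsReduced (B ⧸ I)] (𝔮 : Ideal B) [h𝔮 : 𝔮.IsPrime] :
    ¬ I ≤ 𝔮 ^ 2 := by
  intro hle
  obtain ⟨J, hJ⟩ := Ideal.dvd_iff_le.2 hle
  have hJ0 : 𝔮 * J ≠ ⊥ := by
    intro h0
    apply hI
    rw [hJ, pow_two, mul_assoc, h0, Ideal.mul_bot]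
  have hsub : 𝔮 * J ≤ I := by
    intro y hy
    have hy2 : y ^ 2 ∈ I := by
      have : y ^ 2 ∈ (𝔮 * J) * (𝔮 * J) := by rw [pow_two]; exact Ideal.mul_mem_mul hy hy
      rw [hJ]
      have h3 : (𝔮 * J) * (𝔮 * J) ≤ 𝔮 ^ 2 * J := by
        rw [pow_two, mul_mul_mul_comm]
        exact Ideal.mul_mono_right Ideal.mul_le_left
      exact h3 this
    have hnil : IsNilpotent (Ideal.Quotient.mk I y) :=
      ⟨2, by rw [← map_pow]; exact Ideal.Quotient.eq_zero_iff_mem.2 hy2⟩
    exact Ideal.Quotient.eq_zero_iff_mem.1 hnil.eq_zero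
  have heq : 𝔮 * J * 𝔮 = 𝔮 * J * 1 := by
    rw [mul_one]
    refine le_antisymm Ideal.mul_le_left ?_
    calc 𝔮 * J ≤ I := hsub
      _ = 𝔮 * J * 𝔮 := by rw [hJ, pow_two]; ring
  have h1 : 𝔮 = 1 := mul_left_cancel₀ hJ0 heq
  exact h𝔮.ne_top (by rw [h1, Ideal.one_eq_top])

/-- **(U4b)** unit discriminant: no nonzero prime of `B` is ramified over `P`
(ideal form: `𝔪B ⊄ 𝔮²`). -/
theorem not_map_le_sq_of_isUnit_discr (b : Module.Basis ι P B) (hd : IsUnit (Algebra.discr P b))
    (𝔪 : Ideal P) [h𝔪 : 𝔪.IsMaximal] (h0 : 𝔪 ≠ ⊥) (𝔮 : Ideal B) [h𝔮 : 𝔮.IsPrime] :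
    ¬ 𝔪.map (algebraMap P B) ≤ 𝔮 ^ 2 := by
  have hD : IsDedekindDomain B := isDedekindDomain_of_isUnit_discr b hd
  have hred : IsReduced (B ⧸ 𝔪.map (algebraMap P B)) := isReduced_quotient_of_isUnit_discr 𝔪 b hd
  have hne : 𝔪.map (algebraMap P B) ≠ ⊥ := by
    rw [Ne, Ideal.map_eq_bot_iff_of_injective (algebraMap_injective_of_basis b)]
    exact h0
  exact not_le_sq_of_isReduced_quotient _ hne 𝔮

/-- **(U4c)** unit discriminant, element form: a generator `π` of a nonzero maximal ideal of `P`
is a uniformiser at every prime `𝔮` of `B` containing it: `π ∈ 𝔮`, `π ∉ 𝔮²`. -/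
theorem not_mem_sq_of_isUnit_discr (b : Module.Basis ι P B) (hd : IsUnit (Algebra.discr P b))
    (π : P) (hπ0 : π ≠ 0) [h𝔪 : (Ideal.span {π}).IsMaximal] (𝔮 : Ideal B) [h𝔮 : 𝔮.IsPrime] :
    algebraMap P B π ∉ 𝔮 ^ 2 := by
  intro hmem
  refine not_map_le_sq_of_isUnit_discr b hd (Ideal.span {π}) ?_ 𝔮 ?_
  · rwa [Ne, Ideal.span_singleton_eq_bot]
  · rw [Ideal.map_span, Set.image_singleton, Ideal.span_le, Set.singleton_subset_iff]
    exact hmem

end U4

end Fermat.Agent.S18.Purity.UnitDisc
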