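import Mathlib
import Fermat.Agent.S18.Purity.UnitDisc

/-!
# S18, block A (purity): unit discriminant, local generation of primes over a maximal ideal

`exists_mul_mem_map_of_isUnit_discr` : for a free `P`-algebra `B` with a basis of unit
discriminant, a maximal ideal `𝔭` of `P` and a proper ideal `𝔫 ⊇ 𝔭B` of `B`:
`∀ x ∈ 𝔫, ∃ s ∉ 𝔫, s * x ∈ 𝔭B` (i.e. `𝔫 B_𝔫 = 𝔭 B_𝔫`; Theorem N, local form, at etale points).
-/

set_option autoImplicit false

namespace Fermat.Agent.S18.Purity.UnitDiscLocal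

open Fermat.Agent.S18.Purity.UnitDisc

section U6

/-- In a reduced Artinian ring every element of a proper ideal is killed by an element outside
the ideal (`x ^ n = x ^ (n+1) c`, so `x (1 - x c)` is nilpotent). -/
theorem exists_mul_eq_zero_of_mem {C : Type*} [CommRing C] [IsArtinianRing C] [IsReduced C]
    (𝔫 : Ideal C) (h𝔫 : 𝔫 ≠ ⊤) {x : C} (hx : x ∈ 𝔫) : ∃ s : C, s ∉ 𝔫 ∧ s * x = 0 := by
  let chain : ℕ →o (Ideal C)ᵒᵈ :=
    { toFun := fun n => OrderDual.toDual (Ideal.span {x ^ n})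
      monotone' := by
        intro a b hab
        change Ideal.span {x ^ b} ≤ Ideal.span {x ^ a}
        rw [Ideal.span_singleton_le_span_singleton]
        exact pow_dvd_pow x hab }
  obtain ⟨n, hn⟩ := IsArtinian.monotone_stabilizes chain
  have h1 : Ideal.span {x ^ n} = Ideal.span {x ^ (n + 1)} :=
    congrArg OrderDual.ofDual (hn (n + 1) (Nat.le_succ n))
  have h2 : x ^ n ∈ Ideal.span {x ^ (n + 1)} := by
    rw [← h1]; exact Ideal.mem_span_singleton_self _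
  obtain ⟨c, hc⟩ := Ideal.mem_span_singleton'.1 h2
  refine ⟨1 - x * c, fun hmem => h𝔫 ?_, ?_⟩
  · rw [Ideal.eq_top_iff_one]
    have : (1 : C) = (1 - x * c) + x * c := by ring
    rw [this]
    exact 𝔫.add_mem hmem (𝔫.mul_mem_right c hx)
  · have hnil : IsNilpotent ((1 - x * c) * x) := by
      refine ⟨n + 1, ?_⟩
      have : ((1 - x * c) * x) ^ (n + 1) =
          (1 - x * c) ^ n * x * ((1 - x * c) * x ^ n) := by
        rw [mul_pow, pow_succ, pow_succ]; ring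
      rw [this]
      have h0 : (1 - x * c) * x ^ n = 0 := by
        have : (1 - x * c) * x ^ n = x ^ n - c * x ^ (n + 1) := by ring
        rw [this, hc, sub_self]
      rw [h0, mul_zero]
    exact hnil.eq_zero

variable {ι : Type*} [Fintype ι] [DecidableEq ι]
variable {P B : Type*} [CommRing P] [CommRing B] [Algebra P B]

/-- **(U6)** unit discriminant: at a prime `𝔫` of `B` over a maximal ideal `𝔭` of `P`, the
ideal `𝔫` is locally generated by `𝔭`: `𝔫 B_𝔫 = 𝔭 B_𝔫`, in the element form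
`∀ x ∈ 𝔫, ∃ s ∉ 𝔫, s * x ∈ 𝔭 B`. (If `𝔭 = (π, h)` this is `𝔫 B_𝔫 = (π, h) B_𝔫`.) -/
theorem exists_mul_mem_map_of_isUnit_discr (b : Module.Basis ι P B)
    (hd : IsUnit (Algebra.discr P b)) (𝔭 : Ideal P) [h𝔭 : 𝔭.IsMaximal] (𝔫 : Ideal B)
    (h𝔫 : 𝔫 ≠ ⊤) (hle : 𝔭.map (algebraMap P B) ≤ 𝔫) {x : B} (hx : x ∈ 𝔫) :
    ∃ s : B, s ∉ 𝔫 ∧ s * x ∈ 𝔭.map (algebraMap P B) := by
  let _ : Field (P ⧸ 𝔭) := Ideal.Quotient.field 𝔭
  have hred : IsReduced (B ⧸ 𝔭.map (algebraMap P B)) :=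
    isReduced_quotient_of_isUnit_discr 𝔭 b hd
  have hfin : Module.Finite (P ⧸ 𝔭) (B ⧸ 𝔭.map (algebraMap P B)) :=
    Module.Finite.of_basis (quotientBasis 𝔭 b)
  have hart : IsArtinianRing (B ⧸ 𝔭.map (algebraMap P B)) :=
    IsArtinianRing.of_finite (P ⧸ 𝔭) (B ⧸ 𝔭.map (algebraMap P B))
  set mk := Ideal.Quotient.mk (𝔭.map (algebraMap P B)) with hmk
  have hcomap : (𝔫.map mk).comap mk = 𝔫 := by
    rw [Ideal.comap_map_of_surjective mk Ideal.Quotient.mk_surjective, ← RingHom.ker_eq_comap_bot,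
      Ideal.mk_ker, sup_eq_left]
    exact hle
  have hne : 𝔫.map mk ≠ ⊤ := by
    intro htop
    apply h𝔫
    rw [← hcomap, htop, Ideal.comap_top]
  obtain ⟨sbar, hs1, hs2⟩ :=
    exists_mul_eq_zero_of_mem (𝔫.map mk) hne (Ideal.mem_map_of_mem mk hx)
  obtain ⟨s, rfl⟩ := Ideal.Quotient.mk_surjective sbar
  refine ⟨s, fun hs => hs1 (Ideal.mem_map_of_mem mk hs), ?_⟩
  rw [← Ideal.Quotient.eq_zero_iff_mem, map_mul]
  exact hs2

/-- **(U6')** two-generator form: if the maximal ideal of `P` is `(π, h)`, then at every proper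
ideal `𝔫 ⊇ (π, h) B` one has `𝔫 B_𝔫 = (π, h) B_𝔫`. -/
theorem exists_mul_eq_pair_of_isUnit_discr (b : Module.Basis ι P B)
    (hd : IsUnit (Algebra.discr P b)) (π h : P) [h𝔭 : (Ideal.span {π, h}).IsMaximal]
    (𝔫 : Ideal B) (h𝔫 : 𝔫 ≠ ⊤) (hπ : algebraMap P B π ∈ 𝔫) (hh : algebraMap P B h ∈ 𝔫)
    {x : B} (hx : x ∈ 𝔫) :
    ∃ s : B, s ∉ 𝔫 ∧ ∃ a c : B, s * x = a * algebraMap P B π + c * algebraMap P B h := by
  have hmap : (Ideal.span {π, h}).map (algebraMap P B) =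
      Ideal.span {algebraMap P B π, algebraMap P B h} := by
    rw [Ideal.map_span, Set.image_pair]
  have hle : (Ideal.span {π, h}).map (algebraMap P B) ≤ 𝔫 := by
    rw [hmap, Ideal.span_le]
    rintro y (rfl | rfl)
    · exact hπ
    · exact hh
  obtain ⟨s, hs, hsx⟩ := exists_mul_mem_map_of_isUnit_discr b hd (Ideal.span {π, h}) 𝔫 h𝔫 hle hx
  rw [hmap, Ideal.mem_span_pair] at hsx
  obtain ⟨a, c, hac⟩ := hsx
  exact ⟨s, hs, a, c, hac.symm⟩

end U6

end Fermat.Agent.S18.Purity.UnitDiscLocal
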