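import Mathlib
import Fermat.Agent.S18.Purity.UnitDiscLocal

/-!
# S18, block A (purity), leaf A6: local generators `(ℓ, T)` of maximal ideals at etale points

Notation of `Purity/Core.lean` (`purity_core`): `πP : P → Pb`, `πB : B → Bb` surjective,
`ker πB = ℓ B`, `Bb` free over the principal ideal ring `Pb` on a basis `bb` whose discriminant
divides a power of `c̄ = πP c`. Then every maximal ideal `𝔫` of `B` containing `ℓ` and not
containing `c` is locally generated by `ℓ` and (the image of) one element `T` of `P`: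
`∀ x ∈ 𝔫, ∃ s ∉ 𝔫, s * x ∈ (ℓ, T)`.

* `exists_mul_mem_map_of_discr_notMem` : the `discr ∉ 𝔭` version of helper12's (U6)
  `UnitDiscLocal.exists_mul_mem_map_of_isUnit_discr`.
* `exists_local_generator` : the statement (A6).
-/

set_option autoImplicit false

namespace Fermat.Agent.S18.Purity.EtalePoint

open Fermat.Agent.S18.Purity.UnitDisc Fermat.Agent.S18.Purity.UnitDiscLocal

variable {ι : Type*} [Fintype ι] [DecidableEq ι]

section Local

variable {P B : Type*} [CommRing P] [CommRing B] [Algebra P B]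

/-- The fibre of a free algebra over a maximal ideal `𝔭` not containing the discriminant is
reduced. -/
theorem isReduced_quotient_of_discr_notMem (𝔭 : Ideal P) [h𝔭 : 𝔭.IsMaximal]
    (b : Module.Basis ι P B) (hd : Algebra.discr P b ∉ 𝔭) :
    IsReduced (B ⧸ 𝔭.map (algebraMap P B)) := by
  let _ : Field (P ⧸ 𝔭) := Ideal.Quotient.field 𝔭
  refine isReduced_of_discr_ne_zero (quotientBasis 𝔭 b) ?_
  rw [discr_quotientBasis, Ne, Ideal.Quotient.eq_zero_iff_mem]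
  exact hd

/-- **(U6, pointwise discriminant)** `B` free over `P` on `b`, `𝔭` a maximal ideal of `P` with
`discr b ∉ 𝔭`, `𝔫 ⊇ 𝔭 B` a proper ideal of `B`: `∀ x ∈ 𝔫, ∃ s ∉ 𝔫, s * x ∈ 𝔭 B`. -/
theorem exists_mul_mem_map_of_discr_notMem (b : Module.Basis ι P B) (𝔭 : Ideal P)
    [h𝔭 : 𝔭.IsMaximal] (hd : Algebra.discr P b ∉ 𝔭) (𝔫 : Ideal B)
    (h𝔫 : 𝔫 ≠ ⊤) (hle : 𝔭.map (algebraMap P B) ≤ 𝔫) {x : B} (hx : x ∈ 𝔫) :
    ∃ s : B, s ∉ 𝔫 ∧ s * x ∈ 𝔭.map (algebraMap P B) := by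
  let _ : Field (P ⧸ 𝔭) := Ideal.Quotient.field 𝔭
  have hred : IsReduced (B ⧸ 𝔭.map (algebraMap P B)) :=
    isReduced_quotient_of_discr_notMem 𝔭 b hd
  have hfin : Module.Finite (P ⧸ 𝔭) (B ⧸ 𝔭.map (algebraMap P B)) :=
    Module.Finite.of_basis (quotientBasis 𝔭 b)
  have hart : IsArtinianRing (B ⧸ 𝔭.map (algebraMap P B)) :=
    IsArtinianRing.of_finite (P ⧸ 𝔭) (B ⧸ 𝔭.map (algebraMap P B))
  set mk := Ideal.Quotient.mk (𝔭.map (algebraMap P B)) with hmk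
  have hcomap : (𝔫.map mk).comap mk = 𝔫 := by
    rw [Ideal.comap_map_of_surjective mk Ideal.Quotient.mk_surjective, ← RingHom.ker_eq_comap_bot,
      Ideal.mk_ker, sup_eq_left]
    exact hle
  have hne : 𝔫.map mk ≠ ⊤ := by
    intro htop
    apply h𝔫
    rw [← hcomap, htop, Ideal.comap_top]
  obtain ⟨sbar, hs1, hs2⟩ :=
    exists_mul_eq_zero_of_mem (𝔫.map mk) hne (Ideal.mem_map_of_mem mk hx)
  obtain ⟨s, rfl⟩ := Ideal.Quotient.mk_surjective sbar
  refine ⟨s, fun hs => hs1 (Ideal.mem_map_of_mem mk hs), ?_⟩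
  rw [← Ideal.Quotient.eq_zero_iff_mem, map_mul]
  exact hs2

end Local

/-- **(A6)** local generators at etale points. In the notation of `purity_core`:
`πP : P →+* Pb`, `πB : B →+* Bb` surjective and compatible, `ker πB = (ℓ)`, `Pb` a principal
ideal ring, `Bb` free over `Pb` on `bb` with `discr bb ∣ (πP c) ^ k`. For every maximal ideal `𝔫`
of `B` with `ℓ ∈ 𝔫`, `c ∉ 𝔫` there is `T : P` with `𝔫 B_𝔫 = (ℓ, T) B_𝔫`, in the element form
`∀ x ∈ 𝔫, ∃ s ∉ 𝔫, s * x ∈ (ℓ, T)`. -/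
theorem exists_local_generator
    {P B Pb Bb : Type*} [CommRing P] [CommRing B] [Algebra P B]
    [CommRing Pb] [IsPrincipalIdealRing Pb] [CommRing Bb] [Algebra Pb Bb]
    (πP : P →+* Pb) (πB : B →+* Bb)
    (hπP : Function.Surjective πP) (hπB : Function.Surjective πB)
    (ℓ : P)
    (hkerB : RingHom.ker πB = Ideal.span {algebraMap P B ℓ})
    (hcomm : ∀ p : P, πB (algebraMap P B p) = algebraMap Pb Bb (πP p))
    (bb : Module.Basis ι Pb Bb) (c : P) (k : ℕ)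
    (hd : Algebra.discr Pb bb ∣ πP c ^ k)
    (𝔫 : Ideal B) [h𝔫 : 𝔫.IsMaximal] (hℓ : algebraMap P B ℓ ∈ 𝔫)
    (hc : algebraMap P B c ∉ 𝔫) :
    ∃ T : P, ∀ x ∈ 𝔫, ∃ s, s ∉ 𝔫 ∧
      s * x ∈ Ideal.span {algebraMap P B ℓ, algebraMap P B T} := by
  have hker_le : RingHom.ker πB ≤ 𝔫 := by
    rw [hkerB, Ideal.span_singleton_le_iff_mem]
    exact hℓ
  set 𝔫b : Ideal Bb := 𝔫.map πB with h𝔫b
  have hcomap : 𝔫b.comap πB = 𝔫 := by
    rw [h𝔫b, Ideal.comap_map_of_surjective πB hπB, ← RingHom.ker_eq_comap_bot, sup_eq_left]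
    exact hker_le
  have hneb : 𝔫b ≠ ⊤ := by
    intro htop
    apply h𝔫.ne_top
    rw [← hcomap, htop, Ideal.comap_top]
  have hmaxb : 𝔫b.IsMaximal :=
    (Ideal.map_eq_top_or_isMaximal_of_surjective πB hπB h𝔫).resolve_left hneb
  have hfin : Module.Finite Pb Bb := Module.Finite.of_basis bb
  have hint : Algebra.IsIntegral Pb Bb := Algebra.IsIntegral.of_finite Pb Bb
  set 𝔭 : Ideal Pb := 𝔫b.comap (algebraMap Pb Bb) with h𝔭
  have h𝔭max : 𝔭.IsMaximal := Ideal.isMaximal_comap_of_isIntegral_of_isMaximal 𝔫b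
  obtain ⟨hb, hhb⟩ := (IsPrincipalIdealRing.principal 𝔭).principal
  obtain ⟨T, rfl⟩ := hπP hb
  refine ⟨T, fun x hx => ?_⟩
  have hcP : πP c ∉ 𝔭 := by
    intro hmem
    apply hc
    rw [← hcomap, Ideal.mem_comap, hcomm]
    exact hmem
  have hdP : Algebra.discr Pb bb ∉ 𝔭 := by
    intro hmem
    apply hcP
    have hpow : πP c ^ k ∈ 𝔭 := by
      obtain ⟨e, he⟩ := hd
      rw [he]
      exact 𝔭.mul_mem_right _ hmem
    exact h𝔭max.isPrime.mem_of_pow_mem k hpow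
  have hle : 𝔭.map (algebraMap Pb Bb) ≤ 𝔫b := Ideal.map_comap_le
  obtain ⟨sb, hsb, hsx⟩ := exists_mul_mem_map_of_discr_notMem bb 𝔭 hdP 𝔫b hneb hle
    (Ideal.mem_map_of_mem πB hx)
  obtain ⟨s, rfl⟩ := hπB sb
  refine ⟨s, fun hs => hsb (Ideal.mem_map_of_mem πB hs), ?_⟩
  have hmap : 𝔭.map (algebraMap Pb Bb) = Ideal.span {algebraMap Pb Bb (πP T)} := by
    rw [hhb, Ideal.submodule_span_eq, Ideal.map_span, Set.image_singleton]
  rw [hmap, Ideal.mem_span_singleton'] at hsx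
  obtain ⟨yb, hyb⟩ := hsx
  obtain ⟨y, rfl⟩ := hπB yb
  have hk : s * x - y * algebraMap P B T ∈ RingHom.ker πB := by
    rw [RingHom.mem_ker, map_sub, map_mul, map_mul, hcomm, hyb, sub_self]
  rw [hkerB, Ideal.mem_span_singleton'] at hk
  obtain ⟨a, ha⟩ := hk
  rw [Ideal.mem_span_pair]
  exact ⟨a, y, by rw [ha]; ring⟩

end Fermat.Agent.S18.Purity.EtalePoint
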