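import Mathlib
import Fermat.Agent.S18.Purity.EtalePoint
import Fermat.Agent.S18.Core.LocalPID

/-!
# S18, block A (purity), leaf A6': local generators at etale points, with `T ∈ 𝔫`

`EtalePoint.exists_local_generator` (statement of board #1052) does not record that the second
generator `T` lies in `𝔫`; without it the statement has no content (`T := 1` works). Here:

* `exists_local_generator_mem` : the same with `algebraMap P B T ∈ 𝔫` in the conclusion;
* `isPrincipalIdealRing_localization_quotient_of_etale` : hence (for `B` Noetherian) hypothesis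
  `(N_n)` of `Core/StartSection`: `B_𝔫 ⧸ (ℓ)` is a principal ideal ring.
-/

set_option autoImplicit false

namespace Fermat.Agent.S18.Purity.EtalePointMem

open Fermat.Agent.S18.Purity.EtalePoint

variable {ι : Type*} [Fintype ι] [DecidableEq ι]

/-- **(A6')** as `EtalePoint.exists_local_generator`, recording `T ∈ 𝔫`. -/
theorem exists_local_generator_mem
    {P B Pb Bb : Type*} [CommRing P] [CommRing B] [Algebra P B]
    [CommRing Pb] [IsPrincipalIdealRing Pb] [CommRing Bb] [Algebra Pb Bb]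
    (πP : P →+* Pb) (πB : B →+* Bb)
    (hπP : Function.Surjective πP) (hπB : Function.Surjective πB)
    (ℓ : P)
    (hkerB : RingHom.ker πB = Ideal.span {algebraMap P B ℓ})
    (hcomm : ∀ p : P, πB (algebraMap P B p) = algebraMap Pb Bb (πP p))
    (bb : Module.Basis ι Pb Bb) (c : P) (k : ℕ)
    (hd : Algebra.discr Pb bb ∣ πP c ^ k)
    (𝔫 : Ideal B) [h𝔫 : 𝔫.IsMaximal] (hℓ : algebraMap P B ℓ ∈ 𝔫)
    (hc : algebraMap P B c ∉ 𝔫) :
    ∃ T : P, algebraMap P B T ∈ 𝔫 ∧ ∀ x ∈ 𝔫, ∃ s, s ∉ 𝔫 ∧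
      s * x ∈ Ideal.span {algebraMap P B ℓ, algebraMap P B T} := by
  have hker_le : RingHom.ker πB ≤ 𝔫 := by
    rw [hkerB, Ideal.span_singleton_le_iff_mem]
    exact hℓ
  set 𝔫b : Ideal Bb := 𝔫.map πB with h𝔫b
  have hcomap : 𝔫b.comap πB = 𝔫 := by
    rw [h𝔫b, Ideal.comap_map_of_surjective πB hπB, ← RingHom.ker_eq_comap_bot, sup_eq_left]
    exact hker_le
  have hneb : 𝔫b ≠ ⊤ := by
    intro htop
    apply h𝔫.ne_top
    rw [← hcomap, htop, Ideal.comap_top]
  have hmaxb : 𝔫b.IsMaximal :=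
    (Ideal.map_eq_top_or_isMaximal_of_surjective πB hπB h𝔫).resolve_left hneb
  have hfin : Module.Finite Pb Bb := Module.Finite.of_basis bb
  have hint : Algebra.IsIntegral Pb Bb := Algebra.IsIntegral.of_finite Pb Bb
  set 𝔭 : Ideal Pb := 𝔫b.comap (algebraMap Pb Bb) with h𝔭
  have h𝔭max : 𝔭.IsMaximal := Ideal.isMaximal_comap_of_isIntegral_of_isMaximal 𝔫b
  obtain ⟨hb, hhb⟩ := (IsPrincipalIdealRing.principal 𝔭).principal
  obtain ⟨T, rfl⟩ := hπP hb
  have hT𝔭 : πP T ∈ 𝔭 := by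
    rw [hhb]
    exact Submodule.mem_span_singleton_self _
  refine ⟨T, ?_, fun x hx => ?_⟩
  · rw [← hcomap, Ideal.mem_comap, hcomm]
    exact hT𝔭
  have hcP : πP c ∉ 𝔭 := by
    intro hmem
    apply hc
    rw [← hcomap, Ideal.mem_comap, hcomm]
    exact hmem
  have hdP : Algebra.discr Pb bb ∉ 𝔭 := by
    intro hmem
    apply hcP
    have hpow : πP c ^ k ∈ 𝔭 := by
      obtain ⟨e, he⟩ := hd
      rw [he]
      exact 𝔭.mul_mem_right _ hmem
    exact h𝔭max.isPrime.mem_of_pow_mem k hpow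
  have hle : 𝔭.map (algebraMap Pb Bb) ≤ 𝔫b := Ideal.map_comap_le
  obtain ⟨sb, hsb, hsx⟩ := exists_mul_mem_map_of_discr_notMem bb 𝔭 hdP 𝔫b hneb hle
    (Ideal.mem_map_of_mem πB hx)
  obtain ⟨s, rfl⟩ := hπB sb
  refine ⟨s, fun hs => hsb (Ideal.mem_map_of_mem πB hs), ?_⟩
  have hmap : 𝔭.map (algebraMap Pb Bb) = Ideal.span {algebraMap Pb Bb (πP T)} := by
    rw [hhb, Ideal.submodule_span_eq, Ideal.map_span, Set.image_singleton]
  rw [hmap, Ideal.mem_span_singleton'] at hsx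
  obtain ⟨yb, hyb⟩ := hsx
  obtain ⟨y, rfl⟩ := hπB yb
  have hk : s * x - y * algebraMap P B T ∈ RingHom.ker πB := by
    rw [RingHom.mem_ker, map_sub, map_mul, map_mul, hcomm, hyb, sub_self]
  rw [hkerB, Ideal.mem_span_singleton'] at hk
  obtain ⟨a, ha⟩ := hk
  rw [Ideal.mem_span_pair]
  exact ⟨a, y, by rw [ha]; ring⟩

/-- **(N_n) at etale points.** Under the hypotheses of (A6), with `B` Noetherian, the local ring
`B_𝔫 ⧸ (ℓ)` is a principal ideal ring. -/
theorem isPrincipalIdealRing_localization_quotient_of_etale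
    {P B Pb Bb : Type*} [CommRing P] [CommRing B] [IsNoetherianRing B] [Algebra P B]
    [CommRing Pb] [IsPrincipalIdealRing Pb] [CommRing Bb] [Algebra Pb Bb]
    (πP : P →+* Pb) (πB : B →+* Bb)
    (hπP : Function.Surjective πP) (hπB : Function.Surjective πB)
    (ℓ : P)
    (hkerB : RingHom.ker πB = Ideal.span {algebraMap P B ℓ})
    (hcomm : ∀ p : P, πB (algebraMap P B p) = algebraMap Pb Bb (πP p))
    (bb : Module.Basis ι Pb Bb) (c : P) (k : ℕ)
    (hd : Algebra.discr Pb bb ∣ πP c ^ k)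
    (𝔫 : Ideal B) [h𝔫 : 𝔫.IsMaximal] (hℓ : algebraMap P B ℓ ∈ 𝔫)
    (hc : algebraMap P B c ∉ 𝔫) :
    IsPrincipalIdealRing (Localization.AtPrime 𝔫 ⧸
      Ideal.span {algebraMap B (Localization.AtPrime 𝔫) (algebraMap P B ℓ)}) := by
  obtain ⟨T, hT, h⟩ := exists_local_generator_mem πP πB hπP hπB ℓ hkerB hcomm bb c k hd 𝔫 hℓ hc
  exact Fermat.Agent.S18.Core.LocalPID.isPrincipalIdealRing_localization_quotient 𝔫
    (algebraMap P B ℓ) (algebraMap P B T) hℓ hT h

end Fermat.Agent.S18.Purity.EtalePointMem
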