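/-
S18 block A (purity), leaf A2 (helper7): gluing the integral closure `B = integralClosure P F`
with a valuation subring `O` of `F` which is the unique valuation subring over `P_(l)`.
Mathlib only.
-/
import Mathlib

namespace Fermat.Agent.S18.Purity.GlueGauss

open Polynomial

section LemmaA

variable {P F : Type*} [CommRing P] [IsDomain P] [IsIntegrallyClosed P]
  [CommRing F] [IsDomain F] [Algebra P F] [Module.IsTorsionFree P F]

/-- **Lemma A.** `P` an integrally closed domain, `l` a prime element, `l ∤ s`.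
If `l • x` and `s • x` are integral over `P`, so is `x`. -/
theorem isIntegral_of_smul_of_smul {l s : P} (hl : Prime l) (hs : ¬ l ∣ s) {x : F}
    (h1 : IsIntegral P (l • x)) (h2 : IsIntegral P (s • x)) : IsIntegral P x := by
  have hl0 : l ≠ 0 := hl.ne_zero
  have hs0 : s ≠ 0 := fun h => hs (h ▸ dvd_zero l)
  set y := l • x with hy
  set z := s • x with hz
  have hyz : s • y = l • z := by rw [hy, hz, smul_comm]
  have e : (minpoly P y).scaleRoots s = (minpoly P z).scaleRoots l := by
    rw [← IsIntegrallyClosed.minpoly_smul hs0 h1, ← IsIntegrallyClosed.minpoly_smul hl0 h2, hyz]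
  set p := minpoly P y with hp
  set d := p.natDegree with hd
  have hdz : (minpoly P z).natDegree = d := by
    have := congrArg natDegree e
    rw [natDegree_scaleRoots, natDegree_scaleRoots] at this
    exact this.symm
  have hpmonic : p.Monic := minpoly.monic h1
  -- divisibility of the coefficients
  have hdiv : ∀ i, l ^ (d - i) ∣ p.coeff i := by
    intro i
    have := congrArg (fun q => q.coeff i) e
    simp only [coeff_scaleRoots, hdz] at this
    rw [← hd] at this
    have hsi : ¬ l ∣ s ^ (d - i) := fun h => hs (hl.dvd_of_dvd_pow h)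
    exact hl.pow_dvd_of_dvd_mul_right _ hsi (this ▸ Dvd.intro_left _ rfl)
  choose c hc using hdiv
  -- the scaled polynomial
  let q : P[X] := X ^ d + ∑ i : Fin d, C (c i) * X ^ (i : ℕ)
  have hqmonic : q.Monic := monic_X_pow_add (degree_sum_fin_lt (fun i : Fin d => c i))
  refine ⟨q, hqmonic, ?_⟩
  have hp0 : aeval y p = 0 := minpoly.aeval P y
  rw [aeval_eq_sum_range, ← hd, Finset.sum_range_succ,
    ← Fin.sum_univ_eq_sum_range (fun i => p.coeff i • y ^ i) d] at hp0
  have hlead : p.coeff d = 1 := hpmonic.coeff_natDegree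
  have key : (l ^ d) • (eval₂ (algebraMap P F) x q) = 0 := by
    rw [← hp0, add_comm (∑ i : Fin d, p.coeff (i : ℕ) • y ^ (i : ℕ))]
    simp only [q, eval₂_add, eval₂_pow, eval₂_X, eval₂_finsetSum, eval₂_mul, eval₂_C, smul_add,
      Finset.smul_sum, hlead, one_smul]
    congr 1
    · rw [hy, _root_.smul_pow]
    · refine Finset.sum_congr rfl fun i _ => ?_
      rw [hc i, hy, _root_.smul_pow, smul_smul, Algebra.smul_def, Algebra.smul_def, ← mul_assoc,
        ← map_mul]
      congr 2
      have hi : (i : ℕ) ≤ d := i.2.le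
      calc l ^ d * c i = l ^ (d - i + i) * c i := by rw [Nat.sub_add_cancel hi]
        _ = l ^ (d - i) * c i * l ^ (i : ℕ) := by ring
  exact (smul_eq_zero.mp key).resolve_left (pow_ne_zero _ hl0)

end LemmaA

section Val

variable {P K F : Type*} [CommRing P] [IsDomain P]
  [Field K] [Algebra P K] [IsFractionRing P K]
  [Field F] [Algebra P F] [Algebra K F] [IsScalarTower P K F]

/-- `O` (a valuation subring of `F`) dominates the localisation `P_(l)`:
it contains `P`, every `s ∉ (l)` is a unit of `O`, and `l` is not a unit of `O`. -/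
structure Over (l : P) (O : ValuationSubring F) : Prop where
  mem : ∀ a : P, algebraMap P F a ∈ O
  inv_mem : ∀ s : P, ¬ l ∣ s → (algebraMap P F s)⁻¹ ∈ O
  inv_notMem : (algebraMap P F l)⁻¹ ∉ O

omit [IsDomain P] [IsFractionRing P K] in
lemma algebraMap_PF (a : P) : algebraMap P F a = algebraMap K F (algebraMap P K a) :=
  IsScalarTower.algebraMap_apply P K F a

include K in
omit [IsDomain P] in
lemma algebraMap_PF_injective : Function.Injective (algebraMap P F) := by
  rw [IsScalarTower.algebraMap_eq P K F]
  exact (algebraMap K F).injective.comp (IsFractionRing.injective P K)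

include K in
omit [IsDomain P] in
lemma algebraMap_PF_ne_zero {a : P} (ha : a ≠ 0) : algebraMap P F a ≠ 0 := fun h =>
  ha (algebraMap_PF_injective (K := K) (F := F) (by rw [h, map_zero]))

/-- the `l`-adic dichotomy in `K = Frac P`: every `x : K` is in `P_(l)` or is `b / (l^(k+1) a)`
with `l ∤ a, b`. -/
lemma dichotomy [WfDvdMonoid P] {l : P} (hl : Prime l) (x : K) :
    (∃ a b : P, ¬ l ∣ b ∧ x * algebraMap P K b = algebraMap P K a) ∨
    (∃ a b : P, ∃ k : ℕ, ¬ l ∣ a ∧ ¬ l ∣ b ∧
      x * (algebraMap P K l ^ (k + 1) * algebraMap P K a) = algebraMap P K b) := by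
  obtain ⟨c, d, hd, rfl⟩ := IsFractionRing.div_surjective (A := P) x
  have hd0 : d ≠ 0 := nonZeroDivisors.ne_zero hd
  by_cases hc0 : c = 0
  · left
    exact ⟨0, 1, hl.not_dvd_one, by simp [hc0]⟩
  obtain ⟨m, a, ha, rfl⟩ := WfDvdMonoid.max_power_factor hc0 hl.irreducible
  obtain ⟨n, b, hb, rfl⟩ := WfDvdMonoid.max_power_factor hd0 hl.irreducible
  have hl0 : algebraMap P K l ≠ 0 := by
    simpa using (IsFractionRing.injective P K).ne hl.ne_zero
  have hb0 : algebraMap P K b ≠ 0 := by
    have : b ≠ 0 := fun h => hb (h ▸ dvd_zero l)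
    simpa using (IsFractionRing.injective P K).ne this
  rcases le_or_gt n m with hnm | hnm
  · left
    refine ⟨l ^ (m - n) * a, b, hb, ?_⟩
    obtain ⟨t, rfl⟩ := Nat.exists_eq_add_of_le hnm
    simp only [map_mul, map_pow, Nat.add_sub_cancel_left]
    field_simp
    ring
  · right
    obtain ⟨t, rfl⟩ := Nat.exists_eq_add_of_lt hnm
    refine ⟨b, a, t, hb, ha, ?_⟩
    simp only [map_mul, map_pow]
    field_simp
    ring

omit [IsDomain P] in
/-- elements of `P_(l)` lie in any valuation subring containing `P` in which all `s ∉ (l)` are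
units. -/
lemma mem_of_frac {l : P} {V : ValuationSubring F}
    (hmem : ∀ a : P, algebraMap P F a ∈ V)
    (hinv : ∀ s : P, ¬ l ∣ s → (algebraMap P F s)⁻¹ ∈ V) {x : K} {a b : P} (hb : ¬ l ∣ b)
    (h : x * algebraMap P K b = algebraMap P K a) : algebraMap K F x ∈ V := by
  have hb0 : b ≠ 0 := fun h => hb (h ▸ dvd_zero l)
  have hbF : algebraMap P F b ≠ 0 := algebraMap_PF_ne_zero (K := K) hb0
  have : algebraMap K F x = algebraMap P F a * (algebraMap P F b)⁻¹ := by
    rw [eq_mul_inv_iff_mul_eq₀ hbF, algebraMap_PF (K := K) a, algebraMap_PF (K := K) b,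
      ← map_mul, h]
  rw [this]
  exact V.mul_mem _ _ (hmem a) (hinv b hb)

/-- **Lemma C.** If `O` dominates `P_(l)` then `O ∩ K = P_(l)`. -/
lemma Over.mem_iff [WfDvdMonoid P] {l : P} (hl : Prime l) {O : ValuationSubring F}
    (hO : Over l O) (x : K) :
    algebraMap K F x ∈ O ↔ ∃ a b : P, ¬ l ∣ b ∧ x * algebraMap P K b = algebraMap P K a := by
  constructor
  · intro hx
    rcases dichotomy hl x with h | ⟨a, b, k, ha, hb, h⟩
    · exact h
    · exfalso
      apply hO.inv_notMem
      have hb0 : b ≠ 0 := fun h => hb (h ▸ dvd_zero l)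
      have hbF : algebraMap P F b ≠ 0 := algebraMap_PF_ne_zero (K := K) hb0
      have hlF : algebraMap P F l ≠ 0 := algebraMap_PF_ne_zero (K := K) hl.ne_zero
      have h' : algebraMap K F x * (algebraMap P F l ^ (k + 1) * algebraMap P F a)
          = algebraMap P F b := by
        rw [algebraMap_PF (K := K) a, algebraMap_PF (K := K) b, algebraMap_PF (K := K) l,
          ← map_pow, ← map_mul, ← map_mul, h]
      have : (algebraMap P F l)⁻¹ = algebraMap K F x * algebraMap P F l ^ k * algebraMap P F a
          * (algebraMap P F b)⁻¹ := by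
        rw [eq_mul_inv_iff_mul_eq₀ hbF, ← h']
        field_simp
        ring
      rw [this]
      exact O.mul_mem _ _ (O.mul_mem _ _ (O.mul_mem _ _ hx (pow_mem (hO.mem l) k)) (hO.mem a))
        (hO.inv_mem b hb)
  · rintro ⟨a, b, hb, h⟩
    exact mem_of_frac hO.mem hO.inv_mem hb h

/-- **Lemma D.** A valuation subring containing `P_(l)` in which `l` is a unit contains `K`. -/
lemma mem_of_inv_mem [WfDvdMonoid P] {l : P} (hl : Prime l) {V : ValuationSubring F}
    (hmem : ∀ a : P, algebraMap P F a ∈ V)
    (hinv : ∀ s : P, ¬ l ∣ s → (algebraMap P F s)⁻¹ ∈ V)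
    (hlinv : (algebraMap P F l)⁻¹ ∈ V) (x : K) : algebraMap K F x ∈ V := by
  rcases dichotomy hl x with ⟨a, b, hb, h⟩ | ⟨a, b, k, ha, hb, h⟩
  · exact mem_of_frac hmem hinv hb h
  · have ha0 : a ≠ 0 := fun h => ha (h ▸ dvd_zero l)
    have haF : algebraMap P F a ≠ 0 := algebraMap_PF_ne_zero (K := K) ha0
    have hlF : algebraMap P F l ≠ 0 := algebraMap_PF_ne_zero (K := K) hl.ne_zero
    have h' : algebraMap K F x * (algebraMap P F l ^ (k + 1) * algebraMap P F a)
        = algebraMap P F b := by
      rw [algebraMap_PF (K := K) a, algebraMap_PF (K := K) b, algebraMap_PF (K := K) l,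
        ← map_pow, ← map_mul, ← map_mul, h]
    have : algebraMap K F x = algebraMap P F b * (algebraMap P F a)⁻¹
        * ((algebraMap P F l)⁻¹) ^ (k + 1) := by
      rw [← h', inv_pow]
      field_simp
    rw [this]
    exact V.mul_mem _ _ (V.mul_mem _ _ (hmem b) (hinv a ha)) (pow_mem hlinv _)

omit [IsDomain P] [IsFractionRing P K] [Algebra P F] [IsScalarTower P K F] [Algebra P K] in
/-- **Lemma E.** A valuation subring of `F` containing `K` is everything (`F/K` algebraic). -/
lemma mem_of_forall_algebraMap_mem [Algebra.IsAlgebraic K F] {V : ValuationSubring F}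
    (h : ∀ x : K, algebraMap K F x ∈ V) (y : F) : y ∈ V := by
  have hy : IsIntegral K y := (Algebra.IsAlgebraic.isAlgebraic y).isIntegral
  obtain ⟨p, hp, hpy⟩ := hy
  let φ : K →+* V.toSubring := (algebraMap K F).codRestrict V.toSubring h
  have hint : IsIntegral V.toSubring y := by
    refine ⟨p.map φ, hp.map φ, ?_⟩
    rw [eval₂_map]
    exact hpy
  have : IsIntegrallyClosedIn V.toSubring F := inferInstanceAs (IsIntegrallyClosedIn V F)
  exact Subring.isIntegrallyClosedIn_iff.mp this hint

omit [IsDomain P] [IsFractionRing P K] [Algebra K F] [IsScalarTower P K F] [Algebra P K] in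
/-- **(iv)** `B ⊆ O`: elements of `F` integral over `P` lie in every valuation subring
containing `P`. -/
lemma mem_of_isIntegral {V : ValuationSubring F} (hmem : ∀ a : P, algebraMap P F a ∈ V)
    {y : F} (hy : IsIntegral P y) : y ∈ V := by
  obtain ⟨p, hp, hpy⟩ := hy
  let φ : P →+* V.toSubring := (algebraMap P F).codRestrict V.toSubring hmem
  have hint : IsIntegral V.toSubring y := by
    refine ⟨p.map φ, hp.map φ, ?_⟩
    rw [eval₂_map]
    exact hpy
  have : IsIntegrallyClosedIn V.toSubring F := inferInstanceAs (IsIntegrallyClosedIn V F)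
  exact Subring.isIntegrallyClosedIn_iff.mp this hint

/-- **(iii)** every element of `O` becomes integral over `P` after multiplication by some
`s ∉ (l)`: `O = B_(l)`. -/
theorem exists_smul_isIntegral [WfDvdMonoid P] [Algebra.IsAlgebraic K F] {l : P} (hl : Prime l)
    {O : ValuationSubring F} (hO : Over l O)
    (huniq : ∀ O' : ValuationSubring F,
      O'.comap (algebraMap K F) = O.comap (algebraMap K F) → O' = O)
    {x : F} (hx : x ∈ O) : ∃ s : P, ¬ l ∣ s ∧ IsIntegral P (s • x) := by
  have hprime : (Ideal.span {l}).IsPrime := (Ideal.span_singleton_prime hl.ne_zero).mpr hl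
  let S : Submonoid P := (Ideal.span {l}).primeCompl
  have hS : ∀ s : P, s ∈ S ↔ ¬ l ∣ s := fun s => by
    simp only [S, Ideal.mem_primeCompl_iff, Ideal.mem_span_singleton]
  have hunits : ∀ y : S, IsUnit (algebraMap P F y) := fun y =>
    (algebraMap_PF_ne_zero (K := K)
      (fun h => (hS y).mp y.2 (by rw [h]; exact dvd_zero l))).isUnit
  let algRF : Algebra (Localization S) F := (IsLocalization.lift (M := S) hunits).toAlgebra
  have : IsScalarTower P (Localization S) F :=
    IsScalarTower.of_algebraMap_eq fun a => (IsLocalization.lift_eq hunits a).symm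
  suffices h : IsIntegral (Localization S) x by
    obtain ⟨m, hm⟩ := IsIntegral.exists_multiple_integral_of_isLocalization S x h
    exact ⟨m, (hS m).mp m.2, hm⟩
  by_contra hcon
  let R : Subring F := (integralClosure (Localization S) F).toSubring
  have hxR : x ∉ R := hcon
  obtain ⟨V, hRV, hxV⟩ := Subring.exists_le_valuationSubring_of_isIntegrallyClosedIn hxR
  -- `V` contains `P` and the inverses of `S`
  have hRmem : ∀ r : Localization S, algebraMap (Localization S) F r ∈ V := fun r =>
    hRV (show algebraMap (Localization S) F r ∈ integralClosure (Localization S) F from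
      isIntegral_algebraMap)
  have hVmem : ∀ a : P, algebraMap P F a ∈ V := fun a => by
    rw [IsScalarTower.algebraMap_apply P (Localization S) F]
    exact hRmem _
  have hVinv : ∀ s : P, ¬ l ∣ s → (algebraMap P F s)⁻¹ ∈ V := fun s hs => by
    have hsS : s ∈ S := (hS s).mpr hs
    have : (algebraMap P F s)⁻¹
        = algebraMap (Localization S) F (IsLocalization.mk' (Localization S) 1 ⟨s, hsS⟩) := by
      apply inv_eq_of_mul_eq_one_right
      rw [IsScalarTower.algebraMap_apply P (Localization S) F, ← map_mul,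
        IsLocalization.mul_mk'_eq_mk'_of_mul, mul_one]
      rw [show IsLocalization.mk' (Localization S) s ⟨s, hsS⟩ = 1 from
        IsLocalization.mk'_self _ hsS, map_one]
    rw [this]
    exact hRmem _
  by_cases hlV : (algebraMap P F l)⁻¹ ∈ V
  · -- then `V ⊇ K`, so `V = F`
    exact hxV (mem_of_forall_algebraMap_mem (K := K) (mem_of_inv_mem hl hVmem hVinv hlV) x)
  · -- then `V ∩ K = O ∩ K`, so `V = O`
    have hV : Over l V := ⟨hVmem, hVinv, hlV⟩
    have : V = O := huniq V <| by
      ext z
      rw [ValuationSubring.mem_comap, ValuationSubring.mem_comap, hV.mem_iff hl, hO.mem_iff hl]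
    exact hxV (this ▸ hx)

/-- **(ii)** `x ∈ O` and `l • x` integral over `P` imply `x` integral over `P`. -/
theorem isIntegral_of_mem_of_smul [IsIntegrallyClosed P] [WfDvdMonoid P] [Algebra.IsAlgebraic K F]
    {l : P} (hl : Prime l) {O : ValuationSubring F} (hO : Over l O)
    (huniq : ∀ O' : ValuationSubring F,
      O'.comap (algebraMap K F) = O.comap (algebraMap K F) → O' = O)
    {x : F} (hx : x ∈ O) (hlx : IsIntegral P (l • x)) : IsIntegral P x := by
  obtain ⟨s, hs, hsx⟩ := exists_smul_isIntegral (K := K) hl hO huniq hx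
  have : FaithfulSMul P F :=
    (faithfulSMul_iff_algebraMap_injective P F).mpr (algebraMap_PF_injective (K := K))
  exact isIntegral_of_smul_of_smul hl hs hlx hsx

/-- **(i)** `O` is the localisation of `B = integralClosure P F` at `P ∖ (l)`. -/
theorem mem_iff_exists_smul_isIntegral [WfDvdMonoid P] [Algebra.IsAlgebraic K F]
    {l : P} (hl : Prime l) {O : ValuationSubring F} (hO : Over l O)
    (huniq : ∀ O' : ValuationSubring F,
      O'.comap (algebraMap K F) = O.comap (algebraMap K F) → O' = O)
    (x : F) : x ∈ O ↔ ∃ s : P, ¬ l ∣ s ∧ IsIntegral P (s • x) := by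
  refine ⟨exists_smul_isIntegral (K := K) hl hO huniq, ?_⟩
  rintro ⟨s, hs, hsx⟩
  have h1 : s • x ∈ O := mem_of_isIntegral hO.mem hsx
  have hs0 : s ≠ 0 := fun h => hs (h ▸ dvd_zero l)
  have hsF : algebraMap P F s ≠ 0 := algebraMap_PF_ne_zero (K := K) hs0
  have : x = (algebraMap P F s)⁻¹ * (s • x) := by
    rw [Algebra.smul_def, inv_mul_cancel_left₀ hsF]
  rw [this]
  exact O.mul_mem _ _ (hO.inv_mem s hs) h1

/-! ### Packaging for the purity core: `B = integralClosure P F → O → O / l O` -/

omit [IsDomain P] [IsFractionRing P K] [Algebra K F] [IsScalarTower P K F] [Algebra P K] in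
/-- the inclusion `B = integralClosure P F → O` -/
noncomputable def toO {l : P} {O : ValuationSubring F} (hO : Over l O) :
    integralClosure P F →+* O :=
  ((integralClosure P F).val : integralClosure P F →+* F).codRestrict O.toSubring
    (fun b => mem_of_isIntegral hO.mem b.2)

omit [IsDomain P] [IsFractionRing P K] [Algebra K F] [IsScalarTower P K F] [Algebra P K] in
@[simp] lemma coe_toO {l : P} {O : ValuationSubring F} (hO : Over l O)
    (b : integralClosure P F) : ((toO hO b : O) : F) = (b : F) := rfl

omit [IsDomain P] [IsFractionRing P K] [Algebra K F] [IsScalarTower P K F] [Algebra P K] in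
lemma toO_injective {l : P} {O : ValuationSubring F} (hO : Over l O) :
    Function.Injective (toO hO) := fun a b h =>
  Subtype.ext (by simpa using congrArg (fun z : O => (z : F)) h)

/-- **(P1)** `B ∩ l O = l B`. -/
theorem mem_span_iff [IsIntegrallyClosed P] [WfDvdMonoid P] [Algebra.IsAlgebraic K F]
    {l : P} (hl : Prime l) {O : ValuationSubring F} (hO : Over l O)
    (huniq : ∀ O' : ValuationSubring F,
      O'.comap (algebraMap K F) = O.comap (algebraMap K F) → O' = O)
    (b : integralClosure P F) :
    b ∈ Ideal.span {algebraMap P (integralClosure P F) l} ↔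
      ∃ y ∈ O, (b : F) = algebraMap P F l * y := by
  rw [Ideal.mem_span_singleton]
  constructor
  · rintro ⟨c, rfl⟩
    exact ⟨c, mem_of_isIntegral hO.mem c.2, rfl⟩
  · rintro ⟨y, hy, hby⟩
    have hly : IsIntegral P (l • y) := by
      rw [Algebra.smul_def, ← hby]
      exact b.2
    have hyint : IsIntegral P y := isIntegral_of_mem_of_smul (K := K) hl hO huniq hy hly
    exact ⟨⟨y, hyint⟩, Subtype.ext hby⟩

/-- **(P3)** if `res : O →+* k` has kernel `l O`, then `B → O → k` has kernel `l B`. -/
theorem ker_res_comp_toO [IsIntegrallyClosed P] [WfDvdMonoid P] [Algebra.IsAlgebraic K F]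
    {l : P} (hl : Prime l) {O : ValuationSubring F} (hO : Over l O)
    (huniq : ∀ O' : ValuationSubring F,
      O'.comap (algebraMap K F) = O.comap (algebraMap K F) → O' = O)
    {k : Type*} [CommRing k] (res : O →+* k)
    (hres : ∀ x : O, res x = 0 ↔ ∃ y : O, (x : F) = algebraMap P F l * (y : F)) :
    RingHom.ker (res.comp (toO hO)) = Ideal.span {algebraMap P (integralClosure P F) l} := by
  ext b
  rw [RingHom.mem_ker, RingHom.comp_apply, hres, mem_span_iff (K := K) hl hO huniq]
  constructor
  · rintro ⟨y, hy⟩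
    exact ⟨y, y.2, hy⟩
  · rintro ⟨y, hy, h⟩
    exact ⟨⟨y, hy⟩, h⟩

/-- **(P4)** every element of `O` is a fraction `b / s` with `b ∈ B`, `s ∈ P ∖ (l)`; hence for any
`res : O →+* k`, every value `res x` is a fraction of values on `B`, with denominator the image
of a unit of `O`. -/
theorem exists_res_mul_eq [WfDvdMonoid P] [Algebra.IsAlgebraic K F]
    {l : P} (hl : Prime l) {O : ValuationSubring F} (hO : Over l O)
    (huniq : ∀ O' : ValuationSubring F,
      O'.comap (algebraMap K F) = O.comap (algebraMap K F) → O' = O)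
    {k : Type*} [CommRing k] (res : O →+* k) (x : O) :
    ∃ (s : P) (b : integralClosure P F), ¬ l ∣ s ∧
      IsUnit (res (toO hO (algebraMap P (integralClosure P F) s))) ∧
      res (toO hO (algebraMap P (integralClosure P F) s)) * res x = res (toO hO b) := by
  obtain ⟨s, hs, hsx⟩ := exists_smul_isIntegral (K := K) hl hO huniq x.2
  refine ⟨s, ⟨s • (x : F), hsx⟩, hs, ?_, ?_⟩
  · apply IsUnit.map
    have hs0 : s ≠ 0 := fun h => hs (h ▸ dvd_zero l)
    have hsF : algebraMap P F s ≠ 0 := algebraMap_PF_ne_zero (K := K) hs0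
    refine isUnit_iff_exists_inv.mpr ⟨⟨(algebraMap P F s)⁻¹, hO.inv_mem s hs⟩, ?_⟩
    apply Subtype.ext
    simp [mul_inv_cancel₀ hsF]
  · rw [← map_mul]
    congr 1
    apply Subtype.ext
    simp [Algebra.smul_def]

end Val

end Fermat.Agent.S18.Purity.GlueGauss
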