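import Mathlib
import Fermat.Agent.S18.Purity.CoreS
import Fermat.Agent.S18.Purity.GlueGauss
import Fermat.Agent.S18.Purity.EtalePointMem

/-!
# S18, block A (purity), leaf A4: the chart `B^t` at its etale points

Semi-abstract instantiation of the purity core.  `R` a DVR with uniformiser `π`, fraction field `L`
(characteristic zero) and residue field `κ`; `F ⊇ L` a field, `t : F` transcendental,
`[F : L(t)] = n`; `O` a valuation subring of `F` which is the unique extension of the Gauss
valuation of `L(t)` (`huniq`), with `m_O = π O` and a residue map `ρ : O → E` onto a field `E`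
which is separable of the same degree `n` over `κ(t̄)`.  If the generic fibre is unramified away
from the zeros of `c` (hypothesis `H2`, in instance-free element form), then for every maximal ideal
`𝔫` of the chart ring `B^t = integralClosure R[t] F` with `π ∈ 𝔫`, `c(t) ∉ 𝔫`:
`𝔫 B^t_𝔫 = (π, T(t))` for some `T ∈ R[X]` with `T(t) ∈ 𝔫` (hypothesis `(N_n)` of the core at the
etale points), and `B^t` is Noetherian.

Glue of `Purity/CoreS` (core), `Purity/GlueGauss` (helper7), `Purity/EtalePointMem` (helper15).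
-/

set_option autoImplicit false
set_option linter.style.haveILetI false

namespace Fermat.Agent.S18.Purity.Chart

open Polynomial IntermediateField

section Alg

variable {R F : Type*} [CommRing R] [Field F] [Algebra R F] (t : F)

/-- the algebra structure `R[X] → F`, `X ↦ t`. -/
@[reducible] noncomputable def polyAlgebra : Algebra R[X] F :=
  (aeval t : R[X] →ₐ[R] F).toRingHom.toAlgebra

/-- the surjection `R[X] → R[t]`. -/
noncomputable def toAdjoin : R[X] →+* Algebra.adjoin R {t} :=
  ((aeval t : R[X] →ₐ[R] F).codRestrict (Algebra.adjoin R {t}) (fun p => by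
    rw [Algebra.adjoin_singleton_eq_range_aeval]
    exact ⟨p, rfl⟩)).toRingHom

theorem coe_toAdjoin (p : R[X]) :
    ((toAdjoin (R := R) t p : Algebra.adjoin R {t}) : F) = aeval t p := rfl

theorem toAdjoin_surjective : Function.Surjective (toAdjoin (R := R) t) := by
  rintro ⟨x, hx⟩
  rw [Algebra.adjoin_singleton_eq_range_aeval] at hx
  obtain ⟨p, rfl⟩ := hx
  exact ⟨p, rfl⟩

/-- integrality over `R[X]` (acting through `X ↦ t`) is integrality over `R[t]`. -/
theorem isIntegral_adjoin_iff (x : F) :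
    IsIntegral (Algebra.adjoin R {t}) x ↔
      (aeval t : R[X] →ₐ[R] F).toRingHom.IsIntegralElem x := by
  have hcomp : (aeval t : R[X] →ₐ[R] F).toRingHom =
      (algebraMap (Algebra.adjoin R {t}) F).comp (toAdjoin (R := R) t) := rfl
  constructor
  · rintro ⟨q, hq, hx⟩
    have hl : q ∈ lifts (toAdjoin (R := R) t) := by
      rw [mem_lifts]
      exact map_surjective _ (toAdjoin_surjective t) q
    obtain ⟨p, hp, -, hpm⟩ := lifts_and_natDegree_eq_and_monic hl hq
    refine ⟨p, hpm, ?_⟩
    rw [hcomp, ← eval₂_map, hp]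
    exact hx
  · intro h
    rw [hcomp] at h
    exact h.of_comp

variable (R) in
/-- the chart ring `B^t`: the integral closure of `R[t]` in `F`. -/
noncomputable abbrev Bt : Subalgebra (Algebra.adjoin R {t}) F :=
  integralClosure (Algebra.adjoin R {t}) F

/-- `R[X] → B^t`, `p ↦ p(t)`. -/
noncomputable def polyToBt : R[X] →+* Bt R t :=
  (algebraMap (Algebra.adjoin R {t}) (Bt R t)).comp (toAdjoin t)

theorem coe_polyToBt (p : R[X]) : ((polyToBt (R := R) t p : Bt R t) : F) = aeval t p := rfl

end Alg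

section Frac

variable {R L F : Type*} [CommRing R] [IsDomain R] [Field L] [Algebra R L] [IsFractionRing R L]
  [Field F] [Algebra L F] [Algebra R F] [IsScalarTower R L F] (t : F)

/-- the algebra structure `R[X] → L(t)`, `X ↦ t`. -/
@[reducible] noncomputable def polyAlgebraK : Algebra R[X] L⟮t⟯ :=
  (aeval (AdjoinSimple.gen L t) : R[X] →ₐ[R] L⟮t⟯).toRingHom.toAlgebra

omit [IsDomain R] [IsFractionRing R L] in
theorem coe_aeval_gen (p : R[X]) :
    ((aeval (AdjoinSimple.gen L t) p : L⟮t⟯) : F) = aeval t p := by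
  have h := Polynomial.hom_eval₂ p (algebraMap R L⟮t⟯) (algebraMap L⟮t⟯ F) (AdjoinSimple.gen L t)
  rw [AdjoinSimple.algebraMap_gen] at h
  have hc : (algebraMap L⟮t⟯ F).comp (algebraMap R L⟮t⟯) = algebraMap R F := by
    ext r
    rfl
  rw [hc] at h
  exact h

theorem isFractionRing_poly (ht : Transcendental R t) :
    letI := polyAlgebraK (R := R) (L := L) t
    IsFractionRing R[X] L⟮t⟯ := by
  letI := polyAlgebraK (R := R) (L := L) t
  have hinj : Function.Injective (algebraMap R[X] L⟮t⟯) := by
    intro p q hpq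
    have h1 : ((aeval (AdjoinSimple.gen L t) p : L⟮t⟯) : F) =
        ((aeval (AdjoinSimple.gen L t) q : L⟮t⟯) : F) := congrArg (fun z : L⟮t⟯ => (z : F)) hpq
    rw [coe_aeval_gen, coe_aeval_gen] at h1
    exact (transcendental_iff_injective.mp ht) h1
  have : FaithfulSMul R[X] L⟮t⟯ := (faithfulSMul_iff_algebraMap_injective _ _).mpr hinj
  refine IsFractionRing.of_field _ _ fun z => ?_
  obtain ⟨r, s, hz⟩ := (mem_adjoin_simple_iff L (z : F)).mp z.2
  obtain ⟨br, hbrM, hbr⟩ := IsLocalization.integerNormalization_spec (nonZeroDivisors R) r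
  obtain ⟨bs, hbsM, hbs⟩ := IsLocalization.integerNormalization_spec (nonZeroDivisors R) s
  set r' := IsLocalization.integerNormalization (nonZeroDivisors R) r
  set s' := IsLocalization.integerNormalization (nonZeroDivisors R) s
  have hne : ∀ b ∈ nonZeroDivisors R, algebraMap R F b ≠ 0 := fun b hb => by
    rw [IsScalarTower.algebraMap_apply R L F]
    exact (map_ne_zero_iff _ (algebraMap L F).injective).mpr
      ((map_ne_zero_iff _ (IsFractionRing.injective R L)).mpr (nonZeroDivisors.ne_zero hb))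
  have key : ∀ (b : R) (u : L[X]) (u' : R[X]), u'.map (algebraMap R L) = b • u →
      aeval t u' = algebraMap R F b * aeval t u := by
    intro b u u' h
    rw [← aeval_map_algebraMap L t u', h, Algebra.smul_def, map_mul, Polynomial.algebraMap_apply,
      aeval_C, ← IsScalarTower.algebraMap_apply R L F]
  have hr := key br r r' hbr
  have hs := key bs s s' hbs
  refine ⟨r' * C bs, s' * C br, Subtype.ext ?_⟩
  show (z : F) = ((aeval (AdjoinSimple.gen L t) (r' * C bs) /
    aeval (AdjoinSimple.gen L t) (s' * C br) : L⟮t⟯) : F)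
  rw [IntermediateField.coe_div, coe_aeval_gen, coe_aeval_gen, map_mul, map_mul, aeval_C, aeval_C,
    hr, hs, hz]
  have h1 := hne br hbrM
  have h2 := hne bs hbsM
  by_cases hs0 : aeval t s = 0
  · simp [hs0]
  · field_simp

end Frac

section Main

variable {R L F E : Type*} [CommRing R] [IsDomain R] [IsDiscreteValuationRing R]
  [Field L] [Algebra R L] [IsFractionRing R L]
  [Field F] [Algebra L F] [Algebra R F] [IsScalarTower R L F]
  (π : R) (t : F) (O : ValuationSubring F)

omit [IsDomain R] [IsDiscreteValuationRing R] in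
theorem aeval_mem_O (hRO : ∀ r : R, algebraMap R F r ∈ O) (htO : t ∈ O) (p : R[X]) :
    aeval t p ∈ O := by
  induction p using Polynomial.induction_on with
  | C a => rw [aeval_C]; exact hRO a
  | add p q hp hq => rw [map_add]; exact O.add_mem _ _ hp hq
  | monomial n a h =>
    rw [map_mul, aeval_C, map_pow, aeval_X]
    exact O.mul_mem _ _ (hRO a) (pow_mem htO _)

omit [IsDomain R] [IsDiscreteValuationRing R] in
variable (L) in
include L in
theorem algebraMap_RF_injective : Function.Injective (algebraMap R F) := by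
  rw [IsScalarTower.algebraMap_eq R L F]
  exact (algebraMap L F).injective.comp (IsFractionRing.injective R L)

omit [IsDomain R] [IsDiscreteValuationRing R] in
variable (L) in
include L in
/-- the structure `GlueGauss.Over` for the Gauss-like valuation subring `O` over `R[t]_(π)`. -/
theorem over_poly (hπ0 : π ≠ 0) (hRO : ∀ r : R, algebraMap R F r ∈ O) (htO : t ∈ O)
    (hπO : O.valuation (algebraMap R F π) < 1)
    (htbar : ∀ p : R[X], O.valuation (aeval t p) < 1 → ∀ i, π ∣ p.coeff i) :
    letI := polyAlgebra (R := R) t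
    GlueGauss.Over (C π : R[X]) O := by
  letI := polyAlgebra (R := R) t
  refine ⟨fun a => aeval_mem_O t O hRO htO a, fun s hs => ?_, ?_⟩
  · have h1 : O.valuation (aeval t s) ≤ 1 :=
      (O.valuation_le_one_iff _).mpr (aeval_mem_O t O hRO htO s)
    have h2 : ¬ O.valuation (aeval t s) < 1 := fun h =>
      hs ((C_dvd_iff_dvd_coeff _ _).mpr (htbar s h))
    have h3 : O.valuation (aeval t s) = 1 := le_antisymm h1 (not_lt.mp h2)
    show (aeval t s)⁻¹ ∈ O
    rw [← O.valuation_le_one_iff, map_inv₀, h3, inv_one]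
  · show (aeval t (C π))⁻¹ ∉ O
    rw [aeval_C, ← O.valuation_le_one_iff, map_inv₀, not_le]
    have h0 : O.valuation (algebraMap R F π) ≠ 0 := by
      intro h
      rw [map_eq_zero] at h
      exact hπ0 ((map_eq_zero_iff _ (algebraMap_RF_injective L)).mp h)
    exact (one_lt_inv₀ (zero_lt_iff.mpr h0)).mpr hπO

variable [CharZero L] [Field E] [Algebra (IsLocalRing.ResidueField R) E]

/-- **Block A, semi-abstract form.**  `(N_n)` at the etale points of the chart `B^t`. -/
theorem exists_local_generator_chart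
    (hπ : Irreducible π) (ht : Transcendental R t)
    (hRO : ∀ r : R, algebraMap R F r ∈ O) (htO : t ∈ O)
    (hπO : O.valuation (algebraMap R F π) < 1)
    (hgen : ∀ x : F, O.valuation x < 1 → ∃ y ∈ O, x = algebraMap R F π * y)
    (htbar : ∀ p : R[X], O.valuation (aeval t p) < 1 → ∀ i, π ∣ p.coeff i)
    (huniq : ∀ O' : ValuationSubring F,
      O'.comap (algebraMap L⟮t⟯ F) = O.comap (algebraMap L⟮t⟯ F) → O' = O)
    [FiniteDimensional L⟮t⟯ F] (n : ℕ) (hn : Module.finrank L⟮t⟯ F = n)
    (ρ : O →+* E) (hρsurj : Function.Surjective ρ)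
    (hρker : ∀ x : O, ρ x = 0 ↔ O.valuation (x : F) < 1)
    (hρR : ∀ r : R, ρ ⟨algebraMap R F r, hRO r⟩ =
      algebraMap (IsLocalRing.ResidueField R) E (IsLocalRing.residue R r))
    (hnb : Module.finrank (IsLocalRing.ResidueField R)⟮ρ ⟨t, htO⟩⟯ E = n)
    [Algebra.IsSeparable (IsLocalRing.ResidueField R)⟮ρ ⟨t, htO⟩⟯ E]
    (c : R[X])
    (H2 : ∀ x : F, (∀ y : F, IsIntegral (Algebra.adjoin R {t}) y → ∃ (m : ℕ) (p : R[X]),
        (algebraMap R F π * aeval t c) ^ m *
          algebraMap L⟮t⟯ F (Algebra.trace L⟮t⟯ F (x * y)) = aeval t p) →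
      ∃ m : ℕ, IsIntegral (Algebra.adjoin R {t}) ((algebraMap R F π * aeval t c) ^ m * x))
    (𝔫 : Ideal (Bt R t)) [𝔫.IsMaximal]
    (hπ𝔫 : polyToBt t (C π) ∈ 𝔫) (hc𝔫 : polyToBt t c ∉ 𝔫) :
    IsNoetherianRing (Bt R t) ∧
    (∃ T : R[X], polyToBt t T ∈ 𝔫 ∧ ∀ x ∈ 𝔫, ∃ s, s ∉ 𝔫 ∧
      s * x ∈ Ideal.span {polyToBt t (C π), polyToBt t T}) := by
  classical
  -- algebra structures
  letI aPF : Algebra R[X] F := polyAlgebra t
  letI aPK : Algebra R[X] L⟮t⟯ := polyAlgebraK t
  letI aPB : Algebra R[X] (Bt R t) := (polyToBt t).toAlgebra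
  haveI towPKF : IsScalarTower R[X] L⟮t⟯ F :=
    IsScalarTower.of_algebraMap_eq (fun p => (coe_aeval_gen t p).symm)
  haveI towPBF : IsScalarTower R[X] (Bt R t) F :=
    IsScalarTower.of_algebraMap_eq (fun p => rfl)
  haveI fracPK : IsFractionRing R[X] L⟮t⟯ := isFractionRing_poly t ht
  have hπ0 : π ≠ 0 := hπ.ne_zero
  have hprime : Prime (C π : R[X]) := prime_C_iff.mpr hπ.prime
  have hOver : GlueGauss.Over (C π : R[X]) O := over_poly L π t O hπ0 hRO htO hπO htbar
  haveI : CharZero L⟮t⟯ := charZero_of_injective_algebraMap (algebraMap L L⟮t⟯).injective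
  haveI : Algebra.IsSeparable L⟮t⟯ F := Algebra.IsAlgebraic.isSeparable_of_perfectField
  -- `Bt` is the integral closure of `R[X]` in `F`
  have hintB : ∀ x : F, IsIntegral R[X] x ↔ x ∈ Bt R t := fun x =>
    (isIntegral_adjoin_iff t x).symm
  haveI icl : IsIntegralClosure (Bt R t) R[X] F :=
    { algebraMap_injective := Subtype.val_injective
      isIntegral_iff := fun {x} => by
        rw [hintB]
        constructor
        · intro hx
          exact ⟨⟨x, hx⟩, rfl⟩
        · rintro ⟨y, rfl⟩
          exact y.2 }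
  haveI finB : Module.Finite R[X] (Bt R t) := IsIntegralClosure.finite R[X] L⟮t⟯ F (Bt R t)
  haveI fracB : IsFractionRing (Bt R t) F :=
    IsIntegralClosure.isFractionRing_of_finite_extension R[X] L⟮t⟯ F (Bt R t)
  have noethB : IsNoetherianRing (Bt R t) := IsNoetherianRing.of_finite R[X] (Bt R t)
  refine ⟨noethB, ?_⟩
  -- the inclusion `Bt → O` and the residue map on `Bt`
  have hBO : ∀ b : Bt R t, (b : F) ∈ O := fun b =>
    GlueGauss.mem_of_isIntegral (P := R[X]) hOver.mem ((hintB _).mpr b.2)
  let ι : Bt R t →+* O := ((Bt R t).val : Bt R t →+* F).codRestrict O.toSubring hBO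
  have hι : ∀ b : Bt R t, ((ι b : O) : F) = (b : F) := fun b => rfl
  let ψ : Bt R t →+* E := ρ.comp ι
  have hψπ : ψ (polyToBt t (C π)) = 0 := by
    show ρ (ι (polyToBt t (C π))) = 0
    rw [hρker, hι, coe_polyToBt, aeval_C]
    exact hπO
  have hkerψ : RingHom.ker ψ = Ideal.span {polyToBt t (C π)} := by
    ext b
    rw [RingHom.mem_ker, Ideal.mem_span_singleton]
    constructor
    · intro hb
      have h1 : O.valuation (b : F) < 1 := (hρker (ι b)).mp hb
      obtain ⟨y, hyO, hy⟩ := hgen _ h1
      have hyint : IsIntegral R[X] y :=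
        GlueGauss.isIntegral_of_mem_of_smul (K := L⟮t⟯) hprime hOver huniq hyO (by
          rw [Algebra.smul_def]
          show IsIntegral R[X] (aeval t (C π) * y)
          rw [aeval_C, ← hy]
          exact (hintB _).mpr b.2)
      refine ⟨⟨y, (hintB _).mp hyint⟩, Subtype.ext ?_⟩
      show (b : F) = aeval t (C π) * y
      rw [aeval_C, hy]
    · rintro ⟨y, rfl⟩
      rw [map_mul, hψπ, zero_mul]
  -- the special fibre of the base
  let κ := IsLocalRing.ResidueField R
  let πP : R[X] →+* κ[X] := mapRingHom (IsLocalRing.residue R)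
  have hπPsurj : Function.Surjective πP := map_surjective _ IsLocalRing.residue_surjective
  have hresπ : IsLocalRing.residue R π = 0 := by
    rw [IsLocalRing.residue_eq_zero_iff, hπ.maximalIdeal_eq]
    exact Ideal.mem_span_singleton_self π
  have hkerP : RingHom.ker πP = Ideal.span {C π} := by
    rw [ker_mapRingHom, IsLocalRing.ker_residue, hπ.maximalIdeal_eq, Ideal.map_span,
      Set.image_singleton]
  set tb : E := ρ ⟨t, htO⟩ with htb
  let φ : κ[X] →+* E := (aeval tb : κ[X] →ₐ[κ] E).toRingHom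
  let α : R[X] →+* O :=
    ((aeval t : R[X] →ₐ[R] F).toRingHom).codRestrict O.toSubring hOver.mem
  have hφ : ∀ p : R[X], φ (πP p) = ρ (α p) := by
    intro p
    have hcomp : φ.comp πP = ρ.comp α := by
      apply Polynomial.ringHom_ext
      · intro r
        show aeval tb (map (IsLocalRing.residue R) (C r)) = ρ (α (C r))
        rw [map_C, aeval_C]
        have : α (C r) = ⟨algebraMap R F r, hRO r⟩ :=
          Subtype.ext (by show aeval t (C r) = _; rw [aeval_C])
        rw [this, hρR]
      · show aeval tb (map (IsLocalRing.residue R) X) = ρ (α X)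
        rw [map_X, aeval_X]
        have : α X = ⟨t, htO⟩ := Subtype.ext (by show aeval t X = t; rw [aeval_X])
        rw [this]
    exact RingHom.congr_fun hcomp p
  have hαι : ∀ p : R[X], α p = ι (polyToBt t p) := fun p => rfl
  -- the special fibre of `Bt`
  let Bb : Subring E := ψ.range
  let πB : Bt R t →+* Bb := ψ.rangeRestrict
  have hπBsurj : Function.Surjective πB := ψ.rangeRestrict_surjective
  have hkerB : RingHom.ker πB = Ideal.span {algebraMap R[X] (Bt R t) (C π)} := by
    rw [RingHom.ker_rangeRestrict]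
    exact hkerψ
  have hφmem : ∀ q : κ[X], φ q ∈ Bb := by
    intro q
    obtain ⟨p, rfl⟩ := hπPsurj q
    rw [hφ, hαι]
    exact ⟨polyToBt t p, rfl⟩
  letI aPbBb : Algebra κ[X] Bb := (φ.codRestrict Bb hφmem).toAlgebra
  have hcomm : ∀ p : R[X], πB (algebraMap R[X] (Bt R t) p) = algebraMap κ[X] Bb (πP p) := by
    intro p
    apply Subtype.ext
    show ψ (polyToBt t p) = φ (πP p)
    rw [hφ, hαι]
    rfl
  -- transcendence of `tb`
  have htbtr : Transcendental κ tb := by
    rw [transcendental_iff_injective, injective_iff_map_eq_zero]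
    intro q hq
    obtain ⟨p, rfl⟩ := hπPsurj q
    have h1 : ρ (α p) = 0 := by rw [← hφ]; exact hq
    have h2 := (hρker _).mp h1
    have h3 := htbar p h2
    ext i
    show (map (IsLocalRing.residue R) p).coeff i = (0 : κ[X]).coeff i
    rw [coeff_map, coeff_zero]
    obtain ⟨r, hr⟩ := h3 i
    rw [hr, map_mul, hresπ, zero_mul]
  have hφinj : Function.Injective φ := transcendental_iff_injective.mp htbtr
  -- fraction fields of the special fibre
  letI aPbE : Algebra κ[X] E := polyAlgebra (R := κ) tb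
  letI aPbKb : Algebra κ[X] κ⟮tb⟯ := polyAlgebraK (R := κ) (L := κ) tb
  haveI towb1 : IsScalarTower κ[X] κ⟮tb⟯ E :=
    IsScalarTower.of_algebraMap_eq (fun p => (coe_aeval_gen tb p).symm)
  haveI towb2 : IsScalarTower κ[X] Bb E := IsScalarTower.of_algebraMap_eq (fun p => rfl)
  haveI fracPbKb : IsFractionRing κ[X] κ⟮tb⟯ := isFractionRing_poly (R := κ) (L := κ) tb htbtr
  have hψs : ∀ s : R[X], ψ (polyToBt t s) = φ (πP s) := fun s => by
    rw [hφ, hαι]
    rfl
  haveI fracBbE : IsFractionRing Bb E := by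
    refine IsFractionRing.of_field _ _ fun z => ?_
    obtain ⟨x, rfl⟩ := hρsurj z
    obtain ⟨s, hs, hsx⟩ :=
      GlueGauss.exists_smul_isIntegral (K := L⟮t⟯) hprime hOver huniq x.2
    let b : Bt R t := ⟨s • (x : F), (hintB _).mp hsx⟩
    have hne : ψ (polyToBt t s) ≠ 0 := by
      rw [hψs]
      intro h0
      have h1 : πP s = 0 := hφinj (by rw [h0, map_zero])
      have h2 : s ∈ RingHom.ker πP := h1
      rw [hkerP, Ideal.mem_span_singleton] at h2
      exact hs h2
    have hb : ψ b = ψ (polyToBt t s) * ρ x := by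
      show ρ (ι b) = ρ (ι (polyToBt t s)) * ρ x
      rw [← map_mul]
      congr 1
    refine ⟨πB b, πB (polyToBt t s), ?_⟩
    show ρ x = ψ b / ψ (polyToBt t s)
    rw [hb, mul_div_cancel_left₀ _ hne]
  have hinjb : Function.Injective (algebraMap κ[X] Bb) := by
    intro p q hpq
    apply hφinj
    exact congrArg (fun z : Bb => (z : E)) hpq
  have hinj : Function.Injective (algebraMap R[X] (Bt R t)) := by
    intro p q hpq
    apply transcendental_iff_injective.mp ht
    exact congrArg (fun z : Bt R t => (z : F)) hpq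
  have hKF : ∀ q : R[X], algebraMap L⟮t⟯ F (algebraMap R[X] L⟮t⟯ q) = aeval t q := fun q =>
    coe_aeval_gen t q
  -- the char-0 duality hypothesis
  have h0 : ∀ x : F, (∀ y : Bt R t, ∃ (m k : ℕ) (p : R[X]),
        algebraMap R[X] L⟮t⟯ ((C π) ^ m * c ^ k) *
          Algebra.trace L⟮t⟯ F (x * algebraMap (Bt R t) F y) = algebraMap R[X] L⟮t⟯ p) →
      ∃ (m k : ℕ) (y : Bt R t),
        algebraMap R[X] L⟮t⟯ ((C π) ^ m * c ^ k) • x = algebraMap (Bt R t) F y := by
    intro x hx
    obtain ⟨m, hm⟩ := H2 x (fun y hy => by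
      obtain ⟨m, k, p, hp⟩ := hx ⟨y, hy⟩
      refine ⟨max m k, C π ^ (max m k - m) * c ^ (max m k - k) * p, ?_⟩
      have hp' := congrArg (algebraMap L⟮t⟯ F) hp
      have hy' : algebraMap (Bt R t) F ⟨y, hy⟩ = y := rfl
      rw [map_mul, hKF, hKF, hy'] at hp'
      have e0 : aeval t (C π ^ m * c ^ k) = algebraMap R F π ^ m * aeval t c ^ k := by
        rw [map_mul, map_pow, map_pow, aeval_C]
      have e3 : aeval t (C π ^ (max m k - m) * c ^ (max m k - k) * p) =
          algebraMap R F π ^ (max m k - m) * aeval t c ^ (max m k - k) * aeval t p := by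
        rw [map_mul, map_mul, map_pow, map_pow, aeval_C]
      rw [e0] at hp'
      rw [e3, ← hp', mul_pow]
      have e1 : algebraMap R F π ^ max m k =
          algebraMap R F π ^ (max m k - m) * algebraMap R F π ^ m := by
        rw [← pow_add, Nat.sub_add_cancel (le_max_left _ _)]
      have e2 : aeval t c ^ max m k = aeval t c ^ (max m k - k) * aeval t c ^ k := by
        rw [← pow_add, Nat.sub_add_cancel (le_max_right _ _)]
      rw [e1, e2]
      ring)
    refine ⟨m, m, ⟨_, hm⟩, ?_⟩
    show algebraMap R[X] L⟮t⟯ (C π ^ m * c ^ m) • x = (algebraMap R F π * aeval t c) ^ m * x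
    rw [Algebra.smul_def, hKF, map_mul, map_pow, map_pow, aeval_C, mul_pow]
  -- purity
  obtain ⟨f, b, bb, bK, D, e', k, hf1, hf, hb, hbK, hg1, he', hg2, hdvd⟩ :=
    CoreS.purity_core_away πP πB hinj hinjb (C π) (C_ne_zero.mpr hπ0) c hπPsurj hπBsurj hkerP
      hkerB hcomm n L⟮t⟯ F hn κ⟮tb⟯ E hnb h0
  exact EtalePointMem.exists_local_generator_mem πP πB hπPsurj hπBsurj (C π) hkerB hcomm bb c k
    hdvd 𝔫 hπ𝔫 hc𝔫

end Main

end Fermat.Agent.S18.Purity.Chart
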