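import Mathlib
import Fermat.Agent.S18.Purity.Chart
import Fermat.Agent.S18.Purity.UnitDisc

/-!
# S18, block A (purity), leaf A4b: the chart `B^t`, full package

Same hypotheses as `Chart.exists_local_generator_chart`; the conclusion also records `B^t ⊆ O`,
the saturation `B^t ∩ π O = π B^t`, and the NORMALITY of the image of `B^t` in the residue field
`E` away from `c̄ = 0`: every `z : E` integral over `κ[t̄]` satisfies `c̄(t̄)^k z ∈ image of B^t`
(uniform `k`).  This is what the cusp step (Kummer cover + descent) consumes.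
-/

set_option autoImplicit false
set_option linter.style.haveILetI false

namespace Fermat.Agent.S18.Purity.ChartNormal

open Polynomial IntermediateField Fermat.Agent.S18.Purity.Chart
open Fermat.Agent.S18.Purity

section Main

variable {R L F E : Type*} [CommRing R] [IsDomain R] [IsDiscreteValuationRing R]
  [Field L] [Algebra R L] [IsFractionRing R L]
  [Field F] [Algebra L F] [Algebra R F] [IsScalarTower R L F]
  (π : R) (t : F) (O : ValuationSubring F)

variable [CharZero L] [Field E] [Algebra (IsLocalRing.ResidueField R) E]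

/-- **Block A, semi-abstract form, full package.**  The chart `B^t` is Noetherian, contained in
`O`, saturated (`B^t ∩ π O = π B^t`), its image in the residue field `E` is NORMAL away from
`c̄ = 0`, and `(N_n)` holds at its etale points. -/
theorem chart_package
    (hπ : Irreducible π) (ht : Transcendental R t)
    (hRO : ∀ r : R, algebraMap R F r ∈ O) (htO : t ∈ O)
    (hπO : O.valuation (algebraMap R F π) < 1)
    (hgen : ∀ x : F, O.valuation x < 1 → ∃ y ∈ O, x = algebraMap R F π * y)
    (htbar : ∀ p : R[X], O.valuation (aeval t p) < 1 → ∀ i, π ∣ p.coeff i)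
    (huniq : ∀ O' : ValuationSubring F,
      O'.comap (algebraMap L⟮t⟯ F) = O.comap (algebraMap L⟮t⟯ F) → O' = O)
    [FiniteDimensional L⟮t⟯ F] (n : ℕ) (hn : Module.finrank L⟮t⟯ F = n)
    (ρ : O →+* E) (hρsurj : Function.Surjective ρ)
    (hρker : ∀ x : O, ρ x = 0 ↔ O.valuation (x : F) < 1)
    (hρR : ∀ r : R, ρ ⟨algebraMap R F r, hRO r⟩ =
      algebraMap (IsLocalRing.ResidueField R) E (IsLocalRing.residue R r))
    (hnb : Module.finrank (IsLocalRing.ResidueField R)⟮ρ ⟨t, htO⟩⟯ E = n)
    [Algebra.IsSeparable (IsLocalRing.ResidueField R)⟮ρ ⟨t, htO⟩⟯ E]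
    (c : R[X])
    (H2 : ∀ x : F, (∀ y : F, IsIntegral (Algebra.adjoin R {t}) y → ∃ (m : ℕ) (p : R[X]),
        (algebraMap R F π * aeval t c) ^ m *
          algebraMap L⟮t⟯ F (Algebra.trace L⟮t⟯ F (x * y)) = aeval t p) →
      ∃ m : ℕ, IsIntegral (Algebra.adjoin R {t}) ((algebraMap R F π * aeval t c) ^ m * x))
    :
    IsNoetherianRing (Bt R t) ∧
    (∀ b : Bt R t, (b : F) ∈ O) ∧
    (∀ b : Bt R t, O.valuation (b : F) < 1 → ∃ y : Bt R t, b = polyToBt t (C π) * y) ∧
    (∃ k : ℕ, ∀ z : E, IsIntegral (Algebra.adjoin (IsLocalRing.ResidueField R) {ρ ⟨t, htO⟩}) z →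
      ∃ (y : Bt R t) (hy : (y : F) ∈ O),
        ρ ⟨aeval t c, aeval_mem_O t O hRO htO c⟩ ^ k * z = ρ ⟨(y : F), hy⟩) ∧
    (∀ (𝔫 : Ideal (Bt R t)) [𝔫.IsMaximal], polyToBt t (C π) ∈ 𝔫 → polyToBt t c ∉ 𝔫 →
      ∃ T : R[X], polyToBt t T ∈ 𝔫 ∧ ∀ x ∈ 𝔫, ∃ s, s ∉ 𝔫 ∧
        s * x ∈ Ideal.span {polyToBt t (C π), polyToBt t T}) := by
  classical
  -- algebra structures
  letI aPF : Algebra R[X] F := polyAlgebra t
  letI aPK : Algebra R[X] L⟮t⟯ := polyAlgebraK t
  letI aPB : Algebra R[X] (Bt R t) := (polyToBt t).toAlgebra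
  haveI towPKF : IsScalarTower R[X] L⟮t⟯ F :=
    IsScalarTower.of_algebraMap_eq (fun p => (coe_aeval_gen t p).symm)
  haveI towPBF : IsScalarTower R[X] (Bt R t) F :=
    IsScalarTower.of_algebraMap_eq (fun p => rfl)
  haveI fracPK : IsFractionRing R[X] L⟮t⟯ := isFractionRing_poly t ht
  have hπ0 : π ≠ 0 := hπ.ne_zero
  have hprime : Prime (C π : R[X]) := prime_C_iff.mpr hπ.prime
  have hOver : GlueGauss.Over (C π : R[X]) O := over_poly L π t O hπ0 hRO htO hπO htbar
  haveI : CharZero L⟮t⟯ := charZero_of_injective_algebraMap (algebraMap L L⟮t⟯).injective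
  haveI : Algebra.IsSeparable L⟮t⟯ F := Algebra.IsAlgebraic.isSeparable_of_perfectField
  -- `Bt` is the integral closure of `R[X]` in `F`
  have hintB : ∀ x : F, IsIntegral R[X] x ↔ x ∈ Bt R t := fun x =>
    (isIntegral_adjoin_iff t x).symm
  haveI icl : IsIntegralClosure (Bt R t) R[X] F :=
    { algebraMap_injective := Subtype.val_injective
      isIntegral_iff := fun {x} => by
        rw [hintB]
        constructor
        · intro hx
          exact ⟨⟨x, hx⟩, rfl⟩
        · rintro ⟨y, rfl⟩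
          exact y.2 }
  haveI finB : Module.Finite R[X] (Bt R t) := IsIntegralClosure.finite R[X] L⟮t⟯ F (Bt R t)
  haveI fracB : IsFractionRing (Bt R t) F :=
    IsIntegralClosure.isFractionRing_of_finite_extension R[X] L⟮t⟯ F (Bt R t)
  have noethB : IsNoetherianRing (Bt R t) := IsNoetherianRing.of_finite R[X] (Bt R t)
  refine ⟨noethB, ?_⟩
  -- the inclusion `Bt → O` and the residue map on `Bt`
  have hBO : ∀ b : Bt R t, (b : F) ∈ O := fun b =>
    GlueGauss.mem_of_isIntegral (P := R[X]) hOver.mem ((hintB _).mpr b.2)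
  let ι : Bt R t →+* O := ((Bt R t).val : Bt R t →+* F).codRestrict O.toSubring hBO
  have hι : ∀ b : Bt R t, ((ι b : O) : F) = (b : F) := fun b => rfl
  let ψ : Bt R t →+* E := ρ.comp ι
  have hψπ : ψ (polyToBt t (C π)) = 0 := by
    show ρ (ι (polyToBt t (C π))) = 0
    rw [hρker, hι, coe_polyToBt, aeval_C]
    exact hπO
  have hkerψ : RingHom.ker ψ = Ideal.span {polyToBt t (C π)} := by
    ext b
    rw [RingHom.mem_ker, Ideal.mem_span_singleton]
    constructor
    · intro hb
      have h1 : O.valuation (b : F) < 1 := (hρker (ι b)).mp hb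
      obtain ⟨y, hyO, hy⟩ := hgen _ h1
      have hyint : IsIntegral R[X] y :=
        GlueGauss.isIntegral_of_mem_of_smul (K := L⟮t⟯) hprime hOver huniq hyO (by
          rw [Algebra.smul_def]
          show IsIntegral R[X] (aeval t (C π) * y)
          rw [aeval_C, ← hy]
          exact (hintB _).mpr b.2)
      refine ⟨⟨y, (hintB _).mp hyint⟩, Subtype.ext ?_⟩
      show (b : F) = aeval t (C π) * y
      rw [aeval_C, hy]
    · rintro ⟨y, rfl⟩
      rw [map_mul, hψπ, zero_mul]
  -- the special fibre of the base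
  let κ := IsLocalRing.ResidueField R
  let πP : R[X] →+* κ[X] := mapRingHom (IsLocalRing.residue R)
  have hπPsurj : Function.Surjective πP := map_surjective _ IsLocalRing.residue_surjective
  have hresπ : IsLocalRing.residue R π = 0 := by
    rw [IsLocalRing.residue_eq_zero_iff, hπ.maximalIdeal_eq]
    exact Ideal.mem_span_singleton_self π
  have hkerP : RingHom.ker πP = Ideal.span {C π} := by
    rw [ker_mapRingHom, IsLocalRing.ker_residue, hπ.maximalIdeal_eq, Ideal.map_span,
      Set.image_singleton]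
  set tb : E := ρ ⟨t, htO⟩ with htb
  let φ : κ[X] →+* E := (aeval tb : κ[X] →ₐ[κ] E).toRingHom
  let α : R[X] →+* O :=
    ((aeval t : R[X] →ₐ[R] F).toRingHom).codRestrict O.toSubring hOver.mem
  have hφ : ∀ p : R[X], φ (πP p) = ρ (α p) := by
    intro p
    have hcomp : φ.comp πP = ρ.comp α := by
      apply Polynomial.ringHom_ext
      · intro r
        show aeval tb (map (IsLocalRing.residue R) (C r)) = ρ (α (C r))
        rw [map_C, aeval_C]
        have : α (C r) = ⟨algebraMap R F r, hRO r⟩ :=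
          Subtype.ext (by show aeval t (C r) = _; rw [aeval_C])
        rw [this, hρR]
      · show aeval tb (map (IsLocalRing.residue R) X) = ρ (α X)
        rw [map_X, aeval_X]
        have : α X = ⟨t, htO⟩ := Subtype.ext (by show aeval t X = t; rw [aeval_X])
        rw [this]
    exact RingHom.congr_fun hcomp p
  have hαι : ∀ p : R[X], α p = ι (polyToBt t p) := fun p => rfl
  -- the special fibre of `Bt`
  let Bb : Subring E := ψ.range
  let πB : Bt R t →+* Bb := ψ.rangeRestrict
  have hπBsurj : Function.Surjective πB := ψ.rangeRestrict_surjective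
  have hkerB : RingHom.ker πB = Ideal.span {algebraMap R[X] (Bt R t) (C π)} := by
    rw [RingHom.ker_rangeRestrict]
    exact hkerψ
  have hφmem : ∀ q : κ[X], φ q ∈ Bb := by
    intro q
    obtain ⟨p, rfl⟩ := hπPsurj q
    rw [hφ, hαι]
    exact ⟨polyToBt t p, rfl⟩
  letI aPbBb : Algebra κ[X] Bb := (φ.codRestrict Bb hφmem).toAlgebra
  have hcomm : ∀ p : R[X], πB (algebraMap R[X] (Bt R t) p) = algebraMap κ[X] Bb (πP p) := by
    intro p
    apply Subtype.ext
    show ψ (polyToBt t p) = φ (πP p)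
    rw [hφ, hαι]
    rfl
  -- transcendence of `tb`
  have htbtr : Transcendental κ tb := by
    rw [transcendental_iff_injective, injective_iff_map_eq_zero]
    intro q hq
    obtain ⟨p, rfl⟩ := hπPsurj q
    have h1 : ρ (α p) = 0 := by rw [← hφ]; exact hq
    have h2 := (hρker _).mp h1
    have h3 := htbar p h2
    ext i
    show (map (IsLocalRing.residue R) p).coeff i = (0 : κ[X]).coeff i
    rw [coeff_map, coeff_zero]
    obtain ⟨r, hr⟩ := h3 i
    rw [hr, map_mul, hresπ, zero_mul]
  have hφinj : Function.Injective φ := transcendental_iff_injective.mp htbtr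
  -- fraction fields of the special fibre
  letI aPbE : Algebra κ[X] E := polyAlgebra (R := κ) tb
  letI aPbKb : Algebra κ[X] κ⟮tb⟯ := polyAlgebraK (R := κ) (L := κ) tb
  haveI towb1 : IsScalarTower κ[X] κ⟮tb⟯ E :=
    IsScalarTower.of_algebraMap_eq (fun p => (coe_aeval_gen tb p).symm)
  haveI towb2 : IsScalarTower κ[X] Bb E := IsScalarTower.of_algebraMap_eq (fun p => rfl)
  haveI fracPbKb : IsFractionRing κ[X] κ⟮tb⟯ := isFractionRing_poly (R := κ) (L := κ) tb htbtr
  have hψs : ∀ s : R[X], ψ (polyToBt t s) = φ (πP s) := fun s => by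
    rw [hφ, hαι]
    rfl
  haveI fracBbE : IsFractionRing Bb E := by
    refine IsFractionRing.of_field _ _ fun z => ?_
    obtain ⟨x, rfl⟩ := hρsurj z
    obtain ⟨s, hs, hsx⟩ :=
      GlueGauss.exists_smul_isIntegral (K := L⟮t⟯) hprime hOver huniq x.2
    let b : Bt R t := ⟨s • (x : F), (hintB _).mp hsx⟩
    have hne : ψ (polyToBt t s) ≠ 0 := by
      rw [hψs]
      intro h0
      have h1 : πP s = 0 := hφinj (by rw [h0, map_zero])
      have h2 : s ∈ RingHom.ker πP := h1
      rw [hkerP, Ideal.mem_span_singleton] at h2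
      exact hs h2
    have hb : ψ b = ψ (polyToBt t s) * ρ x := by
      show ρ (ι b) = ρ (ι (polyToBt t s)) * ρ x
      rw [← map_mul]
      congr 1
    refine ⟨πB b, πB (polyToBt t s), ?_⟩
    show ρ x = ψ b / ψ (polyToBt t s)
    rw [hb, mul_div_cancel_left₀ _ hne]
  have hinjb : Function.Injective (algebraMap κ[X] Bb) := by
    intro p q hpq
    apply hφinj
    exact congrArg (fun z : Bb => (z : E)) hpq
  have hinj : Function.Injective (algebraMap R[X] (Bt R t)) := by
    intro p q hpq
    apply transcendental_iff_injective.mp ht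
    exact congrArg (fun z : Bt R t => (z : F)) hpq
  have hKF : ∀ q : R[X], algebraMap L⟮t⟯ F (algebraMap R[X] L⟮t⟯ q) = aeval t q := fun q =>
    coe_aeval_gen t q
  -- the char-0 duality hypothesis
  have h0 : ∀ x : F, (∀ y : Bt R t, ∃ (m k : ℕ) (p : R[X]),
        algebraMap R[X] L⟮t⟯ ((C π) ^ m * c ^ k) *
          Algebra.trace L⟮t⟯ F (x * algebraMap (Bt R t) F y) = algebraMap R[X] L⟮t⟯ p) →
      ∃ (m k : ℕ) (y : Bt R t),
        algebraMap R[X] L⟮t⟯ ((C π) ^ m * c ^ k) • x = algebraMap (Bt R t) F y := by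
    intro x hx
    obtain ⟨m, hm⟩ := H2 x (fun y hy => by
      obtain ⟨m, k, p, hp⟩ := hx ⟨y, hy⟩
      refine ⟨max m k, C π ^ (max m k - m) * c ^ (max m k - k) * p, ?_⟩
      have hp' := congrArg (algebraMap L⟮t⟯ F) hp
      have hy' : algebraMap (Bt R t) F ⟨y, hy⟩ = y := rfl
      rw [map_mul, hKF, hKF, hy'] at hp'
      have e0 : aeval t (C π ^ m * c ^ k) = algebraMap R F π ^ m * aeval t c ^ k := by
        rw [map_mul, map_pow, map_pow, aeval_C]
      have e3 : aeval t (C π ^ (max m k - m) * c ^ (max m k - k) * p) =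
          algebraMap R F π ^ (max m k - m) * aeval t c ^ (max m k - k) * aeval t p := by
        rw [map_mul, map_mul, map_pow, map_pow, aeval_C]
      rw [e0] at hp'
      rw [e3, ← hp', mul_pow]
      have e1 : algebraMap R F π ^ max m k =
          algebraMap R F π ^ (max m k - m) * algebraMap R F π ^ m := by
        rw [← pow_add, Nat.sub_add_cancel (le_max_left _ _)]
      have e2 : aeval t c ^ max m k = aeval t c ^ (max m k - k) * aeval t c ^ k := by
        rw [← pow_add, Nat.sub_add_cancel (le_max_right _ _)]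
      rw [e1, e2]
      ring)
    refine ⟨m, m, ⟨_, hm⟩, ?_⟩
    show algebraMap R[X] L⟮t⟯ (C π ^ m * c ^ m) • x = (algebraMap R F π * aeval t c) ^ m * x
    rw [Algebra.smul_def, hKF, map_mul, map_pow, map_pow, aeval_C, mul_pow]
  -- purity
  obtain ⟨f, b, bb, bK, D, e', k, hf1, hf, hb, hbK, hg1, he', hg2, hdvd⟩ :=
    CoreS.purity_core_away πP πB hinj hinjb (C π) (C_ne_zero.mpr hπ0) c hπPsurj hπBsurj hkerP
      hkerB hcomm n L⟮t⟯ F hn κ⟮tb⟯ E hnb h0
  refine ⟨hBO, ?_, ⟨k, ?_⟩, ?_⟩
  · -- saturation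
    intro b hb
    have h1 : b ∈ RingHom.ker ψ := by
      rw [RingHom.mem_ker]
      show ρ (ι b) = 0
      rw [hρker]
      exact hb
    rw [hkerψ, Ideal.mem_span_singleton] at h1
    obtain ⟨y, rfl⟩ := h1
    exact ⟨y, rfl⟩
  · -- normality away from `c̄`
    intro z hz
    have hzP : IsIntegral κ[X] z := (isIntegral_adjoin_iff tb z).mp hz
    have : FaithfulSMul κ[X] Bb := (faithfulSMul_iff_algebraMap_injective _ _).mpr hinjb
    have : Module.Finite κ[X] Bb := Module.Finite.of_basis bb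
    have : Algebra.IsAlgebraic κ[X] Bb := inferInstance
    let bE : Module.Basis (Fin n) κ⟮tb⟯ E :=
      bb.localizationLocalization κ⟮tb⟯ (nonZeroDivisors κ[X]) E
    have hbE : ∀ i, bE i = ((bb i : Bb) : E) := fun i =>
      Module.Basis.localizationLocalization_apply _ _ _ _ i
    have hdisc : Algebra.discr κ⟮tb⟯ bE = algebraMap κ[X] κ⟮tb⟯ (Algebra.discr κ[X] bb) :=
      Algebra.discr_localizationLocalization κ[X] (nonZeroDivisors κ[X]) E bb
    have hbint : ∀ i, IsIntegral κ[X] (bE i) := fun i => by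
      rw [hbE]
      exact (Algebra.IsIntegral.isIntegral (R := κ[X]) (bb i)).map
        (IsScalarTower.toAlgHom κ[X] Bb E)
    have : Module.Finite κ⟮tb⟯ E := Module.Finite.of_basis bE
    have hd0 : Algebra.discr κ⟮tb⟯ bE ≠ 0 := Algebra.discr_not_zero_of_basis κ⟮tb⟯ bE
    have hmem := UnitDisc.discr_smul_mem_span (R := κ[X]) bE hbint hd0 hzP
    obtain ⟨q, hq⟩ := (Submodule.mem_span_range_iff_exists_fun κ[X]).mp hmem
    obtain ⟨u, hu⟩ := hdvd
    -- the element of `Bb`
    let w : Bb := ∑ i, (u * q i) • bb i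
    obtain ⟨y, hy⟩ := hπBsurj w
    refine ⟨y, hBO y, ?_⟩
    have hρc : ρ ⟨aeval t c, aeval_mem_O t O hRO htO c⟩ = φ (πP c) := by
      rw [hφ]
      rfl
    have hψy : ρ ⟨(y : F), hBO y⟩ = ((w : Bb) : E) := by
      have := congrArg (fun z : Bb => (z : E)) hy
      exact this
    have hdz : Algebra.discr κ⟮tb⟯ bE • z = φ (Algebra.discr κ[X] bb) * z := by
      rw [hdisc, Algebra.smul_def, ← IsScalarTower.algebraMap_apply κ[X] κ⟮tb⟯ E]
      rfl
    have hw : ((w : Bb) : E) = φ u * ∑ i, q i • bE i := by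
      show ((∑ i, (u * q i) • bb i : Bb) : E) = _
      rw [Finset.mul_sum]
      have : ((∑ i, (u * q i) • bb i : Bb) : E) = ∑ i, (((u * q i) • bb i : Bb) : E) :=
        map_sum (algebraMap Bb E) _ _
      rw [this]
      refine Finset.sum_congr rfl fun i _ => ?_
      rw [hbE, Algebra.smul_def, Algebra.smul_def]
      show φ (u * q i) * ((bb i : Bb) : E) = φ u * (φ (q i) * ((bb i : Bb) : E))
      rw [map_mul, mul_assoc]
    rw [hρc, hψy, hw, hq, hdz, ← map_pow, hu, map_mul]
    ring
  · intro 𝔫 _ hπ𝔫 hc𝔫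
    exact EtalePointMem.exists_local_generator_mem πP πB hπPsurj hπBsurj (C π) hkerB hcomm bb c k
      hdvd 𝔫 hπ𝔫 hc𝔫

end Main

end Fermat.Agent.S18.Purity.ChartNormal
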