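import Mathlib
import Fermat.Agent.S18.Purity.CharZeroDual
import Fermat.Agent.S18.Purity.CharZeroRam

/-!
# S18, block A (purity), leaf A3: hypothesis (H2) of the purity core from D5

Combination of `CharZeroRam.not_map_le_sq` (A3b: `e = 1` at every nonzero prime of the integral
closure of `P0 = k0[t, 1/c(t)]` in `F0`, from the place statement D5 over the algebraic closure)
and `CharZeroDual.exists_pow_mul_isIntegral` (A3a: unramified in characteristic zero ⇒ the trace
dual of `B[1/l]` is `B[1/l]`).
-/

set_option autoImplicit false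
set_option linter.overlappingInstances false
set_option linter.style.haveILetI false
set_option linter.unusedSectionVars false

open AlgebraicCurve Polynomial IntermediateField

namespace Fermat.Agent.S18.Purity.CharZero

section H2

variable {P P0 K F0 k0 kb Fb : Type*} [CommRing P] (l : P) [CommRing P0] [IsDedekindDomain P0]
  [Algebra P P0] [IsLocalization.Away l P0]
  [Field K] [Field F0] [Algebra P0 K] [IsFractionRing P0 K] [Algebra K F0] [FiniteDimensional K F0]
  [Algebra P0 F0] [IsScalarTower P0 K F0]
  [Algebra P K] [IsScalarTower P P0 K] [Algebra P F0] [IsScalarTower P P0 F0]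
  [Field k0] [CharZero k0] [Algebra k0 P0] [Algebra k0 F0] [IsScalarTower k0 P0 F0]
  [Field kb] [IsAlgClosed kb] [Algebra k0 kb] [Algebra.IsAlgebraic k0 kb]
  [Field Fb] [Algebra kb Fb] [Algebra F0 Fb] [Algebra k0 Fb]
  [IsScalarTower k0 F0 Fb] [IsScalarTower k0 kb Fb]

/-- **A3 = (H2) of the purity core, element form.**  `P0 = P[1/l]` is a Dedekind `k0`-algebra
(`k0` of characteristic zero) containing the coordinate `tP` and in which `c(tP)` is a unit;
`F0 / Frac P0` finite; `Fb / kb` the function field over the algebraic closure.  If every place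
of `Fb / kb` centred at a value `t0` of `t` with `c(t0) ≠ 0` has `ord (t - t0) = 1` (D5), then
every `x : F0` whose traces against `P`-integral elements lie in `P[1/l]` is `P`-integral up to a
power of `l`. -/
theorem h2_of_places (tP : P0) (c : k0[X]) (hc : IsUnit (aeval tP c))
    (htr : Transcendental kb (algebraMap F0 Fb (algebraMap P0 F0 tP)))
    (hfin : FiniteDimensional kb⟮algebraMap F0 Fb (algebraMap P0 F0 tP)⟯ Fb)
    (D5 : ∀ (v : Place kb Fb) (t0 : kb), aeval t0 c ≠ 0 →
      0 < v.ord (algebraMap F0 Fb (algebraMap P0 F0 tP) - algebraMap kb Fb t0) →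
      v.ord (algebraMap F0 Fb (algebraMap P0 F0 tP) - algebraMap kb Fb t0) = 1)
    (x : F0)
    (hx : ∀ y : F0, IsIntegral P y → ∃ (m : ℕ) (p : P),
      algebraMap P K l ^ m * Algebra.trace K F0 (x * y) = algebraMap P K p) :
    ∃ m : ℕ, IsIntegral P (algebraMap P F0 l ^ m * x) := by
  letI : Algebra ℚ P0 := ((algebraMap k0 P0).comp (algebraMap ℚ k0)).toAlgebra
  refine CharZeroDual.exists_pow_mul_isIntegral (P0 := P0) (K := K) l ?_ x hx
  intro q hq hq0
  haveI := hq.isPrime
  exact CharZeroRam.not_map_le_sq tP c hc htr hfin D5 q hq0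

/-- **A3 = (H2) of the purity core, ring form**: the same for any model `B` of the integral
closure of `P` in `F0`. -/
theorem h2_of_places' {B : Type*} [CommRing B] [Algebra P B] [Algebra B F0] [IsScalarTower P B F0]
    [IsIntegralClosure B P F0]
    (tP : P0) (c : k0[X]) (hc : IsUnit (aeval tP c))
    (htr : Transcendental kb (algebraMap F0 Fb (algebraMap P0 F0 tP)))
    (hfin : FiniteDimensional kb⟮algebraMap F0 Fb (algebraMap P0 F0 tP)⟯ Fb)
    (D5 : ∀ (v : Place kb Fb) (t0 : kb), aeval t0 c ≠ 0 →
      0 < v.ord (algebraMap F0 Fb (algebraMap P0 F0 tP) - algebraMap kb Fb t0) →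
      v.ord (algebraMap F0 Fb (algebraMap P0 F0 tP) - algebraMap kb Fb t0) = 1)
    (x : F0)
    (hx : ∀ y : B, ∃ (m : ℕ) (p : P),
      algebraMap P K l ^ m * Algebra.trace K F0 (x * algebraMap B F0 y) = algebraMap P K p) :
    ∃ (m : ℕ) (b : B), algebraMap B F0 b = algebraMap P F0 l ^ m * x := by
  obtain ⟨m, hm⟩ := h2_of_places (K := K) l tP c hc htr hfin D5 x (fun y hy => by
    obtain ⟨b, rfl⟩ := (IsIntegralClosure.isIntegral_iff (A := B)).mp hy
    exact hx b)
  obtain ⟨b, hb⟩ := (IsIntegralClosure.isIntegral_iff (A := B)).mp hm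
  exact ⟨m, b, hb⟩

end H2

end Fermat.Agent.S18.Purity.CharZero
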