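import Mathlib
import Fermat.Agent.S18.Purity.ChartNormal
import Fermat.Agent.S18.Purity.CharZeroInst
import Fermat.Agent.S18.Inst.Bundle
import Fermat.Agent.S18.Gauss.Residue
import Fermat.Agent.S18.Haupt.Level4Gauss
import Fermat.Agent.S18.Haupt.Level9GaussFinal
import Fermat.Agent.S18.Haupt.Level4D5
import Fermat.Agent.S18.Haupt.Level4Degree
import Fermat.Agent.S18.Haupt9.D5
import Fermat.Agent.S18.ConstExt.Restrict

/-!
# S18, block A (purity), leaf A5: `chart_package` at the concrete modular function fields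

`K` a field of characteristic zero (a number field inside `ℚ̄`), `A` a discrete valuation subring
of `K` with residue field `κ`, `F ⊆ K((q))` a subfield with a Gauss-type valuation subring
`(O', ρ)` (`Gauss.Residue.IsGaussRed`), `E ⊆ κ((q))` the range of `ρ`.

* `resE`, `resE_surjective`, `resE_eq_zero_iff`, `resE_algebraMap` : the reduction
  `O' → E` in the shape (`hρsurj`, `hρker`, `hρR`) of `ChartNormal.chart_package`;
* `h2_of_up` : hypothesis (H2) of `chart_package` for `F = laurentBaseChange K F₀` from the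
  unramifiedness (D5) of `laurentBaseChange ℚ̄ F₀` over the `t`-line;
* `chart_package_gauss` : the assembly, for a coordinate with `Inst.Bundle.CoordData`;
* `chart_package_level4`, `chart_package_level9` : `F₀ = modularFunctionFieldFull M`,
  `t = t₄` (`4 ∣ M`, `c = X (X + 16)`) resp. `t = t₉` (`9 ∣ M`, `c = X (X² + 9 X + 27)`).
-/

set_option autoImplicit false
set_option linter.style.haveILetI false
set_option linter.unusedSectionVars false
set_option synthInstance.maxHeartbeats 400000

noncomputable section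

namespace Fermat.Agent.S18.Purity.ChartInst

open Polynomial IntermediateField IsLocalRing ModularCurve AlgebraicCurve
open Fermat.Agent.S28.Export
open Fermat.Agent.S18.Gauss.Residue Fermat.Agent.S18.Inst.Bundle Fermat.Agent.S18.Core.Charts
open Fermat.Agent.S18.Purity.Chart Fermat.Agent.S18.Purity

/-! ### (a) the reduction map onto its range field -/

section Residue

variable {K : Type*} [Field K] {A : ValuationSubring K}
  {F : IntermediateField K (LaurentSeries K)} {O' : ValuationSubring F}
  {ρ : O' →+* LaurentSeries (ResidueField A)}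
  (E : IntermediateField (ResidueField A) (LaurentSeries (ResidueField A)))

/-- The Gauss reduction `ρ : O' → κ((q))`, corestricted to its range field `E`. -/
def resE (hrange : Set.range ρ = (E : Set (LaurentSeries (ResidueField A)))) : O' →+* E :=
  ρ.codRestrict E (fun x => by
    rw [← SetLike.mem_coe, ← hrange]
    exact ⟨x, rfl⟩)

@[simp] theorem coe_resE (hrange : Set.range ρ = (E : Set (LaurentSeries (ResidueField A))))
    (x : O') : ((resE E hrange x : E) : LaurentSeries (ResidueField A)) = ρ x := rfl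

theorem resE_surjective (hrange : Set.range ρ = (E : Set (LaurentSeries (ResidueField A)))) :
    Function.Surjective (resE E hrange) := by
  rintro ⟨y, hy⟩
  have h : y ∈ Set.range ρ := by
    rw [hrange]
    exact hy
  obtain ⟨x, rfl⟩ := h
  exact ⟨x, rfl⟩

theorem resE_eq_zero_iff (hG : IsGaussRed A (residue A) F O' ρ)
    (hrange : Set.range ρ = (E : Set (LaurentSeries (ResidueField A)))) (x : O') :
    resE E hrange x = 0 ↔ O'.valuation (x : F) < 1 := by
  constructor
  · intro h
    have h0 : ρ x = 0 := congrArg Subtype.val h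
    by_contra hlt
    have hle : O'.valuation (x : F) ≤ 1 := (ValuationSubring.valuation_le_one_iff _ _).mpr x.2
    have h1 : O'.valuation (x : F) = 1 := le_antisymm hle (not_lt.mp hlt)
    have hu : IsUnit x := (ValuationSubring.valuation_eq_one_iff O' x).mpr h1
    have h2 := hu.map ρ
    rw [h0] at h2
    exact not_isUnit_zero h2
  · intro h
    exact Subtype.ext (hG.map_eq_zero x h)

theorem resE_algebraMap (hG : IsGaussRed A (residue A) F O' ρ)
    (hrange : Set.range ρ = (E : Set (LaurentSeries (ResidueField A)))) (a : A)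
    (ha : algebraMap A F a ∈ O') :
    resE E hrange ⟨algebraMap A F a, ha⟩ = algebraMap (ResidueField A) E (residue A a) := by
  apply Subtype.ext
  rw [coe_resE]
  have h1 := hG.map_algebraMap a
  have h2 : ((algebraMap (ResidueField A) E (residue A a) : E) :
      LaurentSeries (ResidueField A)) = HahnSeries.C (residue A a) :=
    algebraMap_eq_C (ResidueField A) (residue A a)
  rw [h2, ← h1]
  rfl

end Residue

/-! ### (b) hypothesis (H2) from (D5) over `ℚ̄` -/

section H2

local notation "Kb" => AlgebraicClosure ℚ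

variable {K : Type*} [Field K] [Algebra ℚ K] [Algebra K Kb]
  {A : ValuationSubring K} [IsDiscreteValuationRing A]
  (F₀ : IntermediateField ℚ (LaurentSeries ℚ))

set_option maxHeartbeats 1000000 in
/-- **(H2) for `F = laurentBaseChange K F₀`** from the unramifiedness (D5) of
`laurentBaseChange ℚ̄ F₀` over the `t`-line away from the zeros of `c`. -/
theorem h2_of_up {π : A} (hπ : Irreducible π) (t : laurentBaseChange K F₀)
    (ht : Transcendental K t) [FiniteDimensional K⟮t⟯ (laurentBaseChange K F₀)]
    (c : A[X]) (hc0 : c ≠ 0)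
    (tB : laurentBaseChange Kb F₀) (hup : ConstExt.up F₀ t = tB)
    (htr : Transcendental Kb tB)
    (hfin : FiniteDimensional Kb⟮tB⟯ (laurentBaseChange Kb F₀))
    (D5 : ∀ (v : Place Kb (laurentBaseChange Kb F₀)) (t0 : Kb),
      aeval t0 (c.map (algebraMap A K)) ≠ 0 →
      0 < v.ord (tB - algebraMap Kb (laurentBaseChange Kb F₀) t0) →
      v.ord (tB - algebraMap Kb (laurentBaseChange Kb F₀) t0) = 1)
    (x : laurentBaseChange K F₀)
    (hx : ∀ y : laurentBaseChange K F₀, IsIntegral (Algebra.adjoin A {t}) y →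
      ∃ (m : ℕ) (p : A[X]),
        (algebraMap A (laurentBaseChange K F₀) π * aeval t c) ^ m *
          algebraMap K⟮t⟯ (laurentBaseChange K F₀)
            (Algebra.trace K⟮t⟯ (laurentBaseChange K F₀) (x * y)) = aeval t p) :
    ∃ m : ℕ, IsIntegral (Algebra.adjoin A {t})
      ((algebraMap A (laurentBaseChange K F₀) π * aeval t c) ^ m * x) := by
  subst hup
  haveI : CharZero K := algebraRat.charZero K
  haveI : Algebra.IsAlgebraic ℚ Kb := AlgebraicClosure.isAlgebraic ℚ
  haveI : Algebra.IsAlgebraic K Kb := Algebra.IsAlgebraic.tower_top (K := ℚ) K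
  letI := ConstExt.algUp (L1 := K) (K := Kb) F₀
  letI := ConstExt.algConst (L1 := K) (K := Kb) F₀
  haveI := ConstExt.isScalarTower_const (L1 := K) (K := Kb) F₀
  haveI := ConstExt.isScalarTower_up (L1 := K) (K := Kb) F₀
  haveI : IsScalarTower A K (laurentBaseChange K F₀) :=
    IsScalarTower.of_algebraMap_eq (fun _ => rfl)
  have h := @CharZeroInst.h2_elementwise A K (laurentBaseChange K F₀) _ _ _ π hπ _ _ _ _ _ _ _ _
    t ht _ c hc0 Kb (laurentBaseChange Kb F₀) _ _ _ _ _ _ _ _ _ _
  have h1 := h htr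
  have h2 := h1 hfin
  have h3 := h2 D5
  exact h3 x hx

end H2

/-! ### (c) the assembly -/

section Assembly

variable {K : Type*} [Field K] [CharZero K] {A : ValuationSubring K} [IsDiscreteValuationRing A]
  {F : IntermediateField K (LaurentSeries K)} {O' : ValuationSubring F}
  {ρ : O' →+* LaurentSeries (ResidueField A)}
  (E : IntermediateField (ResidueField A) (LaurentSeries (ResidueField A)))

set_option maxHeartbeats 1000000 in
/-- **Block A at a Gauss-type pair.**  `ChartNormal.chart_package` with all valuation-theoretic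
hypotheses discharged from `hG : IsGaussRed ..`, the range `E` of the reduction and helper15's
bundle `CoordData A π O' t`; what remains: the two degrees agree, the residue extension is
separable, and (H2). -/
theorem chart_package_gauss (hG : IsGaussRed A (residue A) F O' ρ)
    (hrange : Set.range ρ = (E : Set (LaurentSeries (ResidueField A))))
    {π : A} {t : F} (hcd : CoordData A π O' t)
    (tb : E) (htb : ρ ⟨t, hcd.good.tau_mem⟩ = (tb : LaurentSeries (ResidueField A)))
    (hdeg : Module.finrank K⟮t⟯ F = Module.finrank (ResidueField A)⟮tb⟯ E)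
    [Algebra.IsSeparable (ResidueField A)⟮tb⟯ E]
    (c : A[X])
    (H2 : ∀ x : F, (∀ y : F, IsIntegral (Algebra.adjoin A {t}) y → ∃ (m : ℕ) (p : A[X]),
        (algebraMap A F π * aeval t c) ^ m *
          algebraMap K⟮t⟯ F (Algebra.trace K⟮t⟯ F (x * y)) = aeval t p) →
      ∃ m : ℕ, IsIntegral (Algebra.adjoin A {t}) ((algebraMap A F π * aeval t c) ^ m * x)) :
    IsNoetherianRing (Bt A t) ∧
    (∀ b : Bt A t, (b : F) ∈ O') ∧
    (∀ b : Bt A t, O'.valuation (b : F) < 1 → ∃ y : Bt A t, b = polyToBt t (C π) * y) ∧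
    (∃ k : ℕ, ∀ z : E, IsIntegral (Algebra.adjoin (ResidueField A) {tb}) z →
      ∃ (y : Bt A t) (hy : (y : F) ∈ O'),
        resE E hrange ⟨aeval t c,
          aeval_mem_O t O' hcd.good.algebraMap_mem hcd.good.tau_mem c⟩ ^ k * z
          = resE E hrange ⟨(y : F), hy⟩) ∧
    (∀ (𝔫 : Ideal (Bt A t)) [𝔫.IsMaximal], polyToBt t (C π) ∈ 𝔫 → polyToBt t c ∉ 𝔫 →
      ∃ T : A[X], polyToBt t T ∈ 𝔫 ∧ ∀ x ∈ 𝔫, ∃ s, s ∉ 𝔫 ∧
        s * x ∈ Ideal.span {polyToBt t (C π), polyToBt t T}) := by
  classical
  have hg := hcd.good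
  haveI := hcd.finite
  haveI : IsScalarTower A K F := IsScalarTower.of_algebraMap_eq (fun _ => rfl)
  have hρt : resE E hrange ⟨t, hg.tau_mem⟩ = tb := Subtype.ext htb
  subst hρt
  have h := @ChartNormal.chart_package A K F E _ _ _ _ _ _ _ _ _ _ π t O' _ _ _ hg.irreducible
    hcd.transc hg.algebraMap_mem hg.tau_mem hg.pi_lt hg.exists_eq_mul hg.transc hcd.uniq _
    (Module.finrank K⟮t⟯ F) rfl (resE E hrange) (resE_surjective E hrange)
    (resE_eq_zero_iff E hG hrange)
  have h1 := h (fun r => resE_algebraMap E hG hrange r _)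
  have h2 := h1 hdeg.symm
  exact h2 c H2

end Assembly

/-! ### (d) levels `4 ∣ M` and `9 ∣ M` -/

section Levels

local notation "Kb" => AlgebraicClosure ℚ

open Fermat.Agent.S24.BridgeInv Fermat.Agent.S18.Haupt Fermat.Agent.S18.Haupt.Level4Degree

variable {K : Type*} [Field K] [Algebra ℚ K] [Algebra K Kb]
  {A : ValuationSubring K} [IsDiscreteValuationRing A] (M : ℕ) [NeZero M]

/-- the cusp polynomial of level `4`: `t₄ = 0, -16` are the finite cusp values -/
def c4 (R : Type*) [CommRing R] : R[X] := X * (X + 16)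

/-- the cusp polynomial of level `9`: `t₉ = 0` and the two roots of `t² + 9 t + 27` are the
finite cusp values -/
def c9 (R : Type*) [CommRing R] : R[X] := X * (X ^ 2 + 9 * X + 27)

theorem c4_ne_zero (R : Type*) [CommRing R] [Nontrivial R] : c4 R ≠ 0 := by
  have h : (c4 R).Monic := by
    unfold c4
    refine monic_X.mul ?_
    rw [← map_ofNat (C : R →+* R[X]) 16]
    exact monic_X_add_C _
  exact h.ne_zero

theorem c9_ne_zero (R : Type*) [CommRing R] [Nontrivial R] : c9 R ≠ 0 := by
  have h : (c9 R).Monic := by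
    unfold c9
    refine monic_X.mul ?_
    have e : (X ^ 2 + 9 * X + 27 : R[X]) = X ^ 2 + (C 9 * X + C 27) := by
      rw [← map_ofNat (C : R →+* R[X]) 9, ← map_ofNat (C : R →+* R[X]) 27, add_assoc]
    rw [e]
    refine monic_X_pow_add ?_
    refine lt_of_le_of_lt (degree_add_le _ _) (max_lt ?_ ?_)
    · refine lt_of_le_of_lt (degree_C_mul_X_le _) ?_
      norm_num
    · refine lt_of_le_of_lt degree_C_le ?_
      norm_num
  exact h.ne_zero

theorem map_c4 {R S : Type*} [CommRing R] [CommRing S] (f : R →+* S) : (c4 R).map f = c4 S := by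
  simp [c4, Polynomial.map_mul, Polynomial.map_add]

theorem map_c9 {R S : Type*} [CommRing R] [CommRing S] (f : R →+* S) : (c9 R).map f = c9 S := by
  simp [c9, Polynomial.map_mul, Polynomial.map_add, Polynomial.map_pow]

theorem aeval_c4 {R S : Type*} [CommRing R] [CommRing S] [Algebra R S] (x : S) :
    aeval x (c4 R) = x * (x + 16) := by
  simp [c4, map_ofNat]

theorem aeval_c9 {R S : Type*} [CommRing R] [CommRing S] [Algebra R S] (x : S) :
    aeval x (c9 R) = x * (x ^ 2 + 9 * x + 27) := by
  simp [c9, map_ofNat]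

/-- `t₄` as an element of `F_{M,K}`, `4 ∣ M` -/
def t4K (K : Type*) [Field K] [Algebra ℚ K] (M : ℕ) [NeZero M] (h4 : 4 ∣ M) :
    laurentBaseChange K (modularFunctionFieldFull M) :=
  ⟨t4C K, t4C_mem_laurentBaseChange K M h4⟩

/-- `t₉` as an element of `F_{M,K}`, `9 ∣ M` -/
def t9K (K : Type*) [Field K] [Algebra ℚ K] (M : ℕ) [NeZero M] (h9 : 9 ∣ M) :
    laurentBaseChange K (modularFunctionFieldFull M) :=
  ⟨Haupt9.t9C K, Level9Final.t9C_mem_laurentBaseChange K M h9⟩

theorem up_t4K (h4 : 4 ∣ M) :
    ConstExt.up (K := Kb) (modularFunctionFieldFull M) (t4K K M h4) = t4Bar M h4 := by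
  apply Subtype.ext
  rw [ConstExt.coe_up, coe_t4Bar_eq]
  exact coeffMap_t4C _

theorem up_t9K (h9 : 9 ∣ M) :
    ConstExt.up (K := Kb) (modularFunctionFieldFull M) (t9K K M h9) = Haupt9.t9Bar M h9 := by
  apply Subtype.ext
  rw [ConstExt.coe_up, Haupt9.coe_t9Bar_eq]
  exact Haupt9.coeffMap_t9C _

/-- **(H2) at level `4 ∣ M`**, `c = X (X + 16)`. -/
theorem h2_level4 (h4 : 4 ∣ M) {π : A} (hπ : Irreducible π)
    (ht : Transcendental K (t4K K M h4))
    [FiniteDimensional K⟮t4K K M h4⟯ (laurentBaseChange K (modularFunctionFieldFull M))]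
    (x : laurentBaseChange K (modularFunctionFieldFull M))
    (hx : ∀ y : laurentBaseChange K (modularFunctionFieldFull M),
      IsIntegral (Algebra.adjoin A {t4K K M h4}) y → ∃ (m : ℕ) (p : A[X]),
        (algebraMap A (laurentBaseChange K (modularFunctionFieldFull M)) π *
            aeval (t4K K M h4) (c4 A)) ^ m *
          algebraMap K⟮t4K K M h4⟯ (laurentBaseChange K (modularFunctionFieldFull M))
            (Algebra.trace K⟮t4K K M h4⟯ (laurentBaseChange K (modularFunctionFieldFull M))
              (x * y)) = aeval (t4K K M h4) p) :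
    ∃ m : ℕ, IsIntegral (Algebra.adjoin A {t4K K M h4})
      ((algebraMap A (laurentBaseChange K (modularFunctionFieldFull M)) π *
        aeval (t4K K M h4) (c4 A)) ^ m * x) := by
  refine h2_of_up (modularFunctionFieldFull M) hπ (t4K K M h4) ht (c4 A) (c4_ne_zero A)
    (t4Bar M h4) (up_t4K M h4) (transcendental_t4Bar M h4) (finiteDimensional_t4Bar M h4)
    (fun v t0 h0 hv => ?_) x hx
  rw [map_c4, aeval_c4] at h0
  refine ord_t4Bar_sub_eq_one M h4 v t0 (left_ne_zero_of_mul h0) (fun h16 => ?_) hv
  apply right_ne_zero_of_mul h0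
  rw [h16]
  ring

/-- **(H2) at level `9 ∣ M`**, `c = X (X² + 9 X + 27)`. -/
theorem h2_level9 (h9 : 9 ∣ M) {π : A} (hπ : Irreducible π)
    (ht : Transcendental K (t9K K M h9))
    [FiniteDimensional K⟮t9K K M h9⟯ (laurentBaseChange K (modularFunctionFieldFull M))]
    (x : laurentBaseChange K (modularFunctionFieldFull M))
    (hx : ∀ y : laurentBaseChange K (modularFunctionFieldFull M),
      IsIntegral (Algebra.adjoin A {t9K K M h9}) y → ∃ (m : ℕ) (p : A[X]),
        (algebraMap A (laurentBaseChange K (modularFunctionFieldFull M)) π *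
            aeval (t9K K M h9) (c9 A)) ^ m *
          algebraMap K⟮t9K K M h9⟯ (laurentBaseChange K (modularFunctionFieldFull M))
            (Algebra.trace K⟮t9K K M h9⟯ (laurentBaseChange K (modularFunctionFieldFull M))
              (x * y)) = aeval (t9K K M h9) p) :
    ∃ m : ℕ, IsIntegral (Algebra.adjoin A {t9K K M h9})
      ((algebraMap A (laurentBaseChange K (modularFunctionFieldFull M)) π *
        aeval (t9K K M h9) (c9 A)) ^ m * x) := by
  refine h2_of_up (modularFunctionFieldFull M) hπ (t9K K M h9) ht (c9 A) (c9_ne_zero A)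
    (Haupt9.t9Bar M h9) (up_t9K M h9) (Haupt9.transcendental_t9Bar M h9)
    (Haupt9.finiteDimensional_t9Bar M h9) (fun v t0 h0 hv => ?_) x hx
  rw [map_c9, aeval_c9] at h0
  exact Haupt9.ord_t9Bar_sub_eq_one M h9 v t0 (left_ne_zero_of_mul h0)
    (right_ne_zero_of_mul h0) hv

/-- **Block A at level `4 ∣ M`** (`F = F_{M,K}`, `t = t₄`, `c = X (X + 16)`): hypotheses = the
Gauss-type pair `(O', ρ)` with range `E`, helper15's bundle for `t₄`, equality of the two degrees
and separability of the residue extension over `κ(t̄₄)`. -/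
theorem chart_package_level4 (h4 : 4 ∣ M)
    {O' : ValuationSubring (laurentBaseChange K (modularFunctionFieldFull M))}
    {ρ : O' →+* LaurentSeries (ResidueField A)}
    (hG : IsGaussRed A (residue A) (laurentBaseChange K (modularFunctionFieldFull M)) O' ρ)
    (E : IntermediateField (ResidueField A) (LaurentSeries (ResidueField A)))
    (hrange : Set.range ρ = (E : Set (LaurentSeries (ResidueField A))))
    {π : A} (hcd : CoordData A π O' (t4K K M h4))
    (tb : E) (htb : (tb : LaurentSeries (ResidueField A)) = t4C (ResidueField A))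
    (hdeg : Module.finrank K⟮t4K K M h4⟯ (laurentBaseChange K (modularFunctionFieldFull M)) =
      Module.finrank (ResidueField A)⟮tb⟯ E)
    [Algebra.IsSeparable (ResidueField A)⟮tb⟯ E] :
    IsNoetherianRing (Bt A (t4K K M h4)) ∧
    (∀ b : Bt A (t4K K M h4), (b : laurentBaseChange K (modularFunctionFieldFull M)) ∈ O') ∧
    (∀ b : Bt A (t4K K M h4),
      O'.valuation (b : laurentBaseChange K (modularFunctionFieldFull M)) < 1 →
      ∃ y : Bt A (t4K K M h4), b = polyToBt (t4K K M h4) (C π) * y) ∧
    (∃ k : ℕ, ∀ z : E, IsIntegral (Algebra.adjoin (ResidueField A) {tb}) z →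
      ∃ (y : Bt A (t4K K M h4))
        (hy : (y : laurentBaseChange K (modularFunctionFieldFull M)) ∈ O'),
        resE E hrange ⟨aeval (t4K K M h4) (c4 A),
          aeval_mem_O (t4K K M h4) O' hcd.good.algebraMap_mem hcd.good.tau_mem (c4 A)⟩ ^ k * z
          = resE E hrange ⟨(y : laurentBaseChange K (modularFunctionFieldFull M)), hy⟩) ∧
    (∀ (𝔫 : Ideal (Bt A (t4K K M h4))) [𝔫.IsMaximal], polyToBt (t4K K M h4) (C π) ∈ 𝔫 →
      polyToBt (t4K K M h4) (c4 A) ∉ 𝔫 →
      ∃ T : A[X], polyToBt (t4K K M h4) T ∈ 𝔫 ∧ ∀ x ∈ 𝔫, ∃ s, s ∉ 𝔫 ∧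
        s * x ∈ Ideal.span {polyToBt (t4K K M h4) (C π), polyToBt (t4K K M h4) T}) := by
  haveI : CharZero K := algebraRat.charZero K
  haveI := hcd.finite
  refine chart_package_gauss E hG hrange hcd tb ?_ hdeg (c4 A)
    (fun x hx => h2_level4 M h4 hcd.good.irreducible hcd.transc_field x hx)
  rw [htb]
  exact map_t4C_of_isGaussRed hG (t4C_mem_laurentBaseChange K M h4)

/-- **Block A at level `9 ∣ M`** (`F = F_{M,K}`, `t = t₉`, `c = X (X² + 9 X + 27)`). -/
theorem chart_package_level9 (h9 : 9 ∣ M)
    {O' : ValuationSubring (laurentBaseChange K (modularFunctionFieldFull M))}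
    {ρ : O' →+* LaurentSeries (ResidueField A)}
    (hG : IsGaussRed A (residue A) (laurentBaseChange K (modularFunctionFieldFull M)) O' ρ)
    (E : IntermediateField (ResidueField A) (LaurentSeries (ResidueField A)))
    (hrange : Set.range ρ = (E : Set (LaurentSeries (ResidueField A))))
    {π : A} (hcd : CoordData A π O' (t9K K M h9))
    (tb : E) (htb : (tb : LaurentSeries (ResidueField A)) = Haupt9.t9C (ResidueField A))
    (hdeg : Module.finrank K⟮t9K K M h9⟯ (laurentBaseChange K (modularFunctionFieldFull M)) =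
      Module.finrank (ResidueField A)⟮tb⟯ E)
    [Algebra.IsSeparable (ResidueField A)⟮tb⟯ E] :
    IsNoetherianRing (Bt A (t9K K M h9)) ∧
    (∀ b : Bt A (t9K K M h9), (b : laurentBaseChange K (modularFunctionFieldFull M)) ∈ O') ∧
    (∀ b : Bt A (t9K K M h9),
      O'.valuation (b : laurentBaseChange K (modularFunctionFieldFull M)) < 1 →
      ∃ y : Bt A (t9K K M h9), b = polyToBt (t9K K M h9) (C π) * y) ∧
    (∃ k : ℕ, ∀ z : E, IsIntegral (Algebra.adjoin (ResidueField A) {tb}) z →
      ∃ (y : Bt A (t9K K M h9))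
        (hy : (y : laurentBaseChange K (modularFunctionFieldFull M)) ∈ O'),
        resE E hrange ⟨aeval (t9K K M h9) (c9 A),
          aeval_mem_O (t9K K M h9) O' hcd.good.algebraMap_mem hcd.good.tau_mem (c9 A)⟩ ^ k * z
          = resE E hrange ⟨(y : laurentBaseChange K (modularFunctionFieldFull M)), hy⟩) ∧
    (∀ (𝔫 : Ideal (Bt A (t9K K M h9))) [𝔫.IsMaximal], polyToBt (t9K K M h9) (C π) ∈ 𝔫 →
      polyToBt (t9K K M h9) (c9 A) ∉ 𝔫 →
      ∃ T : A[X], polyToBt (t9K K M h9) T ∈ 𝔫 ∧ ∀ x ∈ 𝔫, ∃ s, s ∉ 𝔫 ∧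
        s * x ∈ Ideal.span {polyToBt (t9K K M h9) (C π), polyToBt (t9K K M h9) T}) := by
  haveI : CharZero K := algebraRat.charZero K
  haveI := hcd.finite
  refine chart_package_gauss E hG hrange hcd tb ?_ hdeg (c9 A)
    (fun x hx => h2_level9 M h9 hcd.good.irreducible hcd.transc_field x hx)
  rw [htb]
  exact Level9Final.map_t9C_of_isGaussRed hG (Level9Final.t9C_mem_laurentBaseChange K M h9)

end Levels

end Fermat.Agent.S18.Purity.ChartInst
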