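import Mathlib

/-!
# S18, block A (purity): the abstract core

`P → B` a finite injective extension of domains, `ℓ ∈ P` with `P/ℓ = Pb` a PID and `B/ℓB = Bb` a
domain whose fraction field is separable of the same degree `n` as `Frac B / Frac P`.  If `B[1/ℓ]`
is self-dual for the trace form (the generic fibre is unramified), then `Bb` is free over `Pb` with
an integral basis of UNIT discriminant, and this basis lifts to a basis of `B[1/f]` over `P[1/f]`
for some `f ≡ 1 mod ℓ`, again with unit discriminant.

No regular rings of dimension two, no "reflexive implies free": only Nakayama, Cramer and the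
cancellation of a power of the prime element `ℓ`.
-/

set_option autoImplicit false

namespace Fermat.Agent.S18.Purity.Core

open Module

section Reduction

variable {P B Pb Bb : Type*} [CommRing P] [CommRing B] [Algebra P B]
  [CommRing Pb] [CommRing Bb] [Algebra Pb Bb]
  (πP : P →+* Pb) (πB : B →+* Bb)

/-- compatibility of the two reduction maps with scalar multiplication. -/
theorem πB_smul (hcomm : ∀ p : P, πB (algebraMap P B p) = algebraMap Pb Bb (πP p))
    (p : P) (x : B) : πB (p • x) = πP p • πB x := by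
  rw [Algebra.smul_def, map_mul, hcomm, Algebra.smul_def]

/-- the special fibre is a finite module. -/
theorem finite_special [Module.Finite P B]
    (hπB : Function.Surjective πB)
    (hcomm : ∀ p : P, πB (algebraMap P B p) = algebraMap Pb Bb (πP p)) :
    Module.Finite Pb Bb := by
  classical
  obtain ⟨s, hs⟩ := (Module.finite_def (R := P) (M := B)).mp inferInstance
  refine ⟨⟨s.image πB, ?_⟩⟩
  rw [eq_top_iff]
  rintro y -
  obtain ⟨x, rfl⟩ := hπB y
  have hx : x ∈ Submodule.span P (s : Set B) := by rw [hs]; trivial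
  induction hx using Submodule.span_induction with
  | mem x hx =>
    exact Submodule.subset_span (by simpa using ⟨x, hx, rfl⟩)
  | zero => simp
  | add x y _ _ hx hy => rw [map_add]; exact Submodule.add_mem _ hx hy
  | smul a x _ hx =>
    rw [πB_smul πP πB hcomm]
    exact Submodule.smul_mem _ _ hx

/-- every element of `B` is congruent mod `ℓ B` to a `P`-combination of lifts of a basis. -/
theorem exists_sub_mem {n : ℕ} (ℓ : P)
    (hπP : Function.Surjective πP)
    (hkerB : RingHom.ker πB = Ideal.span {algebraMap P B ℓ})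
    (hcomm : ∀ p : P, πB (algebraMap P B p) = algebraMap Pb Bb (πP p))
    (bb : Basis (Fin n) Pb Bb) (b : Fin n → B) (hb : ∀ i, πB (b i) = bb i) (x : B) :
    ∃ (p : Fin n → P) (y : B), x = ∑ i, p i • b i + ℓ • y := by
  choose lift hlift using hπP
  refine ⟨fun i => lift (bb.repr (πB x) i), ?_⟩
  have hmem : x - ∑ i, lift (bb.repr (πB x) i) • b i ∈ RingHom.ker πB := by
    rw [RingHom.mem_ker, map_sub, map_sum]
    simp_rw [πB_smul πP πB hcomm, hlift, hb]
    rw [bb.sum_repr, sub_self]
  rw [hkerB, Ideal.mem_span_singleton'] at hmem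
  obtain ⟨y, hy⟩ := hmem
  refine ⟨y, ?_⟩
  rw [Algebra.smul_def, mul_comm, hy]
  ring

/-- Nakayama: some `f ≡ 1 mod ℓ` multiplies `B` into the span of the lifted basis. -/
theorem exists_f {n : ℕ} [Module.Finite P B] (ℓ : P)
    (hπP : Function.Surjective πP)
    (hkerB : RingHom.ker πB = Ideal.span {algebraMap P B ℓ})
    (hcomm : ∀ p : P, πB (algebraMap P B p) = algebraMap Pb Bb (πP p))
    (bb : Basis (Fin n) Pb Bb) (b : Fin n → B) (hb : ∀ i, πB (b i) = bb i) :
    ∃ f : P, f - 1 ∈ Ideal.span {ℓ} ∧ ∀ x : B, f • x ∈ Submodule.span P (Set.range b) := by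
  have hfg : (⊤ : Submodule P B).FG := Module.finite_def.mp inferInstance
  have hle : (⊤ : Submodule P B) ≤
      Submodule.span P (Set.range b) ⊔ (Ideal.span {ℓ} : Ideal P) • (⊤ : Submodule P B) := by
    rintro x -
    obtain ⟨p, y, rfl⟩ := exists_sub_mem πP πB ℓ hπP hkerB hcomm bb b hb x
    refine Submodule.add_mem_sup ?_ ?_
    · exact Submodule.sum_mem _ fun i _ =>
        Submodule.smul_mem _ _ (Submodule.subset_span ⟨i, rfl⟩)
    · exact Submodule.smul_mem_smul (Ideal.subset_span rfl) trivial
  obtain ⟨r, hr1, hr2⟩ :=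
    Submodule.exists_sub_one_mem_and_smul_le_of_fg_of_le_sup hfg le_rfl hle
  refine ⟨r, hr1, fun x => hr2 ?_⟩
  exact Submodule.smul_mem_pointwise_smul x r ⊤ trivial

end Reduction

section SpecialBasis

variable {Pb Bb : Type*} [CommRing Pb] [CommRing Bb] [Algebra Pb Bb]

/-- the special fibre is free of rank `n` with a basis of nonzero discriminant. -/
theorem exists_basis_special [IsDomain Pb] [IsPrincipalIdealRing Pb] [IsDomain Bb]
    [Module.Finite Pb Bb] (hinjb : Function.Injective (algebraMap Pb Bb))
    (n : ℕ) (Kb Fb : Type*) [Field Kb] [Field Fb] [Algebra Pb Kb] [IsFractionRing Pb Kb]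
    [Algebra Bb Fb] [IsFractionRing Bb Fb] [Algebra Kb Fb] [Algebra Pb Fb]
    [IsScalarTower Pb Kb Fb] [IsScalarTower Pb Bb Fb]
    (hnb : Module.finrank Kb Fb = n) [Algebra.IsSeparable Kb Fb] :
    ∃ bb : Basis (Fin n) Pb Bb, Algebra.discr Pb bb ≠ 0 := by
  classical
  have : FaithfulSMul Pb Bb := (faithfulSMul_iff_algebraMap_injective Pb Bb).mpr hinjb
  have : Module.IsTorsionFree Pb Bb := inferInstance
  have : Module.Free Pb Bb := Module.free_of_finite_type_torsion_free'
  have : Algebra.IsAlgebraic Pb Bb := inferInstance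
  let ι := Module.Free.ChooseBasisIndex Pb Bb
  let b₀ : Basis ι Pb Bb := Module.Free.chooseBasis Pb Bb
  let bK : Basis ι Kb Fb := b₀.localizationLocalization Kb (nonZeroDivisors Pb) Fb
  have hcard : Fintype.card ι = n := by
    rw [← hnb, Module.finrank_eq_card_basis bK]
  let e : ι ≃ Fin n := Fintype.equivFinOfCardEq hcard
  refine ⟨b₀.reindex e, ?_⟩
  have hfin : Module.Finite Kb Fb := Module.Finite.of_basis bK
  have h1 := Algebra.discr_not_zero_of_basis Kb bK
  rw [Algebra.discr_localizationLocalization] at h1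
  have h2 : Algebra.discr Pb (b₀.reindex e) = Algebra.discr Pb b₀ := by
    rw [Basis.coe_reindex]
    exact Algebra.discr_reindex Pb b₀ e
  rw [h2]
  intro h
  exact h1 (by rw [h, map_zero])

end SpecialBasis

section Generic

variable {P B : Type*} [CommRing P] [CommRing B] [Algebra P B]
  (K F : Type*) [Field K] [Field F] [Algebra P K] [Algebra B F]
  [Algebra K F] [Algebra P F] [IsScalarTower P K F] [IsScalarTower P B F]

/-- transport a `P`-linear relation in `B` to `F`. -/
theorem sum_smul_eq {n : ℕ} (b : Fin n → B) (bK : Basis (Fin n) K F)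
    (hbK : ∀ i, bK i = algebraMap B F (b i)) (f : P) (y : B) (c : Fin n → P)
    (hc : ∑ i, c i • b i = f • y) :
    ∑ i, algebraMap P K (c i) • bK i = algebraMap P K f • algebraMap B F y := by
  have h2 := congrArg (algebraMap B F) hc
  rw [map_sum] at h2
  simp_rw [Algebra.smul_def, map_mul, ← IsScalarTower.algebraMap_apply P B F] at h2
  rw [Algebra.smul_def, ← IsScalarTower.algebraMap_apply P K F, ← h2]
  refine Finset.sum_congr rfl fun i _ => ?_
  rw [Algebra.smul_def, ← IsScalarTower.algebraMap_apply P K F, hbK]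

/-- if `f B ⊆ span_P b` with `f ≠ 0` then the images of `b` span `F` over `K`. -/
theorem span_eq_top [IsDomain P] [IsDomain B] [Module.Finite P B] [IsFractionRing P K]
    [IsFractionRing B F]
    (hinj : Function.Injective (algebraMap P B)) {n : ℕ} (b : Fin n → B)
    (f : P) (hf0 : f ≠ 0) (hf : ∀ x : B, f • x ∈ Submodule.span P (Set.range b)) :
    Submodule.span K (Set.range fun i => algebraMap B F (b i)) = ⊤ := by
  classical
  have : FaithfulSMul P B := (faithfulSMul_iff_algebraMap_injective P B).mpr hinj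
  have : Algebra.IsAlgebraic P B := inferInstance
  have : IsLocalization (Algebra.algebraMapSubmonoid B (nonZeroDivisors P)) F := inferInstance
  rw [eq_top_iff]
  rintro x -
  obtain ⟨⟨y, ⟨_, s, hs, rfl⟩⟩, hxy⟩ :=
    IsLocalization.surj (Algebra.algebraMapSubmonoid B (nonZeroDivisors P)) x
  simp only at hxy
  have hs0 : s ≠ 0 := nonZeroDivisors.ne_zero hs
  -- `f • y` is in the `P`-span
  have h1 : algebraMap P F f * algebraMap B F y ∈
      Submodule.span K (Set.range fun i => algebraMap B F (b i)) := by
    have h := hf y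
    rw [Submodule.mem_span_range_iff_exists_fun] at h
    obtain ⟨c, hc⟩ := h
    have : algebraMap P F f * algebraMap B F y =
        ∑ i, algebraMap P K (c i) • algebraMap B F (b i) := by
      have h2 := congrArg (algebraMap B F) hc
      rw [map_sum] at h2
      simp_rw [Algebra.smul_def, map_mul, ← IsScalarTower.algebraMap_apply P B F] at h2
      rw [← h2]
      refine Finset.sum_congr rfl fun i _ => ?_
      rw [Algebra.smul_def, ← IsScalarTower.algebraMap_apply P K F]
    rw [this]
    exact Submodule.sum_mem _ fun i _ => Submodule.smul_mem _ _ (Submodule.subset_span ⟨i, rfl⟩)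
  have hfF : algebraMap P F f ≠ 0 := by
    rw [IsScalarTower.algebraMap_apply P K F]
    exact (map_ne_zero_iff _ (algebraMap K F).injective).mpr
      ((map_ne_zero_iff _ (IsFractionRing.injective P K)).mpr hf0)
  have hsF : algebraMap P F s ≠ 0 := by
    rw [IsScalarTower.algebraMap_apply P K F]
    exact (map_ne_zero_iff _ (algebraMap K F).injective).mpr
      ((map_ne_zero_iff _ (IsFractionRing.injective P K)).mpr hs0)
  have hx : x = ((algebraMap P K s)⁻¹ * (algebraMap P K f)⁻¹) •
      (algebraMap P F f * algebraMap B F y) := by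
    rw [← hxy, ← IsScalarTower.algebraMap_apply P B F, Algebra.smul_def, map_mul, map_inv₀,
      map_inv₀, ← IsScalarTower.algebraMap_apply P K F, ← IsScalarTower.algebraMap_apply P K F]
    field_simp
  rw [hx]
  exact Submodule.smul_mem _ _ h1

/-- the char-0 self-duality gives, for each `i`, a row `q` with `q * g = ℓ^m f^3 e_i`. -/
theorem dual_step {n : ℕ} (hφ : Function.Injective (algebraMap P K))
    (b : Fin n → B) (bK : Basis (Fin n) K F)
    (hbK : ∀ i, bK i = algebraMap B F (b i)) (hd : Algebra.discr K bK ≠ 0)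
    (ℓ f : P) (hf : ∀ x : B, f • x ∈ Submodule.span P (Set.range b))
    (g : Fin n → Fin n → P)
    (hg : ∀ j k, algebraMap P K f * Algebra.trace K F (bK j * bK k) = algebraMap P K (g j k))
    (h0 : ∀ x : F, (∀ y : B, ∃ (m : ℕ) (p : P),
        algebraMap P K ℓ ^ m * Algebra.trace K F (x * algebraMap B F y) = algebraMap P K p) →
      ∃ (m : ℕ) (y : B), algebraMap P K ℓ ^ m • x = algebraMap B F y) (i : Fin n) :
    ∃ (m : ℕ) (q : Fin n → P), ∀ k, ∑ j, q j * g j k = if k = i then ℓ ^ m * f ^ 3 else 0 := by
  classical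
  have hfin : Module.Finite K F := Module.Finite.of_basis bK
  have hnd : (Algebra.traceForm K F).Nondegenerate := by
    rw [LinearMap.BilinForm.nondegenerate_iff_det_ne_zero bK, ← Algebra.traceMatrix_of_basis,
      ← Algebra.discr_def]
    exact hd
  let d := (Algebra.traceForm K F).dualBasis hnd bK
  have hdual : ∀ j, Algebra.trace K F (d i * bK j) = if j = i then 1 else 0 := fun j => by
    have := LinearMap.BilinForm.apply_dualBasis_left hnd bK i j
    rwa [Algebra.traceForm_apply] at this
  obtain ⟨m, z, hz⟩ := h0 (algebraMap P K f • d i) (by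
    intro y
    obtain ⟨c, hc⟩ := (Submodule.mem_span_range_iff_exists_fun P).mp (hf y)
    refine ⟨0, c i, ?_⟩
    have h1 := sum_smul_eq K F b bK hbK f y c hc
    rw [pow_zero, one_mul, smul_mul_assoc, ← mul_smul_comm, ← h1, Finset.mul_sum, map_sum]
    simp_rw [mul_smul_comm, map_smul, hdual, smul_eq_mul, mul_ite, mul_one, mul_zero]
    rw [Finset.sum_ite_eq' Finset.univ i]
    simp)
  obtain ⟨q, hq⟩ := (Submodule.mem_span_range_iff_exists_fun P).mp (hf z)
  refine ⟨m, q, fun k => hφ ?_⟩
  have h1 := sum_smul_eq K F b bK hbK f z q hq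
  -- pair with `bK k`
  have h2 : Algebra.trace K F ((∑ j, algebraMap P K (q j) • bK j) * bK k) =
      ∑ j, algebraMap P K (q j) * Algebra.trace K F (bK j * bK k) := by
    rw [Finset.sum_mul, map_sum]
    refine Finset.sum_congr rfl fun j _ => ?_
    rw [smul_mul_assoc, map_smul, smul_eq_mul]
  have h3 : Algebra.trace K F ((algebraMap P K f • algebraMap B F z) * bK k) =
      algebraMap P K f * (algebraMap P K ℓ ^ m * (algebraMap P K f *
        (if k = i then 1 else 0))) := by
    rw [← hz, smul_mul_assoc, map_smul, smul_eq_mul, smul_mul_assoc, map_smul, smul_eq_mul,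
      smul_mul_assoc, map_smul, smul_eq_mul, hdual]
  rw [h1, h3] at h2
  -- multiply by `f`
  have h4 : algebraMap P K (∑ j, q j * g j k) =
      algebraMap P K f * ∑ j, algebraMap P K (q j) * Algebra.trace K F (bK j * bK k) := by
    rw [map_sum, Finset.mul_sum]
    refine Finset.sum_congr rfl fun j _ => ?_
    rw [map_mul, ← hg]
    ring
  rw [h4, ← h2]
  split_ifs
  · simp only [mul_one, map_mul, map_pow]; ring
  · simp

end Generic

section Both

variable {P B Pb Bb : Type*} [CommRing P] [CommRing B] [Algebra P B]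
  [CommRing Pb] [CommRing Bb] [Algebra Pb Bb]
  (πP : P →+* Pb) (πB : B →+* Bb)
  (K F : Type*) [Field K] [Field F] [Algebra P K] [Algebra B F]
  [Algebra K F] [Algebra P F] [IsScalarTower P K F] [IsScalarTower P B F]

/-- traces of elements of `B` have denominator `f` and reduce to traces on the special fibre. -/
theorem trace_lift {n : ℕ}
    (hcomm : ∀ p : P, πB (algebraMap P B p) = algebraMap Pb Bb (πP p))
    (bb : Basis (Fin n) Pb Bb) (b : Fin n → B) (hb : ∀ i, πB (b i) = bb i)
    (bK : Basis (Fin n) K F) (hbK : ∀ i, bK i = algebraMap B F (b i))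
    (f : P) (hf1 : πP f = 1) (hf : ∀ x : B, f • x ∈ Submodule.span P (Set.range b)) (x : B) :
    ∃ t : P, algebraMap P K f * Algebra.trace K F (algebraMap B F x) = algebraMap P K t ∧
      πP t = Algebra.trace Pb Bb (πB x) := by
  classical
  have h := fun j => (Submodule.mem_span_range_iff_exists_fun P).mp (hf (x * b j))
  choose a ha using h
  refine ⟨∑ j, a j j, ?_, ?_⟩
  · rw [Algebra.trace_eq_matrix_trace bK, Matrix.trace, Finset.mul_sum, map_sum]
    refine Finset.sum_congr rfl fun j _ => ?_
    rw [Matrix.diag_apply, Algebra.leftMulMatrix_eq_repr_mul]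
    have h1 : algebraMap P K f • (algebraMap B F x * bK j) =
        ∑ i, algebraMap P K (a j i) • bK i := by
      have h2 := congrArg (algebraMap B F) (ha j)
      rw [map_sum] at h2
      simp_rw [Algebra.smul_def, map_mul, ← IsScalarTower.algebraMap_apply P B F] at h2
      rw [Algebra.smul_def, ← IsScalarTower.algebraMap_apply P K F, hbK, ← h2]
      refine Finset.sum_congr rfl fun i _ => ?_
      rw [Algebra.smul_def, ← IsScalarTower.algebraMap_apply P K F, hbK]
    have h3 := congrArg (fun v => bK.repr v j) h1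
    simp only [map_smul, Finsupp.smul_apply, smul_eq_mul] at h3
    rw [h3, Basis.repr_sum_self]
  · rw [Algebra.trace_eq_matrix_trace bb, Matrix.trace, map_sum]
    refine Finset.sum_congr rfl fun j _ => ?_
    rw [Matrix.diag_apply, Algebra.leftMulMatrix_eq_repr_mul]
    have h1 : πB x * bb j = ∑ i, πP (a j i) • bb i := by
      have h2 := congrArg πB (ha j)
      rw [map_sum, πB_smul πP πB hcomm, hf1, one_smul, map_mul, hb] at h2
      rw [← h2]
      refine Finset.sum_congr rfl fun i _ => ?_
      rw [πB_smul πP πB hcomm, hb]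
    rw [h1, Basis.repr_sum_self]

omit [Algebra P B] [Algebra P F] [IsScalarTower P K F] [IsScalarTower P B F] in
/-- the Gram matrix of the lifted basis, with denominators cleared, and its reduction. -/
theorem gram {n : ℕ} (bb : Basis (Fin n) Pb Bb) (b : Fin n → B) (hb : ∀ i, πB (b i) = bb i)
    (bK : Basis (Fin n) K F) (hbK : ∀ i, bK i = algebraMap B F (b i)) (f : P)
    (t : B → P)
    (ht1 : ∀ x, algebraMap P K f * Algebra.trace K F (algebraMap B F x) = algebraMap P K (t x))
    (ht2 : ∀ x, πP (t x) = Algebra.trace Pb Bb (πB x)) :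
    algebraMap P K f ^ n * Algebra.discr K bK =
        algebraMap P K (Matrix.det (Matrix.of fun i j => t (b i * b j))) ∧
      πP (Matrix.det (Matrix.of fun i j => t (b i * b j))) = Algebra.discr Pb bb := by
  classical
  constructor
  · have h1 : (algebraMap P K f) • Algebra.traceMatrix K bK =
        (Matrix.of fun i j => t (b i * b j)).map (algebraMap P K) := by
      ext i j
      rw [Matrix.smul_apply, Algebra.traceMatrix_apply, Algebra.traceForm_apply, smul_eq_mul,
        Matrix.map_apply, Matrix.of_apply, hbK, hbK, ← map_mul, ht1]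
    rw [Algebra.discr_def, RingHom.map_det, RingHom.mapMatrix_apply, ← h1, Matrix.det_smul,
      Fintype.card_fin]
  · rw [Algebra.discr_def, RingHom.map_det, RingHom.mapMatrix_apply]
    congr 1
    ext i j
    rw [Matrix.map_apply, Matrix.of_apply, ht2, Algebra.traceMatrix_apply,
      Algebra.traceForm_apply, map_mul, hb, hb]

end Both

section Cancel

variable {P : Type*} [CommRing P]

/-- cancelling powers of a prime element. -/
theorem exists_mul_eq_of_prime [IsDomain P] {ℓ : P} (hℓ : Prime ℓ) {D : P} (hD : ¬ ℓ ∣ D) :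
    ∀ (m : ℕ) (e c : P), D * e = ℓ ^ m * c → ∃ e' : P, D * e' = c := by
  intro m
  induction m with
  | zero => intro e c h; exact ⟨e, by simpa using h⟩
  | succ m ih =>
    intro e c h
    have h1 : ℓ ∣ D * e := ⟨ℓ ^ m * c, by rw [h]; ring⟩
    rcases hℓ.dvd_or_dvd h1 with h2 | ⟨e₁, rfl⟩
    · exact absurd h2 hD
    · refine ih e₁ c ?_
      have : ℓ * (D * e₁) = ℓ * (ℓ ^ m * c) := by
        calc ℓ * (D * e₁) = D * (ℓ * e₁) := by ring
          _ = ℓ ^ (m + 1) * c := h
          _ = ℓ * (ℓ ^ m * c) := by ring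
      exact mul_left_cancel₀ hℓ.ne_zero this

/-- a matrix with a left "quasi-inverse" with diagonal product. -/
theorem det_mul_eq_of_rows {n : ℕ} (Q G : Matrix (Fin n) (Fin n) P)
    (d : Fin n → P) (h : ∀ i k, ∑ j, Q i j * G j k = if k = i then d i else 0) :
    G.det * Q.det = ∏ i, d i := by
  have h1 : Q * G = Matrix.diagonal d := by
    ext i k
    rw [Matrix.mul_apply, h, Matrix.diagonal_apply]
    by_cases hik : i = k
    · subst hik; simp
    · rw [if_neg hik, if_neg (Ne.symm hik)]
  rw [mul_comm, ← Matrix.det_mul, h1, Matrix.det_diagonal]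

end Cancel

/-- **Purity, abstract core.**  See the module docstring. -/
theorem purity_core
    {P B Pb Bb : Type*} [CommRing P] [IsDomain P] [CommRing B] [IsDomain B] [Algebra P B]
    [Module.Finite P B]
    [CommRing Pb] [IsDomain Pb] [IsPrincipalIdealRing Pb] [CommRing Bb] [IsDomain Bb]
    [Algebra Pb Bb]
    (πP : P →+* Pb) (πB : B →+* Bb)
    (hinj : Function.Injective (algebraMap P B))
    (hinjb : Function.Injective (algebraMap Pb Bb))
    (ℓ : P) (hℓ0 : ℓ ≠ 0)
    (hπP : Function.Surjective πP) (hπB : Function.Surjective πB)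
    (hkerP : RingHom.ker πP = Ideal.span {ℓ})
    (hkerB : RingHom.ker πB = Ideal.span {algebraMap P B ℓ})
    (hcomm : ∀ p : P, πB (algebraMap P B p) = algebraMap Pb Bb (πP p))
    (n : ℕ)
    (K F : Type*) [Field K] [Field F] [Algebra P K] [IsFractionRing P K] [Algebra B F]
    [IsFractionRing B F] [Algebra K F] [Algebra P F] [IsScalarTower P K F] [IsScalarTower P B F]
    (hn : Module.finrank K F = n)
    (Kb Fb : Type*) [Field Kb] [Field Fb] [Algebra Pb Kb] [IsFractionRing Pb Kb]
    [Algebra Bb Fb] [IsFractionRing Bb Fb] [Algebra Kb Fb] [Algebra Pb Fb]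
    [IsScalarTower Pb Kb Fb] [IsScalarTower Pb Bb Fb]
    (hnb : Module.finrank Kb Fb = n) [Algebra.IsSeparable Kb Fb]
    (h0 : ∀ x : F, (∀ y : B, ∃ (m : ℕ) (p : P),
        algebraMap P K ℓ ^ m * Algebra.trace K F (x * algebraMap B F y) = algebraMap P K p) →
      ∃ (m : ℕ) (y : B), algebraMap P K ℓ ^ m • x = algebraMap B F y) :
    ∃ (f : P) (b : Fin n → B) (bb : Basis (Fin n) Pb Bb) (bK : Basis (Fin n) K F) (D e' : P),
      πP f = 1 ∧ (∀ x : B, f • x ∈ Submodule.span P (Set.range b)) ∧
      (∀ i, πB (b i) = bb i) ∧ (∀ i, bK i = algebraMap B F (b i)) ∧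
      algebraMap P K f ^ n * Algebra.discr K bK = algebraMap P K D ∧
      D * e' = f ^ (3 * n) ∧
      πP D = Algebra.discr Pb bb ∧
      IsUnit (Algebra.discr Pb bb) := by
  classical
  have : Module.Finite Pb Bb := finite_special πP πB hπB hcomm
  obtain ⟨bb, hbb⟩ := exists_basis_special hinjb n Kb Fb hnb
  choose liftB hliftB using hπB
  let b : Fin n → B := fun i => liftB (bb i)
  have hb : ∀ i, πB (b i) = bb i := fun i => hliftB _
  obtain ⟨f, hf1', hf⟩ := exists_f πP πB ℓ hπP hkerB hcomm bb b hb
  have hf1 : πP f = 1 := by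
    rw [← hkerP, RingHom.mem_ker, map_sub, map_one, sub_eq_zero] at hf1'
    exact hf1'
  have hf0 : f ≠ 0 := by
    rintro rfl
    rw [map_zero] at hf1
    exact zero_ne_one hf1
  have hspan := span_eq_top K F hinj b f hf0 hf
  have hnpos : NeZero n := by
    refine ⟨?_⟩
    rintro rfl
    -- a basis indexed by `Fin 0` forces `Bb` trivial
    have : (1 : Bb) = 0 := by
      have := bb.sum_repr 1
      simpa using this.symm
    exact one_ne_zero this
  have : FiniteDimensional K F := Module.finite_of_finrank_pos (by rw [hn]; exact Nat.pos_of_neZero n)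
  let bK : Basis (Fin n) K F :=
    basisOfTopLeSpanOfCardEqFinrank (fun i => algebraMap B F (b i)) hspan.ge
      (by rw [Fintype.card_fin, hn])
  have hbK : ∀ i, bK i = algebraMap B F (b i) := fun i => by
    simp [bK]
  have htl := trace_lift πP πB K F hcomm bb b hb bK hbK f hf1 hf
  choose t ht1 ht2 using htl
  obtain ⟨hg1, hg2⟩ := gram πP πB K F bb b hb bK hbK f t ht1 ht2
  set G : Matrix (Fin n) (Fin n) P := Matrix.of fun i j => t (b i * b j) with hG
  have hφ : Function.Injective (algebraMap P K) := IsFractionRing.injective P K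
  have hD0 : G.det ≠ 0 := by
    intro h
    rw [h, map_zero] at hg2
    exact hbb hg2.symm
  have hdK : Algebra.discr K bK ≠ 0 := by
    intro h
    rw [h, mul_zero] at hg1
    exact hD0 (hφ (by rw [← hg1, map_zero]))
  have hrows := dual_step K F hφ b bK hbK hdK ℓ f hf (fun j k => t (b j * b k))
    (fun j k => by rw [hbK, hbK, ← map_mul, ht1]) h0
  choose m q hq using hrows
  have hdet := det_mul_eq_of_rows (Matrix.of fun i j => q i j) G
    (fun i => ℓ ^ m i * f ^ 3) (fun i k => by
      simp only [Matrix.of_apply, hG]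
      exact hq i k)
  rw [Finset.prod_mul_distrib, Finset.prod_pow_eq_pow_sum, Finset.prod_const, Finset.card_univ,
    Fintype.card_fin, ← pow_mul] at hdet
  have hprime : Prime ℓ := by
    rw [← Ideal.span_singleton_prime hℓ0, ← hkerP]
    exact RingHom.ker_isPrime πP
  have hnd : ¬ ℓ ∣ G.det := by
    intro h
    have : G.det ∈ RingHom.ker πP := by
      rw [hkerP]
      exact Ideal.mem_span_singleton.mpr h
    rw [RingHom.mem_ker, hg2] at this
    exact hbb this
  obtain ⟨e', he'⟩ := exists_mul_eq_of_prime hprime hnd _ _ _ hdet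
  refine ⟨f, b, bb, bK, G.det, e', hf1, hf, hb, hbK, hg1, he', hg2, ?_⟩
  have h5 := congrArg πP he'
  rw [map_mul, map_pow, hf1, one_pow, hg2] at h5
  exact IsUnit.of_mul_eq_one _ h5

end Fermat.Agent.S18.Purity.Core
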