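/-
S18 (project G), block A (purity), leaf (A1) (helper7): **the dual of a finitely generated module
is free** over a Noetherian domain `S` with an element `π` of the Jacobson radical such that
`S ⧸ (π)` is a principal ideal domain (e.g. a two-dimensional regular local ring `(S, (π, u))`).
Consequently reflexive finitely generated modules over such rings are free.

Mathlib only.
-/
import Mathlib

set_option autoImplicit false

namespace Fermat.Agent.S18.Purity.DualFree

open Pointwise

variable {S : Type*} [CommRing S] (π : S)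
variable (N : Type*) [AddCommGroup N] [Module S N]

/-- reduction of functionals modulo `π` -/
noncomputable def redMap : (N →ₗ[S] S) →ₗ[S] (N →ₗ[S] (S ⧸ Ideal.span {π})) :=
  LinearMap.compRight S (Submodule.mkQ (Ideal.span {π}))

theorem redMap_apply (φ : N →ₗ[S] S) (n : N) :
    redMap π N φ n = Submodule.mkQ (Ideal.span {π}) (φ n) := rfl

variable [IsDomain S]

/-- a functional with values in `(π)` is `π` times a functional -/
theorem exists_eq_smul_of_forall_mem (hπ : π ≠ 0) (φ : N →ₗ[S] S)
    (h : ∀ n, φ n ∈ Ideal.span {π}) : ∃ ψ : N →ₗ[S] S, φ = π • ψ := by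
  let μ : S →ₗ[S] S := LinearMap.mulLeft S π
  have hμinj : Function.Injective μ := fun a b hab => mul_left_cancel₀ hπ hab
  have hrange : ∀ n, φ n ∈ LinearMap.range μ := by
    intro n
    obtain ⟨c, hc⟩ := Ideal.mem_span_singleton'.mp (h n)
    exact ⟨c, by simp [μ, ← hc, mul_comm]⟩
  let e := LinearEquiv.ofInjective μ hμinj
  refine ⟨e.symm.toLinearMap.comp (LinearMap.codRestrict (LinearMap.range μ) φ hrange), ?_⟩
  ext n
  have h1 : μ (e.symm ⟨φ n, hrange n⟩) = φ n := by
    have := LinearEquiv.apply_symm_apply e ⟨φ n, hrange n⟩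
    exact congrArg Subtype.val this
  simp only [LinearMap.smul_apply, LinearMap.comp_apply, LinearEquiv.coe_coe, smul_eq_mul]
  exact h1.symm

theorem ker_redMap (hπ : π ≠ 0) :
    LinearMap.ker (redMap π N) = π • (⊤ : Submodule S (N →ₗ[S] S)) := by
  ext φ
  rw [LinearMap.mem_ker, Submodule.mem_smul_pointwise_iff_exists]
  constructor
  · intro h
    have h' : ∀ n, φ n ∈ Ideal.span {π} := by
      intro n
      have := congrArg (fun f : N →ₗ[S] (S ⧸ Ideal.span {π}) => f n) h
      rw [← Ideal.Quotient.eq_zero_iff_mem]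
      simpa [redMap_apply] using this
    obtain ⟨ψ, hψ⟩ := exists_eq_smul_of_forall_mem π N hπ φ h'
    exact ⟨ψ, Submodule.mem_top, hψ.symm⟩
  · rintro ⟨ψ, -, rfl⟩
    ext n
    simp only [redMap_apply, LinearMap.smul_apply, smul_eq_mul, LinearMap.zero_apply]
    simp only [Submodule.mkQ_apply, Submodule.Quotient.mk_eq_zero]
    exact Ideal.mul_mem_right _ _ (Ideal.subset_span rfl)

variable [IsNoetherianRing S] [Module.Finite S N]

/-- **The dual of a finitely generated module is free** when `π` lies in the Jacobson radical and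
`S ⧸ (π)` is a principal ideal domain. -/
theorem free_dual (hmem : π ∈ (⊥ : Ideal S).jacobson)
    [IsDomain (S ⧸ Ideal.span {π})] [IsPrincipalIdealRing (S ⧸ Ideal.span {π})] :
    Module.Free S (N →ₗ[S] S) := by
  by_cases hπ : π = 0
  · -- then `S ≃ S ⧸ (0)` is a principal ideal domain itself
    subst hπ
    have hbot : Ideal.span {(0 : S)} = ⊥ := by simp
    have e : (S ⧸ Ideal.span {(0 : S)}) ≃+* S :=
      (Ideal.quotEquivOfEq hbot).trans (RingEquiv.quotientBot S)
    have : IsPrincipalIdealRing S := IsPrincipalIdealRing.of_surjective e.toRingHom e.surjective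
    infer_instance
  have hfin : Module.Finite S (N →ₗ[S] S) := inferInstance
  have hfp : Module.FinitePresentation S (N →ₗ[S] S) := Module.finitePresentation_of_finite S _
  have hreg : IsSMulRegular (N →ₗ[S] S) π := IsSMulRegular.of_ne_zero hπ
  rw [← Module.free_quotSMulTop_iff_free S (N →ₗ[S] S) hmem hreg]
  -- the quotient embeds into `Hom(N, S ⧸ π)`
  let ι : QuotSMulTop π (N →ₗ[S] S) →ₗ[S] (N →ₗ[S] (S ⧸ Ideal.span {π})) :=
    Submodule.liftQ _ (redMap π N) (ker_redMap π N hπ).ge
  have hιinj : Function.Injective ι := by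
    rw [← LinearMap.ker_eq_bot, Submodule.ker_liftQ, ker_redMap π N hπ]
    exact Submodule.mkQ_map_self _
  have hsmul : ∀ (r : S ⧸ Ideal.span {π}) (x : QuotSMulTop π (N →ₗ[S] S)),
      ι (r • x) = r • ι x := by
    intro r x
    obtain ⟨r, rfl⟩ := Ideal.Quotient.mk_surjective r
    have h1 : (Ideal.Quotient.mk (Ideal.span {π}) r) • x = r • x := by
      rw [← Ideal.Quotient.algebraMap_eq, algebraMap_smul]
    have h2 : (Ideal.Quotient.mk (Ideal.span {π}) r) • ι x = r • ι x := by
      rw [← Ideal.Quotient.algebraMap_eq, algebraMap_smul]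
    rw [h1, h2, map_smul]
  have htf : Module.IsTorsionFree (S ⧸ Ideal.span {π}) (QuotSMulTop π (N →ₗ[S] S)) :=
    Function.Injective.moduleIsTorsionFree ι hιinj hsmul
  have hfin' : Module.Finite (S ⧸ Ideal.span {π}) (QuotSMulTop π (N →ₗ[S] S)) :=
    Module.Finite.of_restrictScalars_finite S _ _
  infer_instance

/-- A module isomorphic to the dual of a finitely generated module is free
(in particular: reflexive finitely generated modules are free). -/
theorem free_of_linearEquiv_dual (hmem : π ∈ (⊥ : Ideal S).jacobson)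
    [IsDomain (S ⧸ Ideal.span {π})] [IsPrincipalIdealRing (S ⧸ Ideal.span {π})]
    {M : Type*} [AddCommGroup M] [Module S M] (e : M ≃ₗ[S] (N →ₗ[S] S)) : Module.Free S M := by
  have := free_dual π N hmem
  exact Module.Free.of_equiv e.symm

/-- Reflexive finitely generated modules are free. -/
theorem free_of_reflexive (hmem : π ∈ (⊥ : Ideal S).jacobson)
    [IsDomain (S ⧸ Ideal.span {π})] [IsPrincipalIdealRing (S ⧸ Ideal.span {π})]
    (hrefl : Function.Bijective (Module.Dual.eval S N)) : Module.Free S N := by
  have hfin : Module.Finite S (Module.Dual S N) := inferInstanceAs (Module.Finite S (N →ₗ[S] S))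
  exact free_of_linearEquiv_dual π (Module.Dual S N) hmem
    (LinearEquiv.ofBijective (Module.Dual.eval S N) hrefl)

end Fermat.Agent.S18.Purity.DualFree
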