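import Mathlib

/-!
# S18 leaf (A7): `R[X]` has fraction field `L⟮t⟯` for `t` transcendental over `L = Frac R`;
kernel of the reduction `R[X] → κ[X]`.
-/

set_option autoImplicit false
set_option linter.unusedSectionVars false

open Polynomial IntermediateField

namespace Fermat.Agent.S18.Purity.FracPoly

section Frac

variable {R : Type*} (L : Type*) {F : Type*} [CommRing R] [IsDomain R] [Field L] [Algebra R L]
  [IsFractionRing R L] [Field F] [Algebra L F] [Algebra R F] [IsScalarTower R L F]

theorem aeval_eq_aeval_map (t : F) (p : R[X]) :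
    aeval t p = aeval t (p.map (algebraMap R L)) := by
  rw [aeval_map_algebraMap]

theorem aeval_mem_adjoin (t : F) (p : R[X]) : aeval t p ∈ L⟮t⟯ := by
  rw [aeval_eq_aeval_map L]
  exact (IntermediateField.mem_adjoin_simple_iff L _).mpr ⟨p.map (algebraMap R L), 1, by simp⟩

variable {L}

theorem aeval_injective_of_transcendental {t : F} (ht : Transcendental L t) :
    Function.Injective (aeval (R := R) t) := by
  intro p q h
  have h' : aeval t (p.map (algebraMap R L)) = aeval t (q.map (algebraMap R L)) :=
    (aeval_eq_aeval_map L t p).symm.trans (h.trans (aeval_eq_aeval_map L t q))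
  have h1 := transcendental_iff_injective.mp ht h'
  exact Polynomial.map_injective _ (IsFractionRing.injective R L) h1

theorem aeval_integerNormalization (t : F) (r : L[X]) :
    ∃ b : R, b ≠ 0 ∧ aeval t (IsLocalization.integerNormalization (nonZeroDivisors R) r) =
      algebraMap R F b * aeval t r := by
  obtain ⟨b, hb, hr⟩ := IsLocalization.integerNormalization_spec (nonZeroDivisors R) r
  refine ⟨b, nonZeroDivisors.ne_zero hb, ?_⟩
  have hsm : b • r = C (algebraMap R L b) * r := by
    rw [Algebra.smul_def, IsScalarTower.algebraMap_apply R L L[X], Polynomial.algebraMap_apply,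
      Algebra.algebraMap_self_apply]
  rw [aeval_eq_aeval_map L, hr, hsm, map_mul, aeval_C, ← IsScalarTower.algebraMap_apply]

/-- **`R[X]` has fraction field `L⟮t⟯`** for any algebra structure compatible with `aeval t`. -/
theorem isFractionRing_adjoin {t : F} (ht : Transcendental L t) [Algebra R[X] L⟮t⟯]
    (hcompat : ∀ p : R[X], ((algebraMap R[X] L⟮t⟯ p : L⟮t⟯) : F) = aeval t p) :
    IsFractionRing R[X] L⟮t⟯ := by
  have hinj : Function.Injective (algebraMap R[X] L⟮t⟯) := by
    intro p q h
    apply aeval_injective_of_transcendental (R := R) ht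
    rw [← hcompat, ← hcompat, h]
  have : FaithfulSMul R[X] L⟮t⟯ := (faithfulSMul_iff_algebraMap_injective _ _).mpr hinj
  apply IsFractionRing.of_field
  intro z
  obtain ⟨r, s, hz⟩ := (IntermediateField.mem_adjoin_simple_iff L (z : F)).mp z.2
  obtain ⟨br, hbr0, hr'⟩ := aeval_integerNormalization (R := R) t r
  obtain ⟨bs, hbs0, hs'⟩ := aeval_integerNormalization (R := R) t s
  have hRF : Function.Injective (algebraMap R F) := by
    rw [IsScalarTower.algebraMap_eq R L F]
    exact (algebraMap L F).injective.comp (IsFractionRing.injective R L)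
  have hbr : algebraMap R F br ≠ 0 := (map_ne_zero_iff _ hRF).mpr hbr0
  have hbs : algebraMap R F bs ≠ 0 := (map_ne_zero_iff _ hRF).mpr hbs0
  refine ⟨C bs * IsLocalization.integerNormalization (nonZeroDivisors R) r,
    C br * IsLocalization.integerNormalization (nonZeroDivisors R) s, ?_⟩
  apply Subtype.ext
  have e1 := hcompat (C bs * IsLocalization.integerNormalization (nonZeroDivisors R) r)
  have e2 := hcompat (C br * IsLocalization.integerNormalization (nonZeroDivisors R) s)
  rw [IntermediateField.coe_div, e1, e2, hz, map_mul, map_mul, aeval_C, aeval_C, hr', hs']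
  by_cases hs0 : aeval t s = 0
  · simp [hs0]
  field_simp


variable (L)

/-- the canonical `R[X]`-algebra structure on `L⟮t⟯` (`X ↦ t`); use with `letI`. -/
@[reducible] noncomputable def algAdjoin (t : F) : Algebra R[X] L⟮t⟯ :=
  ((aeval (R := R) t).toRingHom.codRestrict L⟮t⟯.toSubring (aeval_mem_adjoin L t)).toAlgebra

theorem algAdjoin_coe (t : F) (p : R[X]) :
    letI := algAdjoin (R := R) L t
    ((algebraMap R[X] L⟮t⟯ p : L⟮t⟯) : F) = aeval t p := rfl

theorem isFractionRing_algAdjoin {t : F} (ht : Transcendental L t) :
    letI := algAdjoin (R := R) L t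
    IsFractionRing R[X] L⟮t⟯ := by
  letI := algAdjoin (R := R) L t
  exact isFractionRing_adjoin ht (fun p => rfl)

/-- tower `R[X] → L⟮t⟯ → F` for the `aeval t` algebra structure on `F`. -/
theorem isScalarTower_algAdjoin (t : F) :
    letI := algAdjoin (R := R) L t
    letI : Algebra R[X] F := (aeval (R := R) t).toRingHom.toAlgebra
    IsScalarTower R[X] L⟮t⟯ F := by
  letI := algAdjoin (R := R) L t
  letI : Algebra R[X] F := (aeval (R := R) t).toRingHom.toAlgebra
  exact IsScalarTower.of_algebraMap_eq fun p => rfl

end Frac

section Reduction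

variable {R κ : Type*} [CommRing R] [CommRing κ]

theorem mapRingHom_surjective (ρ : R →+* κ) (hρ : Function.Surjective ρ) :
    Function.Surjective (mapRingHom ρ) :=
  Polynomial.map_surjective ρ hρ

/-- kernel of the coefficientwise reduction. -/
theorem ker_mapRingHom_eq_span (ρ : R →+* κ) (π : R) (hker : RingHom.ker ρ = Ideal.span {π}) :
    RingHom.ker (mapRingHom ρ) = Ideal.span {C π} := by
  rw [Polynomial.ker_mapRingHom, hker, Ideal.map_span, Set.image_singleton]

theorem ker_mapRingHom_quotient_mk (π : R) :
    RingHom.ker (mapRingHom (Ideal.Quotient.mk (Ideal.span {π}))) = Ideal.span {C π} :=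
  ker_mapRingHom_eq_span _ π Ideal.mk_ker

theorem mapRingHom_quotient_mk_surjective (π : R) :
    Function.Surjective (mapRingHom (Ideal.Quotient.mk (Ideal.span {π}))) :=
  mapRingHom_surjective _ Ideal.Quotient.mk_surjective

end Reduction

end Fermat.Agent.S18.Purity.FracPoly
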