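import Mathlib

/-
S18 leaf (A2), partial (helper29): localisation half of GlueGauss.
`P` noetherian domain, `l` prime element, `F ⊇ P` an algebraic field extension, `O` a valuation
subring of `F` which is the UNIQUE valuation subring containing `P`, the inverses of all `s ∉ (l)`
and not `l⁻¹`.  Then every `x ∈ O` has a multiple `s • x`, `l ∤ s`, integral over `P`
(`O = (integralClosure P F)` localised at `P \ (l)`).
Mathlib only.
-/

namespace Fermat.Agent.S18.Purity.GlueGaussLoc_helper29

open Polynomial

section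
variable {P F : Type*} [CommRing P] [Field F] [Algebra P F]

/-- A valuation subring containing the image of `P` contains every element integral over `P`. -/
theorem mem_of_isIntegral (W : ValuationSubring F) (h : ∀ a : P, algebraMap P F a ∈ W) {z : F}
    (hz : IsIntegral P z) : z ∈ W := by
  rw [← W.valuation_le_one_iff]
  obtain ⟨f, hm, hf⟩ := hz
  by_cases hn : f.natDegree = 0
  · rw [Polynomial.natDegree_eq_zero] at hn
    obtain ⟨c, rfl⟩ := hn
    have hc : c = 1 := by simpa using hm.leadingCoeff
    subst hc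
    simp at hf
  simp only [Polynomial.eval₂_eq_sum_range, Finset.sum_range_succ, hm.coeff_natDegree, map_one,
    one_mul, add_eq_zero_iff_eq_neg] at hf
  apply_fun W.valuation at hf
  simp only [Valuation.map_neg, map_pow] at hf
  contrapose! hf
  refine ne_of_lt (W.valuation.map_sum_lt ?_ ?_)
  · simp [hn, (hf.trans' (zero_lt_one)).ne']
  · simp only [Finset.mem_range, map_mul, map_pow]
    intro _ hi
    exact mul_lt_of_le_one_of_lt ((W.valuation_le_one_iff _).mpr (h _)) <| pow_lt_pow_right₀ hf hi
end

variable {P F : Type*} [CommRing P] [IsDomain P] [IsNoetherianRing P] [Field F] [Algebra P F]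
  [FaithfulSMul P F] [Algebra.IsAlgebraic P F]

omit [FaithfulSMul P F] [Algebra.IsAlgebraic P F] in
/-- a valuation subring containing `P`, the inverses of all `s ∉ (l)` and `l⁻¹` contains the
inverses of all nonzero elements of `P`. -/
theorem inv_mem_of_inv_mem {l : P} (hl : Prime l) (W : ValuationSubring F)
    (hs : ∀ s : P, ¬ l ∣ s → (algebraMap P F s)⁻¹ ∈ W) (hlW : (algebraMap P F l)⁻¹ ∈ W)
    {c : P} (hc : c ≠ 0) : (algebraMap P F c)⁻¹ ∈ W := by
  obtain ⟨n, c', hc', rfl⟩ := WfDvdMonoid.max_power_factor hc hl.irreducible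
  rw [map_mul, map_pow, mul_inv, ← inv_pow]
  exact W.mul_mem _ _ (pow_mem hlW n) (hs c' hc')

theorem eq_top_of_inv_mem {l : P} (hl : Prime l) (W : ValuationSubring F)
    (hP : ∀ a : P, algebraMap P F a ∈ W)
    (hs : ∀ s : P, ¬ l ∣ s → (algebraMap P F s)⁻¹ ∈ W) (hlW : (algebraMap P F l)⁻¹ ∈ W)
    (x : F) : x ∈ W := by
  obtain ⟨c, hc, hcx⟩ := (Algebra.IsAlgebraic.isAlgebraic (R := P) x).exists_integral_multiple
  have h1 : c • x ∈ W := mem_of_isIntegral W hP hcx
  have h2 := inv_mem_of_inv_mem hl W hs hlW hc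
  have h3 : x = (algebraMap P F c)⁻¹ * (c • x) := by
    rw [Algebra.smul_def, ← mul_assoc, inv_mul_cancel₀, one_mul]
    rwa [Ne, map_eq_zero_iff _ (FaithfulSMul.algebraMap_injective P F)]
  rw [h3]
  exact W.mul_mem _ _ h2 h1

theorem exists_smul_isIntegral {l : P} (hl : Prime l) (O : ValuationSubring F)
    (huniq : ∀ W : ValuationSubring F, (∀ a : P, algebraMap P F a ∈ W) →
      (∀ s : P, ¬ l ∣ s → (algebraMap P F s)⁻¹ ∈ W) → (algebraMap P F l)⁻¹ ∉ W → W = O)
    {x : F} (hx : x ∈ O) : ∃ s : P, ¬ l ∣ s ∧ IsIntegral P (s • x) := by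
  have hprime : (Ideal.span {l}).IsPrime := (Ideal.span_singleton_prime hl.ne_zero).mpr hl
  let V := Localization.AtPrime (Ideal.span {l})
  have hunit : ∀ y : (Ideal.span {l}).primeCompl, IsUnit (algebraMap P F y) := by
    intro y
    refine IsUnit.mk0 _ ?_
    rw [Ne, map_eq_zero_iff _ (FaithfulSMul.algebraMap_injective P F)]
    rintro h
    exact y.2 (h ▸ Ideal.zero_mem _)
  let φ : V →+* F := IsLocalization.lift hunit
  let _ : Algebra V F := φ.toAlgebra
  have : IsScalarTower P V F :=
    IsScalarTower.of_algebraMap_eq fun a => (IsLocalization.lift_eq hunit a).symm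
  have hint : IsIntegral V x := by
    by_contra hnot
    have hxC : x ∉ (integralClosure V F).toSubring := hnot
    obtain ⟨W, hCW, hxW⟩ :=
      Subring.exists_le_valuationSubring_of_isIntegrallyClosedIn hxC
    have hVW : ∀ v : V, algebraMap V F v ∈ W := fun v =>
      hCW ((integralClosure V F).algebraMap_mem v)
    have hPW : ∀ a : P, algebraMap P F a ∈ W := by
      intro a
      rw [IsScalarTower.algebraMap_apply P V F]
      exact hVW _
    have hsW : ∀ s : P, ¬ l ∣ s → (algebraMap P F s)⁻¹ ∈ W := by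
      intro s hs
      have hs' : s ∈ (Ideal.span {l}).primeCompl := by
        show s ∉ Ideal.span {l}
        rwa [Ideal.mem_span_singleton]
      have := hVW (IsLocalization.mk' V (1 : P) ⟨s, hs'⟩)
      have h2 : algebraMap V F (IsLocalization.mk' V (1 : P) ⟨s, hs'⟩) = (algebraMap P F s)⁻¹ := by
        apply eq_inv_of_mul_eq_one_left
        rw [IsScalarTower.algebraMap_apply P V F, ← map_mul,
          IsLocalization.mk'_spec, map_one, map_one]
      rwa [h2] at this
    by_cases hlW : (algebraMap P F l)⁻¹ ∈ W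
    · exact hxW (eq_top_of_inv_mem hl W hPW hsW hlW x)
    · exact hxW ((huniq W hPW hsW hlW).symm ▸ hx)
  obtain ⟨m, hm⟩ := IsIntegral.exists_multiple_integral_of_isLocalization
    (Ideal.span {l}).primeCompl x hint
  refine ⟨m, ?_, ?_⟩
  · have := m.2
    intro hdvd
    exact this (Ideal.mem_span_singleton.mpr hdvd)
  · rwa [Submonoid.smul_def] at hm

end Fermat.Agent.S18.Purity.GlueGaussLoc_helper29
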